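import Mathlib

set_option autoImplicit false

open UpperHalfPlane hiding I
open Real Complex Matrix SpecialLinearGroup CongruenceSubgroup
open scoped Manifold MatrixGroups ModularForm Topology

namespace Fermat.Agent.S22.H15

theorem conj_T_pow_mem_Gamma0 (N : ℕ) (δ : SL(2, ℤ)) :
    δ * ModularGroup.T ^ (N : ℤ) * δ⁻¹ ∈ Gamma0 N := by
  have h1 : ModularGroup.T ^ (N : ℤ) ∈ CongruenceSubgroup.Gamma N := by
    simpa using ModularGroup_T_pow_mem_Gamma (N : ℤ) (N : ℤ) dvd_rfl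
  have h2 : δ * ModularGroup.T ^ (N : ℤ) * δ⁻¹ ∈ CongruenceSubgroup.Gamma N :=
    (Gamma_normal N).conj_mem _ h1 δ
  rw [CongruenceSubgroup.Gamma_mem] at h2
  rw [Gamma0_mem]
  exact h2.2.2.1

theorem slash_T_zpow_apply (G : ℍ → ℂ) (k n : ℤ) (z : ℍ) :
    (G ∣[k] (ModularGroup.T ^ n)) z = G ((n : ℝ) +ᵥ z) := by
  rw [ModularForm.SL_slash_apply, modular_T_zpow_smul]
  have hd : denom ((ModularGroup.T ^ n : SL(2, ℤ)) : GL (Fin 2) ℝ) z = 1 := by
    simp [denom, ModularGroup.coe_T_zpow, -map_zpow]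
  rw [hd]
  simp

/-- If `F` is invariant under `Γ₀(N)` then every `SL(2, ℤ)`-translate of `F` is `N`-periodic. -/
theorem periodic_slash_of_invariant (N : ℕ) (k : ℤ) (F : ℍ → ℂ)
    (hinv : ∀ γ : SL(2, ℤ), γ ∈ Gamma0 N → F ∣[k] γ = F) (δ : SL(2, ℤ)) (z : ℍ) :
    (F ∣[k] δ) ((N : ℝ) +ᵥ z) = (F ∣[k] δ) z := by
  have h := slash_T_zpow_apply (F ∣[k] δ) k (N : ℤ) z
  have e : (F ∣[k] δ) ∣[k] (ModularGroup.T ^ (N : ℤ)) = F ∣[k] δ := by
    rw [← SlashAction.slash_mul]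
    have : δ * ModularGroup.T ^ (N : ℤ) = (δ * ModularGroup.T ^ (N : ℤ) * δ⁻¹) * δ := by
      group
    rw [this, SlashAction.slash_mul, hinv _ (conj_T_pow_mem_Gamma0 N δ)]
  rw [e] at h
  rw [h]
  simp

theorem periodic_comp_ofComplex_slash_of_invariant (N : ℕ) (k : ℤ) (F : ℍ → ℂ)
    (hinv : ∀ γ : SL(2, ℤ), γ ∈ Gamma0 N → F ∣[k] γ = F) (δ : SL(2, ℤ)) :
    Function.Periodic ((F ∣[k] δ) ∘ ofComplex) (N : ℝ) := by
  intro w
  by_cases hw : 0 < w.im
  · have hw' : 0 < (w + (N : ℝ)).im := by simpa using hw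
    simp only [Function.comp_apply]
    rw [ofComplex_apply_of_im_pos hw, ofComplex_apply_of_im_pos hw']
    have := periodic_slash_of_invariant N k F hinv δ ⟨w, hw⟩
    convert this using 2
    ext
    simp [add_comm]
  · have hw' : ¬ 0 < (w + (N : ℝ)).im := by simpa using hw
    simp only [Function.comp_apply]
    rw [ofComplex_apply_of_im_nonpos (not_lt.mp hw), ofComplex_apply_of_im_nonpos (not_lt.mp hw')]

end Fermat.Agent.S22.H15
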