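import Fermat.Agent.S22.PeriodicPrimitive

set_option autoImplicit false

/-!
# Iterated decaying periodic primitives, and uniqueness of primitives on `ℍ`
-/

open UpperHalfPlane hiding I
open Function Complex Filter Topology
open scoped Real Manifold

namespace Fermat.Agent.S22

/-- The property of being a holomorphic `h`-periodic function on `ℍ` vanishing at `i∞`. -/
structure IsDecayingPeriodic (h : ℝ) (F : ℍ → ℂ) : Prop where
  mdiff : MDiff F
  periodic : Periodic (F ∘ ofComplex) h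
  zero : IsZeroAtImInfty F

/-- One step: choose a decaying periodic primitive. -/
theorem IsDecayingPeriodic.exists_primitive {h : ℝ} (hh : 0 < h) {F : ℍ → ℂ}
    (hF : IsDecayingPeriodic h F) :
    ∃ E : ℍ → ℂ, IsDecayingPeriodic h E ∧ ∀ z : ℍ, HasDerivAt (E ∘ ofComplex) (F z) z := by
  obtain ⟨E, h1, h2, h3, h4⟩ := exists_periodic_primitive hh F hF.mdiff hF.periodic hF.zero
  exact ⟨E, ⟨h1, h2, h3⟩, h4⟩

/-- A chosen decaying periodic primitive. -/
noncomputable def decayingPrimitive {h : ℝ} (hh : 0 < h) (F : {F : ℍ → ℂ // IsDecayingPeriodic h F}) :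
    {F : ℍ → ℂ // IsDecayingPeriodic h F} :=
  ⟨(F.2.exists_primitive hh).choose, (F.2.exists_primitive hh).choose_spec.1⟩

theorem decayingPrimitive_hasDerivAt {h : ℝ} (hh : 0 < h)
    (F : {F : ℍ → ℂ // IsDecayingPeriodic h F}) (z : ℍ) :
    HasDerivAt ((decayingPrimitive hh F).1 ∘ ofComplex) (F.1 z) z :=
  (F.2.exists_primitive hh).choose_spec.2 z

/-- A whole tower of iterated decaying periodic primitives. -/
theorem exists_iterated_periodic_primitive {h : ℝ} (hh : 0 < h) (F : ℍ → ℂ)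
    (hol : MDiff F) (per : Periodic (F ∘ ofComplex) h) (zero : IsZeroAtImInfty F) :
    ∃ E : ℕ → ℍ → ℂ, E 0 = F ∧ ∀ m, MDiff (E m) ∧ Periodic (E m ∘ ofComplex) h ∧
      IsZeroAtImInfty (E m) ∧ ∀ z : ℍ, HasDerivAt (E (m + 1) ∘ ofComplex) (E m z) z := by
  let F0 : {F : ℍ → ℂ // IsDecayingPeriodic h F} := ⟨F, ⟨hol, per, zero⟩⟩
  refine ⟨fun m => ((decayingPrimitive hh)^[m] F0).1, rfl, fun m => ?_⟩
  have hm := ((decayingPrimitive hh)^[m] F0).2
  refine ⟨hm.mdiff, hm.periodic, hm.zero, fun z => ?_⟩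
  show HasDerivAt (((decayingPrimitive hh)^[m + 1] F0).1 ∘ ofComplex)
    (((decayingPrimitive hh)^[m] F0).1 z) z
  rw [Function.iterate_succ_apply']
  exact decayingPrimitive_hasDerivAt hh _ z

/-- `ofComplex` followed by a function on `ℍ`: the derivative at a point of `ℍ` only depends on
the values on `ℍ`. -/
lemma eventuallyEq_comp_ofComplex {A : ℍ → ℂ} {g : ℂ → ℂ}
    (hg : ∀ z : ℍ, g z = A z) (z : ℍ) : (A ∘ ofComplex) =ᶠ[𝓝 (z : ℂ)] g := by
  have hopen : {w : ℂ | 0 < w.im} ∈ 𝓝 (z : ℂ) :=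
    (isOpen_lt continuous_const Complex.continuous_im).mem_nhds z.im_pos
  filter_upwards [hopen] with w hw
  simp only [comp_apply, ofComplex_apply_of_im_pos hw]
  exact (hg ⟨w, hw⟩).symm

/-- In a tower of primitives, the `n`-th iterated derivative of the `n`-th member is the base. -/
theorem iteratedDeriv_tower {E : ℕ → ℍ → ℂ}
    (hE : ∀ m, ∀ z : ℍ, HasDerivAt (E (m + 1) ∘ ofComplex) (E m z) z) (n : ℕ) (z : ℍ) :
    iteratedDeriv n (E n ∘ ofComplex) z = E 0 z := by
  induction n generalizing z with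
  | zero => simp
  | succ n ih =>
    rw [iteratedDeriv_succ']
    have hopen : {w : ℂ | 0 < w.im} ∈ 𝓝 (z : ℂ) :=
      (isOpen_lt continuous_const Complex.continuous_im).mem_nhds z.im_pos
    have : deriv (E (n + 1) ∘ ofComplex) =ᶠ[𝓝 (z : ℂ)] (E n ∘ ofComplex) := by
      filter_upwards [hopen] with w hw
      have := (hE n ⟨w, hw⟩).deriv
      rw [this]
      simp only [comp_apply, ofComplex_apply_of_im_pos hw]
    rw [this.iteratedDeriv_eq n]
    exact ih z

/-- Two functions on `ℍ` with the same derivative differ by a constant. -/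
theorem exists_eq_add_const_of_hasDerivAt {A B : ℍ → ℂ} {a : ℍ → ℂ}
    (hA : ∀ z : ℍ, HasDerivAt (A ∘ ofComplex) (a z) z)
    (hB : ∀ z : ℍ, HasDerivAt (B ∘ ofComplex) (a z) z) :
    ∃ c : ℂ, ∀ z : ℍ, A z = B z + c := by
  have hs : IsOpen {w : ℂ | 0 < w.im} := isOpen_lt continuous_const Complex.continuous_im
  have hs' : IsPreconnected {w : ℂ | 0 < w.im} :=
    (convex_halfSpace_im_gt 0).isPreconnected
  have hdA : DifferentiableOn ℂ (A ∘ ofComplex) {w : ℂ | 0 < w.im} := fun w hw =>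
    (hA ⟨w, hw⟩).differentiableAt.differentiableWithinAt
  have hdB : DifferentiableOn ℂ (B ∘ ofComplex) {w : ℂ | 0 < w.im} := fun w hw =>
    (hB ⟨w, hw⟩).differentiableAt.differentiableWithinAt
  have hder : Set.EqOn (deriv (A ∘ ofComplex)) (deriv (B ∘ ofComplex)) {w : ℂ | 0 < w.im} := by
    intro w hw
    rw [(hA ⟨w, hw⟩).deriv, (hB ⟨w, hw⟩).deriv]
  obtain ⟨c, hc⟩ := hs.exists_eq_add_of_deriv_eq hs' hdA hdB hder
  refine ⟨c, fun z => ?_⟩
  have := hc z.im_pos
  simpa using this

/-- Decay along the vertical ray above `x`. -/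
def VertDecayAt (x : ℝ) (A : ℍ → ℂ) : Prop :=
  Tendsto (fun y : ℝ => A (ofComplex (x + y * I))) atTop (𝓝 0)

/-- A function vanishing at `i∞` decays along every vertical ray. -/
theorem vertDecayAt_of_isZeroAtImInfty {A : ℍ → ℂ} (hA : IsZeroAtImInfty A) (x : ℝ) :
    VertDecayAt x A := by
  unfold VertDecayAt
  have h1 : Tendsto (fun y : ℝ => ofComplex (x + y * I)) atTop atImInfty := by
    rw [atImInfty, tendsto_comap_iff]
    have : ∀ᶠ y : ℝ in atTop, (UpperHalfPlane.im ∘ fun y : ℝ => ofComplex (x + y * I)) y = y := by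
      filter_upwards [eventually_gt_atTop 0] with y hy
      have hy' : 0 < ((x : ℂ) + y * I).im := by simpa using hy
      simp only [comp_apply, ofComplex_apply_of_im_pos hy']
      simp [UpperHalfPlane.im]
    exact (tendsto_congr' this).mpr tendsto_id
  exact hA.comp h1

/-- Two functions on `ℍ` with the same derivative, both decaying along (possibly different)
vertical rays... with the same abscissa, are equal. -/
theorem eq_of_hasDerivAt_of_vertDecayAt {A B : ℍ → ℂ} {a : ℍ → ℂ}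
    (hA : ∀ z : ℍ, HasDerivAt (A ∘ ofComplex) (a z) z)
    (hB : ∀ z : ℍ, HasDerivAt (B ∘ ofComplex) (a z) z) {x : ℝ}
    (hA0 : VertDecayAt x A) (hB0 : VertDecayAt x B) : A = B := by
  obtain ⟨c, hc⟩ := exists_eq_add_const_of_hasDerivAt hA hB
  have h1 : Tendsto (fun y : ℝ => A (ofComplex (x + y * I)) - B (ofComplex (x + y * I)))
      atTop (𝓝 (0 - 0)) := hA0.sub hB0
  have h2 : (fun y : ℝ => A (ofComplex (x + y * I)) - B (ofComplex (x + y * I))) = fun _ => c := by
    funext y
    rw [hc]; ring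
  rw [h2, sub_zero] at h1
  have hc0 : c = 0 := tendsto_nhds_unique tendsto_const_nhds h1
  funext z
  rw [hc z, hc0, add_zero]

end Fermat.Agent.S22
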