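import Mathlib
import Fermat.Prelude.Def_CuspForm_HeckeAlgebra

set_option autoImplicit false

namespace Fermat.Agent.S22

/-- Elements of the adjoined algebra preserve a lattice of functionals preserved by generators. -/
theorem comp_mem_of_mem_adjoin {V : Type*} [AddCommGroup V] [Module ℂ V]
    (G : Set (Module.End ℂ V)) (L : Submodule ℤ (Module.Dual ℂ V))
    (hstab : ∀ g ∈ G, ∀ l ∈ L, l.comp g ∈ L)
    {t : Module.End ℂ V} (ht : t ∈ Algebra.adjoin ℤ G) :
    ∀ l ∈ L, l.comp t ∈ L := by
  induction ht using Algebra.adjoin_induction with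
  | mem x hx => exact hstab x hx
  | algebraMap r =>
    intro l hl
    have : l.comp (algebraMap ℤ (Module.End ℂ V) r) = r • l := by
      ext v
      simp
    rw [this]
    exact L.smul_mem r hl
  | add x y _ _ hx hy =>
    intro l hl
    rw [LinearMap.comp_add]
    exact L.add_mem (hx l hl) (hy l hl)
  | mul x y _ _ hx hy =>
    intro l hl
    have : l.comp (x * y) = (l.comp x).comp y := rfl
    rw [this]
    exact hy _ (hx l hl)

/-- Abstract finiteness criterion: a `ℤ`-subalgebra of `End_ℂ V` generated by operators whose
transposes preserve a finitely generated, point-separating subgroup of the dual is a finitely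
generated `ℤ`-module. -/
theorem finite_adjoin_of_stable_lattice {V : Type*} [AddCommGroup V] [Module ℂ V]
    (G : Set (Module.End ℂ V)) (L : Submodule ℤ (Module.Dual ℂ V)) (hfg : L.FG)
    (hsep : ∀ v : V, (∀ l ∈ L, l v = 0) → v = 0)
    (hstab : ∀ g ∈ G, ∀ l ∈ L, l.comp g ∈ L) :
    Module.Finite ℤ (Algebra.adjoin ℤ G) := by
  classical
  obtain ⟨s, hs⟩ := hfg
  have : Module.Finite ℤ L := Module.Finite.iff_fg.mpr ⟨s, hs⟩
  have hsL : ∀ x ∈ s, x ∈ L := fun x hx => hs ▸ Submodule.subset_span hx
  -- the evaluation map at generators
  let Ψ : (Algebra.adjoin ℤ G) →ₗ[ℤ] (s → L) :=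
    { toFun := fun t i => ⟨(i : Module.Dual ℂ V).comp (t : Module.End ℂ V),
        comp_mem_of_mem_adjoin G L hstab t.2 _ (hsL _ i.2)⟩
      map_add' := by
        intro t t'
        funext i
        apply Subtype.ext
        simp [LinearMap.comp_add]
      map_smul' := by
        intro r t
        funext i
        apply Subtype.ext
        apply LinearMap.ext
        intro v
        simp }
  have hΨ : Function.Injective Ψ := by
    rw [← LinearMap.ker_eq_bot, LinearMap.ker_eq_bot']
    intro t ht
    apply Subtype.ext
    apply LinearMap.ext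
    intro v
    apply hsep
    -- every l in L kills t v
    have key : ∀ l ∈ Submodule.span ℤ (s : Set (Module.Dual ℂ V)), l ((t : Module.End ℂ V) v) = 0 := by
      intro l hl
      induction hl using Submodule.span_induction with
      | mem x hx =>
        have := congrArg (fun f => ((f ⟨x, hx⟩ : L) : Module.Dual ℂ V) v) ht
        simpa [Ψ] using this
      | zero => simp
      | add x y _ _ hx hy => simp [hx, hy]
      | smul r x _ hx => simp [hx]
    intro l hl
    simpa using key l (hs ▸ hl)
  exact Module.Finite.of_injective Ψ hΨ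

end Fermat.Agent.S22
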