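import Mathlib

set_option autoImplicit false

open UpperHalfPlane hiding I
open Real Complex
open scoped Manifold MatrixGroups ModularForm Topology
open Derivative

namespace Fermat.Agent.S22

/-- Iterates of the normalised derivative preserve holomorphy. -/
theorem mdiff_iterate_D {F : ℍ → ℂ} (hF : MDiff F) (n : ℕ) : MDiff (D^[n] F) := by
  induction n with
  | zero => simpa using hF
  | succ n ih =>
    rw [Function.iterate_succ_apply']
    exact normalizedDerivOfComplex_mdifferentiable ih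

/-- The automorphy factor as a function on the upper half plane. -/
noncomputable def denomFun (g : GL (Fin 2) ℝ) : ℍ → ℂ := fun z => denom g z

theorem mdiff_denomFun (g : GL (Fin 2) ℝ) : MDiff (denomFun g) := by
  rw [UpperHalfPlane.mdifferentiable_iff]
  have : DifferentiableOn ℂ (fun w : ℂ => (g 1 0 : ℂ) * w + (g 1 1 : ℂ)) upperHalfPlaneSet := by
    fun_prop
  refine this.congr ?_
  intro z hz
  simp [denomFun, Function.comp_apply, ofComplex_apply_of_im_pos hz, denom]

theorem D_denomFun (g : GL (Fin 2) ℝ) :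
    D (denomFun g) = fun _ => (2 * π * I)⁻¹ * (g 1 0 : ℂ) := by
  ext z
  simp only [normalizedDerivOfComplex]
  congr 1
  have heq : (denomFun g ∘ ofComplex) =ᶠ[𝓝 (z : ℂ)]
      fun w : ℂ => (g 1 0 : ℂ) * w + (g 1 1 : ℂ) := by
    filter_upwards [isOpen_upperHalfPlaneSet.mem_nhds z.im_pos] with w hw
    simp [denomFun, Function.comp_apply, ofComplex_apply_of_im_pos hw, denom]
  rw [heq.deriv_eq]
  simp


/-- Leibniz rule for multiplication by the automorphy factor (which is linear in `z`). -/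
theorem iterate_D_denomFun_mul (g : GL (Fin 2) ℝ) {G : ℍ → ℂ} (hG : MDiff G) (n : ℕ) :
    D^[n + 1] (denomFun g * G) =
      denomFun g * D^[n + 1] G +
        (fun _ => ((n + 1 : ℕ) : ℂ) * ((2 * π * I)⁻¹ * (g 1 0 : ℂ))) * D^[n] G := by
  induction n with
  | zero =>
    simp only [Function.iterate_succ, Function.iterate_zero, Function.comp_apply, id_eq]
    rw [normalizedDerivOfComplex_mul _ _ (mdiff_denomFun g) hG, D_denomFun]
    ext z
    simp only [Pi.add_apply, Pi.mul_apply]
    push_cast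
    ring
  | succ n ih =>
    rw [Function.iterate_succ_apply', ih]
    have h1 : MDiff (D^[n + 1] G) := mdiff_iterate_D hG _
    have h2 : MDiff (D^[n] G) := mdiff_iterate_D hG _
    have hc : MDiff (fun _ : ℍ => ((n + 1 : ℕ) : ℂ) * ((2 * π * I)⁻¹ * (g 1 0 : ℂ))) :=
      mdifferentiable_const
    rw [normalizedDerivOfComplex_add _ _ ((mdiff_denomFun g).mul h1) (hc.mul h2),
      normalizedDerivOfComplex_mul _ _ (mdiff_denomFun g) h1,
      normalizedDerivOfComplex_mul _ _ hc h2, D_denomFun, normalizedDerivOfComplex_const]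
    rw [← Function.iterate_succ_apply' D (n + 1) G, ← Function.iterate_succ_apply' D n G]
    ext z
    simp only [Pi.add_apply, Pi.mul_apply, Pi.zero_apply]
    push_cast
    ring


theorem iterate_D_const_smul (c : ℂ) {F : ℍ → ℂ} (hF : MDiff F) (n : ℕ) :
    D^[n] (c • F) = c • D^[n] F := by
  induction n with
  | zero => simp
  | succ n ih =>
    rw [Function.iterate_succ_apply', ih, normalizedDerivOfComplex_smul _ _ (mdiff_iterate_D hF n),
      ← Function.iterate_succ_apply' D n F]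

/-- Slash action for positive determinant, spelled out. -/
theorem slash_apply_of_det_pos {g : GL (Fin 2) ℝ} (hg : 0 < g.val.det) (k : ℤ) (F : ℍ → ℂ)
    (z : ℍ) : (F ∣[k] g) z = F (g • z) * (g.val.det : ℂ) ^ (k - 1) * denom g z ^ (-k) := by
  have hdet : g.det.val = g.val.det := Matrix.GeneralLinearGroup.val_det_apply g
  have hσ (x) : σ g x = x := by grind [σ, ContinuousAlgEquiv.refl_apply]
  rw [ModularForm.slash_apply, hσ, hdet, abs_of_pos hg]

/-- Lowering the weight by one amounts to multiplying by the automorphy factor. -/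
theorem slash_pred_eq {g : GL (Fin 2) ℝ} (hg : 0 < g.val.det) (k : ℤ) (F : ℍ → ℂ) :
    F ∣[k - 1] g = ((g.val.det : ℂ)⁻¹) • (denomFun g * (F ∣[k] g)) := by
  have hdetℂ : (g.val.det : ℂ) ≠ 0 := Complex.ofReal_ne_zero.mpr hg.ne'
  ext z
  have hz := denom_ne_zero g z
  simp only [Pi.smul_apply, Pi.mul_apply, smul_eq_mul, denomFun,
    slash_apply_of_det_pos hg]
  rw [show k - 1 - 1 = (k - 1) - 1 by ring, show -(k - 1) = -k + 1 by ring,
    zpow_sub_one₀ hdetℂ, zpow_add_one₀ hz]
  field_simp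

/-- **Bol's identity**: the `n`-th derivative intertwines the weight `1 - n` and weight `1 + n`
slash actions. -/
theorem bol_aux {g : GL (Fin 2) ℝ} (hg : 0 < g.val.det) {F : ℍ → ℂ} (hF : MDiff F) (n : ℕ) :
    ∀ k k' : ℤ, k = 1 - n → k' = 1 + n →
      D^[n] (F ∣[k] g) = ((g.val.det : ℂ) ^ n)⁻¹ • ((D^[n] F) ∣[k'] g) := by
  have hdetℂ : (g.val.det : ℂ) ≠ 0 := Complex.ofReal_ne_zero.mpr hg.ne'
  induction n with
  | zero =>
    intro k k' hk hk'
    have : k = k' := by rw [hk, hk']; simp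
    subst this
    simp
  | succ n ih =>
    intro k k' hk hk'
    have ih' := ih (k + 1) (k' - 1) (by rw [hk]; push_cast; ring) (by rw [hk']; push_cast; ring)
    set G : ℍ → ℂ := F ∣[k + 1] g with hG
    have hGd : MDiff G := hF.slash (k + 1) g
    set H : ℍ → ℂ := D^[n] F with hH
    have hHd : MDiff H := mdiff_iterate_D hF n
    have hslashH : MDiff (H ∣[k' - 1] g) := hHd.slash (k' - 1) g
    -- rewrite the weight `k` slash
    have e1 : F ∣[k] g = ((g.val.det : ℂ)⁻¹) • (denomFun g * G) := by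
      have := slash_pred_eq hg (k + 1) F
      rwa [add_sub_cancel_right] at this
    rw [e1, iterate_D_const_smul _ ((mdiff_denomFun g).mul hGd), iterate_D_denomFun_mul g hGd n]
    -- compute the two pieces
    have e2 : D^[n + 1] G = D (((g.val.det : ℂ) ^ n)⁻¹ • (H ∣[k' - 1] g)) := by
      rw [Function.iterate_succ_apply', ih']
    rw [e2, ih', normalizedDerivOfComplex_smul _ _ hslashH,
      normalizedDerivOfComplex_slash hHd hg]
    have e3 : D H = D^[n + 1] F := by
      rw [hH, ← Function.iterate_succ_apply' D n F]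
    rw [e3]
    ext z
    have hz := denom_ne_zero g z
    have hk'' : k' - 1 + 2 = k' + 1 := by ring
    simp only [Pi.smul_apply, Pi.mul_apply, Pi.add_apply, smul_eq_mul, denomFun, hk'',
      slash_apply_of_det_pos hg]
    rw [show k' + 1 - 1 = (k' - 1) + 1 by ring, show -(k' + 1) = -k' - 1 by ring,
      show -(k' - 1) = -k' + 1 by ring,
      zpow_add_one₀ hdetℂ, zpow_sub_one₀ hz, zpow_add_one₀ hz, zpow_sub_one₀ hdetℂ]
    have hk'n : ((k' - 1 : ℤ) : ℂ) = ((n : ℕ) : ℂ) + 1 := by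
      have : (k' : ℤ) - 1 = (n : ℤ) + 1 := by rw [hk']; push_cast; ring
      exact_mod_cast this
    rw [hk'n, pow_succ]
    generalize (g.val.det : ℂ) ^ (k' - 1) = a
    generalize denom g z ^ (-k') = b
    push_cast
    field_simp
    ring

theorem bol {g : GL (Fin 2) ℝ} (hg : 0 < g.val.det) {F : ℍ → ℂ} (hF : MDiff F) (n : ℕ) :
    D^[n] (F ∣[(1 : ℤ) - n] g) = ((g.val.det : ℂ) ^ n)⁻¹ • ((D^[n] F) ∣[(1 : ℤ) + n] g) :=
  bol_aux hg hF n _ _ rfl rfl


/-- Bol's identity for `SL(2, ℤ)`: no determinant factor. -/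
theorem bol_SL (γ : SL(2, ℤ)) {F : ℍ → ℂ} (hF : MDiff F) (n : ℕ) :
    D^[n] (F ∣[(1 : ℤ) - n] γ) = (D^[n] F) ∣[(1 : ℤ) + n] γ := by
  have hdet : (γ : GL (Fin 2) ℝ).val.det = 1 := by
    rw [← Matrix.GeneralLinearGroup.val_det_apply]; simp
  have h := bol (g := (γ : GL (Fin 2) ℝ)) (by rw [hdet]; exact one_pos) hF n
  rw [hdet] at h
  simpa [ModularForm.SL_slash] using h

/-- Bol's identity in the form used for Eichler integrals: weight `-w` to weight `w + 2`. -/
theorem bol_SL' (γ : SL(2, ℤ)) {F : ℍ → ℂ} (hF : MDiff F) (w : ℕ) :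
    D^[w + 1] (F ∣[-(w : ℤ)] γ) = (D^[w + 1] F) ∣[(w : ℤ) + 2] γ := by
  have h := bol_SL γ hF (w + 1)
  have e1 : (1 : ℤ) - ((w + 1 : ℕ) : ℤ) = -(w : ℤ) := by push_cast; ring
  have e2 : (1 : ℤ) + ((w + 1 : ℕ) : ℤ) = (w : ℤ) + 2 := by push_cast; ring
  rwa [e1, e2] at h

/-- Bol's identity for `GL(2, ℝ)⁺` in the form used for Eichler integrals. -/
theorem bol' {g : GL (Fin 2) ℝ} (hg : 0 < g.val.det) {F : ℍ → ℂ} (hF : MDiff F) (w : ℕ) :
    D^[w + 1] (F ∣[-(w : ℤ)] g) =
      ((g.val.det : ℂ) ^ (w + 1))⁻¹ • ((D^[w + 1] F) ∣[(w : ℤ) + 2] g) := by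
  have h := bol hg hF (w + 1)
  have e1 : (1 : ℤ) - ((w + 1 : ℕ) : ℤ) = -(w : ℤ) := by push_cast; ring
  have e2 : (1 : ℤ) + ((w + 1 : ℕ) : ℤ) = (w : ℤ) + 2 := by push_cast; ring
  rwa [e1, e2] at h

/-- The normalised derivative computed from a pointwise `HasDerivAt` statement. -/
theorem D_eq_of_hasDerivAt {E F : ℍ → ℂ}
    (h : ∀ z : ℍ, HasDerivAt (E ∘ ofComplex) (F z) z) : D E = (2 * π * I)⁻¹ • F := by
  ext z
  simp only [normalizedDerivOfComplex, Pi.smul_apply, smul_eq_mul, (h z).deriv]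

/-- Relation between iterates of `D` and `iteratedDeriv`. -/
theorem iterate_D_eq_iteratedDeriv (F : ℍ → ℂ) (n : ℕ) (z : ℍ) :
    D^[n] F z = ((2 * π * I)⁻¹) ^ n * iteratedDeriv n (F ∘ ofComplex) z := by
  induction n generalizing z with
  | zero => simp
  | succ n ih =>
    rw [Function.iterate_succ_apply', iteratedDeriv_succ]
    simp only [normalizedDerivOfComplex]
    have heq : (D^[n] F ∘ ofComplex) =ᶠ[𝓝 (z : ℂ)]
        fun w : ℂ => ((2 * π * I)⁻¹) ^ n * iteratedDeriv n (F ∘ ofComplex) w := by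
      filter_upwards [isOpen_upperHalfPlaneSet.mem_nhds z.im_pos] with w hw
      have := ih ⟨w, hw⟩
      simpa [Function.comp_apply, ofComplex_apply_of_im_pos hw] using this
    rw [heq.deriv_eq, deriv_const_mul_field, pow_succ]
    ring

end Fermat.Agent.S22
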