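import Mathlib

/-!
# S22: `Γ₀(N)` is a finitely generated group
-/

set_option autoImplicit false

namespace Fermat.Agent.S22

open scoped MatrixGroups
open Matrix.SpecialLinearGroup

/-- `SL(2, ℤ)` is finitely generated (by `S` and `T`). -/
theorem sl2Z_fg : Group.FG SL(2, ℤ) := by
  rw [Group.fg_iff]
  refine ⟨{ModularGroup.S, ModularGroup.T}, SpecialLinearGroup.SL2Z_generators, ?_⟩
  exact Set.toFinite _

/-- `Γ₀(N)` is finitely generated for `N ≠ 0`. -/
theorem gamma0_fg (N : ℕ) [NeZero N] : Group.FG (CongruenceSubgroup.Gamma0 N) := by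
  have := sl2Z_fg
  exact Subgroup.fg_of_index_ne_zero _

/-- A finite symmetric generating set of `Γ₀(N)`. -/
theorem gamma0_exists_finite_generators (N : ℕ) [NeZero N] :
    ∃ s : Finset (CongruenceSubgroup.Gamma0 N),
      Subgroup.closure (s : Set (CongruenceSubgroup.Gamma0 N)) = ⊤ := by
  have := gamma0_fg N
  exact Group.fg_def.mp this

end Fermat.Agent.S22
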