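import Fermat.Agent.S22.PolyAct

/-!
# S22: abstract finite generation of the period lattice

Given a finitely generated group `Γ`, a map `mat : Γ → M₂(ℤ)`, and a "polynomial cocycle"
`p : Γ → V →ₗ[ℂ] ℂ[X]` with `p (γ δ) = polyAct w (mat δ) ∘ p γ + p δ`, the `ℤ`-span of all
coefficient functionals `f ↦ coeff_j (p γ f)` (`j ≤ w`) is finitely generated.
-/

set_option autoImplicit false

namespace Fermat.Agent.S22

open Polynomial Finset

variable {Γ : Type*} {V : Type*} [AddCommGroup V] [Module ℂ V]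

/-- The coefficient functional `f ↦ coeff_j (p f)`. -/
noncomputable def coeffFunctional (p : V →ₗ[ℂ] ℂ[X]) (j : ℕ) : Module.Dual ℂ V :=
  (lcoeff ℂ j) ∘ₗ p

@[simp] theorem coeffFunctional_apply (p : V →ₗ[ℂ] ℂ[X]) (j : ℕ) (f : V) :
    coeffFunctional p j f = (p f).coeff j := rfl

/-- The period lattice attached to a polynomial cocycle. -/
def periodLattice (w : ℕ) (p : Γ → V →ₗ[ℂ] ℂ[X]) : Submodule ℤ (Module.Dual ℂ V) :=
  Submodule.span ℤ {l | ∃ γ : Γ, ∃ j : ℕ, j ≤ w ∧ l = coeffFunctional (p γ) j}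

theorem coeffFunctional_mem_periodLattice (w : ℕ) (p : Γ → V →ₗ[ℂ] ℂ[X]) (γ : Γ) {j : ℕ}
    (hj : j ≤ w) : coeffFunctional (p γ) j ∈ periodLattice w p :=
  Submodule.subset_span ⟨γ, j, hj, rfl⟩

/-- Coefficient functionals of `polyAct w M ∘ q` are integer combinations of those of `q`. -/
theorem coeffFunctional_polyAct_comp (w : ℕ) (M : Matrix (Fin 2) (Fin 2) ℤ) (q : V →ₗ[ℂ] ℂ[X])
    (i : ℕ) :
    coeffFunctional ((polyAct w M) ∘ₗ q) i
      = ∑ j ∈ range (w + 1), ((basisPoly w M j).coeff i : ℤ) • coeffFunctional q j := by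
  ext f
  simp only [coeffFunctional_apply, LinearMap.comp_apply, coeff_polyAct, LinearMap.sum_apply,
    LinearMap.smul_apply]

theorem periodLattice_fg [Group Γ] (hΓ : Group.FG Γ) (w : ℕ) (mat : Γ → Matrix (Fin 2) (Fin 2) ℤ)
    (p : Γ → V →ₗ[ℂ] ℂ[X]) (hone : p 1 = 0)
    (hcoc : ∀ γ δ : Γ, p (γ * δ) = (polyAct w (mat δ)) ∘ₗ (p γ) + p δ) :
    (periodLattice w p).FG := by
  obtain ⟨S, hS⟩ := Group.fg_def.mp hΓ
  -- the finitely generated candidate
  set L : Submodule ℤ (Module.Dual ℂ V) :=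
    Submodule.span ℤ ((fun x : Γ × ℕ => coeffFunctional (p x.1) x.2) '' (S ×ˢ range (w + 1) : Finset _))
    with hL
  have hLfg : L.FG := by
    rw [hL]
    exact Submodule.fg_span ((Finset.finite_toSet _).image _)
  -- every coefficient functional lies in `L`
  have key : ∀ γ : Γ, ∀ j : ℕ, j ≤ w → coeffFunctional (p γ) j ∈ L := by
    intro γ
    have hγ : γ ∈ Subgroup.closure (S : Set Γ) := by rw [hS]; trivial
    induction hγ using Subgroup.closure_induction with
    | mem x hx =>
      intro j hj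
      refine Submodule.subset_span ⟨(x, j), ?_, rfl⟩
      simp only [coe_product, Set.mem_prod, mem_coe, mem_range]
      exact ⟨hx, Nat.lt_succ_of_le hj⟩
    | one =>
      intro j _
      rw [hone]
      have : coeffFunctional (0 : V →ₗ[ℂ] ℂ[X]) j = 0 := by ext f; simp
      rw [this]; exact L.zero_mem
    | mul x y _ _ hx hy =>
      intro i hi
      have : coeffFunctional (p (x * y)) i
          = coeffFunctional ((polyAct w (mat y)) ∘ₗ (p x)) i + coeffFunctional (p y) i := by
        rw [hcoc]; ext f; simp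
      rw [this, coeffFunctional_polyAct_comp]
      refine L.add_mem (L.sum_mem fun j hj => L.smul_mem _ (hx j ?_)) (hy i hi)
      exact Nat.lt_succ_iff.mp (mem_range.mp hj)
    | inv x _ hx =>
      intro i hi
      have h0 : (polyAct w (mat x⁻¹)) ∘ₗ (p x) + p x⁻¹ = 0 := by
        rw [← hcoc, mul_inv_cancel, hone]
      have : coeffFunctional (p x⁻¹) i
          = - coeffFunctional ((polyAct w (mat x⁻¹)) ∘ₗ (p x)) i := by
        have h1 : p x⁻¹ = - ((polyAct w (mat x⁻¹)) ∘ₗ (p x)) := by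
          rw [eq_neg_iff_add_eq_zero, add_comm]; exact h0
        rw [h1]; ext f; simp
      rw [this, coeffFunctional_polyAct_comp]
      refine L.neg_mem (L.sum_mem fun j hj => L.smul_mem _ (hx j ?_))
      exact Nat.lt_succ_iff.mp (mem_range.mp hj)
  have hle : periodLattice w p ≤ L := by
    refine Submodule.span_le.mpr ?_
    rintro _ ⟨γ, j, hj, rfl⟩
    exact key γ j hj
  have hge : L ≤ periodLattice w p := by
    refine Submodule.span_le.mpr ?_
    rintro _ ⟨⟨γ, j⟩, hx, rfl⟩
    simp only [coe_product, Set.mem_prod, mem_coe, mem_range] at hx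
    exact coeffFunctional_mem_periodLattice w p γ (Nat.lt_succ_iff.mp hx.2)
  rw [le_antisymm hle hge]
  exact hLfg

end Fermat.Agent.S22
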