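import Mathlib

/-!
# S22: the weight `-w` action of integral `2 × 2` matrices on polynomials of degree `≤ w`

For an integer matrix `M = !![a, b; c, d]` and a complex polynomial `P` of degree `≤ w` we define
`polyAct w M P = ∑_{j ≤ w} coeff_j(P) (aX+b)^j (cX+d)^(w-j)`, so that
`(polyAct w M P)(z) = (c z + d)^w P((a z + b)/(c z + d))`.
-/

set_option autoImplicit false

namespace Fermat.Agent.S22

open Polynomial Finset

/-- The integer polynomial `(aX+b)^j (cX+d)^(w-j)`. -/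
noncomputable def basisPoly (w : ℕ) (M : Matrix (Fin 2) (Fin 2) ℤ) (j : ℕ) : ℤ[X] :=
  (C (M 0 0) * X + C (M 0 1)) ^ j * (C (M 1 0) * X + C (M 1 1)) ^ (w - j)

theorem natDegree_basisPoly_le (w : ℕ) (M : Matrix (Fin 2) (Fin 2) ℤ) {j : ℕ} (hj : j ≤ w) :
    (basisPoly w M j).natDegree ≤ w := by
  unfold basisPoly
  have h1 : (C (M 0 0) * X + C (M 0 1) : ℤ[X]).natDegree ≤ 1 := natDegree_linear_le
  have h2 : (C (M 1 0) * X + C (M 1 1) : ℤ[X]).natDegree ≤ 1 := natDegree_linear_le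
  calc _ ≤ ((C (M 0 0) * X + C (M 0 1) : ℤ[X]) ^ j).natDegree
        + ((C (M 1 0) * X + C (M 1 1) : ℤ[X]) ^ (w - j)).natDegree := natDegree_mul_le
    _ ≤ j * 1 + (w - j) * 1 := by
        gcongr
        · exact natDegree_pow_le_of_le j h1
        · exact natDegree_pow_le_of_le (w - j) h2
    _ = w := by omega

/-- The action of an integer matrix on complex polynomials (of degree `≤ w`). -/
noncomputable def polyAct (w : ℕ) (M : Matrix (Fin 2) (Fin 2) ℤ) : ℂ[X] →ₗ[ℂ] ℂ[X] where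
  toFun P := ∑ j ∈ range (w + 1), P.coeff j • (basisPoly w M j).map (Int.castRingHom ℂ)
  map_add' P Q := by
    simp only [coeff_add, add_smul, sum_add_distrib]
  map_smul' c P := by
    simp only [coeff_smul, smul_eq_mul, RingHom.id_apply, smul_sum, mul_smul]

theorem polyAct_apply (w : ℕ) (M : Matrix (Fin 2) (Fin 2) ℤ) (P : ℂ[X]) :
    polyAct w M P = ∑ j ∈ range (w + 1), P.coeff j • (basisPoly w M j).map (Int.castRingHom ℂ) :=
  rfl

theorem natDegree_polyAct_le (w : ℕ) (M : Matrix (Fin 2) (Fin 2) ℤ) (P : ℂ[X]) :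
    (polyAct w M P).natDegree ≤ w := by
  rw [polyAct_apply]
  refine natDegree_sum_le_of_forall_le _ _ (fun j hj => ?_)
  have hj' : j ≤ w := Nat.lt_succ_iff.mp (mem_range.mp hj)
  calc _ ≤ ((basisPoly w M j).map (Int.castRingHom ℂ)).natDegree := natDegree_smul_le _ _
    _ ≤ (basisPoly w M j).natDegree := natDegree_map_le
    _ ≤ w := natDegree_basisPoly_le w M hj'

/-- Coefficients of `polyAct w M P` are integer combinations of the coefficients of `P`. -/
theorem coeff_polyAct (w : ℕ) (M : Matrix (Fin 2) (Fin 2) ℤ) (P : ℂ[X]) (i : ℕ) :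
    (polyAct w M P).coeff i = ∑ j ∈ range (w + 1), ((basisPoly w M j).coeff i : ℤ) • P.coeff j := by
  rw [polyAct_apply, finsetSum_coeff]
  refine sum_congr rfl (fun j _ => ?_)
  rw [coeff_smul, coeff_map, smul_eq_mul, zsmul_eq_mul, mul_comm]
  simp

/-- Evaluation formula: `(polyAct w M P)(z) = (cz+d)^w P((az+b)/(cz+d))`. -/
theorem eval_polyAct (w : ℕ) (M : Matrix (Fin 2) (Fin 2) ℤ) {P : ℂ[X]} (hP : P.natDegree ≤ w)
    {z : ℂ} (hz : (M 1 0 : ℂ) * z + M 1 1 ≠ 0) :
    (polyAct w M P).eval z =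
      ((M 1 0 : ℂ) * z + M 1 1) ^ w *
        P.eval (((M 0 0 : ℂ) * z + M 0 1) / ((M 1 0 : ℂ) * z + M 1 1)) := by
  rw [polyAct_apply, eval_finsetSum]
  rw [eval_eq_sum_range' (Nat.lt_succ_of_le hP), mul_sum]
  refine sum_congr rfl (fun j hj => ?_)
  have hj' : j ≤ w := Nat.lt_succ_iff.mp (mem_range.mp hj)
  rw [eval_smul, smul_eq_mul]
  have : ((basisPoly w M j).map (Int.castRingHom ℂ)).eval z =
      ((M 0 0 : ℂ) * z + M 0 1) ^ j * ((M 1 0 : ℂ) * z + M 1 1) ^ (w - j) := by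
    simp [basisPoly]
  rw [this, div_pow]
  have hw : ((M 1 0 : ℂ) * z + M 1 1) ^ w
      = ((M 1 0 : ℂ) * z + M 1 1) ^ (w - j) * ((M 1 0 : ℂ) * z + M 1 1) ^ j := by
    rw [← pow_add, Nat.sub_add_cancel hj']
  rw [hw]
  generalize (M 1 0 : ℂ) * z + M 1 1 = D at hz ⊢
  generalize (M 0 0 : ℂ) * z + M 0 1 = A
  have hne : D ^ j ≠ 0 := pow_ne_zero _ hz
  field_simp

/-- Two polynomials agreeing on the upper half plane are equal. -/
theorem poly_eq_of_eval_eq_on_upperHalfPlane {P Q : ℂ[X]}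
    (h : ∀ z : ℂ, 0 < z.im → P.eval z = Q.eval z) : P = Q := by
  apply Polynomial.eq_of_infinite_eval_eq
  have hinf : Set.Infinite (Set.range fun n : ℕ => ((n : ℂ) + Complex.I)) := by
    apply Set.infinite_range_of_injective
    intro m n hmn
    have := congrArg Complex.re hmn
    simpa using this
  refine hinf.mono ?_
  rintro _ ⟨n, rfl⟩
  exact h _ (by simp)

end Fermat.Agent.S22
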