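import Mathlib
import Fermat.Agent.S22.Bol

set_option autoImplicit false

open UpperHalfPlane hiding I
open Real Complex
open scoped Manifold MatrixGroups ModularForm Topology
open Derivative

namespace Fermat.Agent.S22

/-- Polynomial functions on the upper half plane. -/
noncomputable def polyFun (P : Polynomial ℂ) : ℍ → ℂ := fun z => P.eval (z : ℂ)

theorem mdiff_polyFun (P : Polynomial ℂ) : MDiff (polyFun P) := by
  rw [UpperHalfPlane.mdifferentiable_iff]
  have : DifferentiableOn ℂ (fun w : ℂ => P.eval w) upperHalfPlaneSet :=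
    P.differentiable.differentiableOn
  refine this.congr ?_
  intro z hz
  simp [polyFun, Function.comp_apply, ofComplex_apply_of_im_pos hz]

theorem D_polyFun (P : Polynomial ℂ) :
    D (polyFun P) = (2 * π * I)⁻¹ • polyFun (Polynomial.derivative P) := by
  ext z
  simp only [normalizedDerivOfComplex, Pi.smul_apply, smul_eq_mul, polyFun]
  congr 1
  have heq : (polyFun P ∘ ofComplex) =ᶠ[𝓝 (z : ℂ)] fun w : ℂ => P.eval w := by
    filter_upwards [isOpen_upperHalfPlaneSet.mem_nhds z.im_pos] with w hw
    simp [polyFun, Function.comp_apply, ofComplex_apply_of_im_pos hw]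
  rw [heq.deriv_eq, Polynomial.deriv]

/-- A holomorphic function on `ℍ` with vanishing derivative is constant. -/
theorem exists_const_of_D_eq_zero {F : ℍ → ℂ} (hF : MDiff F) (h : D F = 0) :
    ∃ c : ℂ, ∀ z : ℍ, F z = c := by
  have hdiff : DifferentiableOn ℂ (F ∘ ofComplex) upperHalfPlaneSet :=
    UpperHalfPlane.mdifferentiable_iff.mp hF
  have hconn : IsPreconnected upperHalfPlaneSet :=
    (convex_halfSpace_im_gt 0).isPreconnected
  have hderiv : upperHalfPlaneSet.EqOn (deriv (F ∘ ofComplex)) 0 := by
    intro w hw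
    have h2pi : ((2 * π * I : ℂ))⁻¹ ≠ 0 := by
      simp [Real.pi_ne_zero, Complex.I_ne_zero]
    have := congrFun h ⟨w, hw⟩
    simp only [normalizedDerivOfComplex, Pi.zero_apply] at this
    rcases mul_eq_zero.mp this with h1 | h1
    · exact absurd h1 h2pi
    · simpa using h1
  obtain ⟨a, ha⟩ := isOpen_upperHalfPlaneSet.exists_is_const_of_deriv_eq_zero hconn hdiff hderiv
  refine ⟨a, fun z => ?_⟩
  have := ha (z : ℂ) z.im_pos
  simpa [Function.comp_apply] using this

/-- Antiderivative of a complex polynomial. -/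
noncomputable def polyPrim (Q : Polynomial ℂ) : Polynomial ℂ :=
  Q.sum fun i a => Polynomial.C (a / ((i : ℂ) + 1)) * Polynomial.X ^ (i + 1)

theorem derivative_polyPrim (Q : Polynomial ℂ) : Polynomial.derivative (polyPrim Q) = Q := by
  unfold polyPrim
  rw [Polynomial.sum_def, Polynomial.derivative_sum]
  conv_rhs => rw [← Polynomial.sum_monomial_eq Q, Polynomial.sum_def]
  refine Finset.sum_congr rfl fun i _ => ?_
  rw [Polynomial.derivative_C_mul_X_pow]
  simp only [add_tsub_cancel_right, Nat.cast_add, Nat.cast_one]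
  rw [← Polynomial.C_mul_X_pow_eq_monomial]
  congr 2
  have : ((i : ℂ) + 1) ≠ 0 := by exact_mod_cast Nat.succ_ne_zero i
  field_simp

theorem degree_polyPrim_le (Q : Polynomial ℂ) (n : ℕ) (hQ : Q.degree < n) :
    (polyPrim Q).degree < (n + 1 : ℕ) := by
  unfold polyPrim
  rw [Polynomial.sum_def]
  refine lt_of_le_of_lt (Polynomial.degree_sum_le _ _) ?_
  rw [Finset.sup_lt_iff (by exact_mod_cast WithBot.bot_lt_coe (n + 1))]
  intro i hi
  refine lt_of_le_of_lt (Polynomial.degree_C_mul_X_pow_le _ _) ?_
  have hi' : (i : WithBot ℕ) < n := lt_of_le_of_lt (Polynomial.le_degree_of_mem_supp i hi) hQ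
  have : i < n := by exact_mod_cast hi'
  exact_mod_cast Nat.succ_lt_succ this

/-- A holomorphic function on the upper half plane whose `n`-th derivative vanishes is a
polynomial of degree `< n`. -/
theorem polynomial_of_iterate_D_eq_zero (n : ℕ) :
    ∀ {F : ℍ → ℂ}, MDiff F → D^[n] F = 0 →
      ∃ P : Polynomial ℂ, P.degree < n ∧ F = polyFun P := by
  induction n with
  | zero =>
    intro F _ h
    refine ⟨0, by simp, ?_⟩
    simp only [Function.iterate_zero, id_eq] at h
    rw [h]
    ext z
    simp [polyFun]
  | succ n ih =>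
    intro F hF h
    rw [Function.iterate_succ_apply] at h
    obtain ⟨Q, hQdeg, hQ⟩ := ih (normalizedDerivOfComplex_mdifferentiable hF) h
    set P0 : Polynomial ℂ := Polynomial.C (2 * π * I) * polyPrim Q with hP0
    have h2pi : (2 * π * I : ℂ) ≠ 0 := by
      simp [Real.pi_ne_zero, Complex.I_ne_zero]
    have hD0 : D (polyFun P0) = polyFun Q := by
      rw [D_polyFun, hP0, Polynomial.derivative_C_mul, derivative_polyPrim]
      ext z
      simp only [Pi.smul_apply, smul_eq_mul, polyFun, Polynomial.eval_mul, Polynomial.eval_C]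
      field_simp
    have hG : D (F - polyFun P0) = 0 := by
      rw [normalizedDerivOfComplex_sub _ _ hF (mdiff_polyFun P0), hD0, hQ, sub_self]
    obtain ⟨c, hc⟩ := exists_const_of_D_eq_zero (hF.sub (mdiff_polyFun P0)) hG
    refine ⟨P0 + Polynomial.C c, ?_, ?_⟩
    · refine lt_of_le_of_lt (Polynomial.degree_add_le _ _) (max_lt ?_ ?_)
      · rw [Polynomial.degree_C_mul h2pi]
        exact degree_polyPrim_le Q n hQdeg
      · refine lt_of_le_of_lt Polynomial.degree_C_le ?_
        exact_mod_cast Nat.succ_pos n
    · ext z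
      have := hc z
      simp only [Pi.sub_apply] at this
      simp only [polyFun, Polynomial.eval_add, Polynomial.eval_C] at this ⊢
      linear_combination this

end Fermat.Agent.S22
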