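import Fermat.Agent.S22.EichlerUnique
import Fermat.Agent.S22.Bol
import Fermat.Agent.S22.PolyOfDeriv
import Fermat.Agent.S22.PolyAct
import Fermat.Agent.S22.LatticeFG
import Fermat.Agent.S22.Gamma0FG
import Fermat.Prelude.Def_CuspForm_HeckeAlgebra
import Fermat.Prelude.Thm_CongruenceSubgroup_one_mem_strictPeriods_Gamma0

/-!
# S22: the Eichler integral of a cusp form on `Γ₀(N)`, its period polynomials and the period lattice
-/

set_option autoImplicit false

open UpperHalfPlane hiding I
open Function Complex Filter Topology Polynomial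
open scoped Real Manifold MatrixGroups ModularForm
open Derivative

namespace Fermat.Agent.S22

namespace Eichler

/-- smoothness of `G ∘ ofComplex` at points of the upper half plane -/
theorem contDiffAt_comp_ofComplex {G : ℍ → ℂ} (hG : MDiff G) (n : ℕ) (z : ℍ) :
    ContDiffAt ℂ n (G ∘ ofComplex) (z : ℂ) := by
  rw [UpperHalfPlane.mdifferentiable_iff] at hG
  exact (hG.contDiffOn isOpen_upperHalfPlaneSet).contDiffAt
    (isOpen_upperHalfPlaneSet.mem_nhds z.2)

theorem two_pi_I_inv_pow_ne_zero (n : ℕ) : ((2 * π * I : ℂ)⁻¹) ^ n ≠ 0 :=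
  pow_ne_zero _ (inv_ne_zero Complex.two_pi_I_ne_zero)

/-- `D^[n]` is additive on holomorphic functions -/
theorem iterate_D_add {A B : ℍ → ℂ} (hA : MDiff A) (hB : MDiff B) (n : ℕ) :
    D^[n] (A + B) = D^[n] A + D^[n] B := by
  induction n with
  | zero => simp
  | succ n ih =>
    rw [Function.iterate_succ_apply', ih,
      normalizedDerivOfComplex_add _ _ (mdiff_iterate_D hA n) (mdiff_iterate_D hB n),
      ← Function.iterate_succ_apply' D n A, ← Function.iterate_succ_apply' D n B]

/-- `D^[n]` is subtractive on holomorphic functions -/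
theorem iterate_D_sub {A B : ℍ → ℂ} (hA : MDiff A) (hB : MDiff B) (n : ℕ) :
    D^[n] (A - B) = D^[n] A - D^[n] B := by
  induction n with
  | zero => simp
  | succ n ih =>
    rw [Function.iterate_succ_apply', ih,
      normalizedDerivOfComplex_sub _ _ (mdiff_iterate_D hA n) (mdiff_iterate_D hB n),
      ← Function.iterate_succ_apply' D n A, ← Function.iterate_succ_apply' D n B]

/-- uniqueness of Eichler integrals, `D`-form -/
theorem unique_of_iterate_D_eq (n : ℕ) {A B : ℍ → ℂ} (hA : MDiff A) (hB : MDiff B)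
    (hder : D^[n] A = D^[n] B) (hA0 : IsZeroAtImInfty A) (hB0 : IsZeroAtImInfty B) : A = B := by
  refine eichler_unique' n hA hB (fun z => ?_) hA0 hB0
  have h := congrFun hder z
  rw [iterate_D_eq_iteratedDeriv, iterate_D_eq_iteratedDeriv] at h
  exact mul_left_cancel₀ (two_pi_I_inv_pow_ne_zero n) h

end Eichler

open Eichler

section

variable (N : ℕ) [NeZero N] (w : ℕ)

local notation "Vw" => CuspForm (CongruenceSubgroup.Gamma0 N) ((w : ℤ) + 2)

omit [NeZero N] in
theorem Eichler.periodic_cuspForm (f : Vw) : Periodic ((f : ℍ → ℂ) ∘ ofComplex) 1 :=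
  SlashInvariantFormClass.periodic_comp_ofComplex f
    (CongruenceSubgroup.one_mem_strictPeriods_Gamma0 N)

theorem Eichler.isZeroAtImInfty_cuspForm (f : Vw) : IsZeroAtImInfty (f : ℍ → ℂ) := by
  have h := CuspFormClass.zero_at_infty_slash f (1 : SL(2, ℤ))
  simpa using h

/-- existence of the Eichler integral of a cusp form -/
theorem Eichler.exists_eichler (f : Vw) :
    ∃ E : ℍ → ℂ, MDiff E ∧ Periodic (E ∘ ofComplex) 1 ∧ IsZeroAtImInfty E ∧
      ∀ z : ℍ, iteratedDeriv (w + 1) (E ∘ ofComplex) z = f z :=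
  eichler_exists (w + 1) one_pos f (CuspFormClass.holo f) (Eichler.periodic_cuspForm N w f)
    (Eichler.isZeroAtImInfty_cuspForm N w f)

/-- the Eichler integral of a cusp form, as a function -/
noncomputable def eichlerFun (f : Vw) : ℍ → ℂ := (Eichler.exists_eichler N w f).choose

theorem mdiff_eichlerFun (f : Vw) : MDiff (eichlerFun N w f) :=
  (Eichler.exists_eichler N w f).choose_spec.1

theorem periodic_eichlerFun (f : Vw) : Periodic (eichlerFun N w f ∘ ofComplex) 1 :=
  (Eichler.exists_eichler N w f).choose_spec.2.1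

theorem isZeroAtImInfty_eichlerFun (f : Vw) : IsZeroAtImInfty (eichlerFun N w f) :=
  (Eichler.exists_eichler N w f).choose_spec.2.2.1

theorem iteratedDeriv_eichlerFun (f : Vw) (z : ℍ) :
    iteratedDeriv (w + 1) (eichlerFun N w f ∘ ofComplex) z = f z :=
  (Eichler.exists_eichler N w f).choose_spec.2.2.2 z

/-- `D`-form of the defining property of the Eichler integral -/
theorem iterate_D_eichlerFun (f : Vw) :
    D^[w + 1] (eichlerFun N w f) = ((2 * π * I : ℂ)⁻¹) ^ (w + 1) • (f : ℍ → ℂ) := by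
  ext z
  rw [iterate_D_eq_iteratedDeriv, iteratedDeriv_eichlerFun]
  rfl

/-- characterisation of the Eichler integral -/
theorem eq_eichlerFun (f : Vw) {E : ℍ → ℂ} (hE : MDiff E) (hE0 : IsZeroAtImInfty E)
    (hder : D^[w + 1] E = ((2 * π * I : ℂ)⁻¹) ^ (w + 1) • (f : ℍ → ℂ)) :
    E = eichlerFun N w f :=
  unique_of_iterate_D_eq (w + 1) hE (mdiff_eichlerFun N w f)
    (hder.trans (iterate_D_eichlerFun N w f).symm) hE0 (isZeroAtImInfty_eichlerFun N w f)

/-- the Eichler integral as a linear map -/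
noncomputable def eichlerIntegral : Vw →ₗ[ℂ] (ℍ → ℂ) where
  toFun := eichlerFun N w
  map_add' f g := by
    symm
    refine eq_eichlerFun N w (f + g) ((mdiff_eichlerFun N w f).add (mdiff_eichlerFun N w g))
      ((isZeroAtImInfty_eichlerFun N w f).add (isZeroAtImInfty_eichlerFun N w g)) ?_
    rw [iterate_D_add (mdiff_eichlerFun N w f) (mdiff_eichlerFun N w g),
      iterate_D_eichlerFun, iterate_D_eichlerFun, FunLike.coe_add, smul_add]
  map_smul' c f := by
    symm
    simp only [RingHom.id_apply]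
    refine eq_eichlerFun N w (c • f) ((mdiff_eichlerFun N w f).const_smul c)
      ((isZeroAtImInfty_eichlerFun N w f).smul c) ?_
    rw [iterate_D_const_smul c (mdiff_eichlerFun N w f), iterate_D_eichlerFun,
      FunLike.coe_smul, smul_comm]

@[simp] theorem eichlerIntegral_apply (f : Vw) : eichlerIntegral N w f = eichlerFun N w f := rfl

end

section periodPoly

variable (N : ℕ) [NeZero N] (w : ℕ)

local notation "Vw" => CuspForm (CongruenceSubgroup.Gamma0 N) ((w : ℤ) + 2)

omit [NeZero N] in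
/-- invariance of a cusp form under `Γ₀(N)` -/
theorem Eichler.slash_eq_self (f : Vw) {γ : SL(2, ℤ)} (hγ : γ ∈ CongruenceSubgroup.Gamma0 N) :
    (f : ℍ → ℂ) ∣[(w : ℤ) + 2] γ = f := by
  rw [ModularForm.SL_slash]
  exact SlashInvariantFormClass.slash_action_eq f _ (Subgroup.mem_map_of_mem _ hγ)

/-- the defect of invariance of the Eichler integral has vanishing `(w+1)`-st derivative -/
theorem Eichler.iterate_D_defect (f : Vw) {γ : SL(2, ℤ)}
    (hγ : γ ∈ CongruenceSubgroup.Gamma0 N) :
    D^[w + 1] (eichlerFun N w f ∣[-(w : ℤ)] γ - eichlerFun N w f) = 0 := by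
  have hE := mdiff_eichlerFun N w f
  have hEγ : MDiff (eichlerFun N w f ∣[-(w : ℤ)] γ) := by
    rw [ModularForm.SL_slash]; exact hE.slash _ _
  rw [iterate_D_sub hEγ hE, bol_SL' γ hE w, iterate_D_eichlerFun, ModularForm.SL_smul_slash,
    Eichler.slash_eq_self N w f hγ, sub_self]

theorem Eichler.exists_periodPoly (f : Vw) (γ : CongruenceSubgroup.Gamma0 N) :
    ∃ P : ℂ[X], P.degree < ((w + 1 : ℕ) : WithBot ℕ) ∧
      eichlerFun N w f ∣[-(w : ℤ)] (γ : SL(2, ℤ)) - eichlerFun N w f = polyFun P := by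
  have hE := mdiff_eichlerFun N w f
  have hEγ : MDiff (eichlerFun N w f ∣[-(w : ℤ)] (γ : SL(2, ℤ))) := by
    rw [ModularForm.SL_slash]; exact hE.slash _ _
  exact polynomial_of_iterate_D_eq_zero (w + 1) (hEγ.sub hE) (Eichler.iterate_D_defect N w f γ.2)

/-- the period polynomial, as a function of the cusp form -/
noncomputable def periodPolyFun (γ : CongruenceSubgroup.Gamma0 N) (f : Vw) : ℂ[X] :=
  (Eichler.exists_periodPoly N w f γ).choose

theorem degree_periodPolyFun_lt (γ : CongruenceSubgroup.Gamma0 N) (f : Vw) :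
    (periodPolyFun N w γ f).degree < ((w + 1 : ℕ) : WithBot ℕ) :=
  (Eichler.exists_periodPoly N w f γ).choose_spec.1

theorem polyFun_periodPolyFun (γ : CongruenceSubgroup.Gamma0 N) (f : Vw) :
    polyFun (periodPolyFun N w γ f) =
      eichlerFun N w f ∣[-(w : ℤ)] (γ : SL(2, ℤ)) - eichlerFun N w f :=
  (Eichler.exists_periodPoly N w f γ).choose_spec.2.symm

theorem Eichler.polyFun_injective {P Q : ℂ[X]} (h : polyFun P = polyFun Q) : P = Q :=
  poly_eq_of_eval_eq_on_upperHalfPlane fun z hz => congrFun h ⟨z, hz⟩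

theorem Eichler.polyFun_add (P Q : ℂ[X]) : polyFun (P + Q) = polyFun P + polyFun Q := by
  ext z; simp [polyFun]

theorem Eichler.polyFun_smul (c : ℂ) (P : ℂ[X]) : polyFun (c • P) = c • polyFun P := by
  ext z; simp [polyFun]

/-- the period polynomial as a linear map -/
noncomputable def periodPoly (γ : CongruenceSubgroup.Gamma0 N) : Vw →ₗ[ℂ] ℂ[X] where
  toFun := periodPolyFun N w γ
  map_add' f g := by
    apply Eichler.polyFun_injective
    rw [Eichler.polyFun_add, polyFun_periodPolyFun, polyFun_periodPolyFun, polyFun_periodPolyFun]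
    have h : eichlerFun N w (f + g) = eichlerFun N w f + eichlerFun N w g :=
      (eichlerIntegral N w).map_add f g
    rw [h, SlashAction.add_slash]
    abel
  map_smul' c f := by
    apply Eichler.polyFun_injective
    simp only [RingHom.id_apply]
    rw [Eichler.polyFun_smul, polyFun_periodPolyFun, polyFun_periodPolyFun]
    have h : eichlerFun N w (c • f) = c • eichlerFun N w f :=
      (eichlerIntegral N w).map_smul c f
    rw [h, ModularForm.SL_smul_slash, smul_sub]

@[simp] theorem periodPoly_apply (γ : CongruenceSubgroup.Gamma0 N) (f : Vw) :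
    periodPoly N w γ f = periodPolyFun N w γ f := rfl

theorem polyFun_periodPoly (γ : CongruenceSubgroup.Gamma0 N) (f : Vw) :
    polyFun (periodPoly N w γ f) =
      eichlerFun N w f ∣[-(w : ℤ)] (γ : SL(2, ℤ)) - eichlerFun N w f :=
  polyFun_periodPolyFun N w γ f

theorem natDegree_periodPoly_le (γ : CongruenceSubgroup.Gamma0 N) (f : Vw) :
    (periodPoly N w γ f).natDegree ≤ w := by
  have h := degree_periodPolyFun_lt N w γ f
  by_cases h0 : periodPolyFun N w γ f = 0
  · simp [h0]
  · rw [periodPoly_apply]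
    have := (Polynomial.natDegree_lt_iff_degree_lt h0).mpr h
    omega

end periodPoly


theorem Eichler.coe_smul_eq (γ : SL(2,ℤ)) (z : ℍ) : ((γ • z : ℍ) : ℂ) = ((γ.1 0 0 : ℂ) * z + (γ.1 0 1 : ℂ)) / ((γ.1 1 0 : ℂ) * z + (γ.1 1 1 : ℂ)) := by
  rw [UpperHalfPlane.coe_specialLinearGroup_apply]
  simp

theorem Eichler.denom_eq (γ : SL(2,ℤ)) (z : ℍ) :
    denom (Matrix.SpecialLinearGroup.toGL ((Matrix.SpecialLinearGroup.map (Int.castRingHom ℝ)) γ)) z
      = (γ.1 1 0 : ℂ) * z + (γ.1 1 1 : ℂ) := by
  simp [denom]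

/-- slash action of `SL(2,ℤ)` on polynomial functions -/
theorem Eichler.polyFun_slash (w : ℕ) (γ : SL(2, ℤ)) {P : ℂ[X]} (hP : P.natDegree ≤ w) :
    polyFun P ∣[-(w : ℤ)] γ = polyFun (polyAct w γ.1 P) := by
  ext z
  have hz : (γ.1 1 0 : ℂ) * z + (γ.1 1 1 : ℂ) ≠ 0 := by
    rw [← Eichler.denom_eq]; exact denom_ne_zero _ z
  rw [ModularForm.SL_slash_apply, Eichler.denom_eq, neg_neg, zpow_natCast]
  simp only [polyFun]
  rw [eval_polyAct w γ.1 hP hz, Eichler.coe_smul_eq, mul_comm]

section
variable (N : ℕ) [NeZero N] (w : ℕ)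

local notation "Vw" => CuspForm (CongruenceSubgroup.Gamma0 N) ((w : ℤ) + 2)

theorem periodPoly_one : periodPoly N w 1 = 0 := by
  ext1 f
  apply Eichler.polyFun_injective
  rw [polyFun_periodPoly]
  have : ((1 : CongruenceSubgroup.Gamma0 N) : SL(2, ℤ)) = 1 := rfl
  rw [this, SlashAction.slash_one, sub_self]
  ext z; simp [polyFun]

theorem periodPoly_mul (γ δ : CongruenceSubgroup.Gamma0 N) :
    periodPoly N w (γ * δ) =
      (polyAct w (δ : SL(2, ℤ)).1) ∘ₗ (periodPoly N w γ) + periodPoly N w δ := by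
  ext1 f
  apply Eichler.polyFun_injective
  rw [LinearMap.add_apply, LinearMap.comp_apply, Eichler.polyFun_add,
    ← Eichler.polyFun_slash w _ (natDegree_periodPoly_le N w γ f), polyFun_periodPoly,
    polyFun_periodPoly, polyFun_periodPoly]
  have : ((γ * δ : CongruenceSubgroup.Gamma0 N) : SL(2, ℤ)) = (γ : SL(2, ℤ)) * (δ : SL(2, ℤ)) := rfl
  rw [this, SlashAction.slash_mul, sub_eq_add_neg (eichlerFun N w f ∣[-(w : ℤ)] (γ : SL(2, ℤ))),
    SlashAction.add_slash, SlashAction.neg_slash]
  abel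

/-- the period lattice of level `N` and weight `w + 2` -/
noncomputable def periodLatticeGamma0 : Submodule ℤ (Module.Dual ℂ Vw) :=
  periodLattice w (periodPoly N w)

theorem periodLatticeGamma0_fg : (periodLatticeGamma0 N w).FG :=
  periodLattice_fg (gamma0_fg N) w (fun δ => (δ : SL(2, ℤ)).1) (periodPoly N w)
    (periodPoly_one N w) (periodPoly_mul N w)


/-- if all functionals in the period lattice vanish on `f`, the period polynomials of `f` vanish -/
theorem periodPoly_eq_zero_of_periods_zero (f : Vw)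
    (hf : ∀ l ∈ periodLatticeGamma0 N w, l f = 0) (γ : CongruenceSubgroup.Gamma0 N) :
    periodPoly N w γ f = 0 := by
  ext j
  rw [coeff_zero]
  by_cases hj : j ≤ w
  · exact hf _ (coeffFunctional_mem_periodLattice w (periodPoly N w) γ hj)
  · exact coeff_eq_zero_of_natDegree_lt (lt_of_le_of_lt (natDegree_periodPoly_le N w γ f)
      (not_le.mp hj))

/-- if all functionals in the period lattice vanish on `f`, the Eichler integral of `f` is invariant
of weight `-w` under `Γ₀(N)` -/
theorem eichlerFun_slash_eq_of_periods_zero (f : Vw)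
    (hf : ∀ l ∈ periodLatticeGamma0 N w, l f = 0) {γ : SL(2, ℤ)}
    (hγ : γ ∈ CongruenceSubgroup.Gamma0 N) :
    eichlerFun N w f ∣[-(w : ℤ)] γ = eichlerFun N w f := by
  have h := polyFun_periodPoly N w ⟨γ, hγ⟩ f
  rw [periodPoly_eq_zero_of_periods_zero N w f hf ⟨γ, hγ⟩] at h
  have h0 : polyFun (0 : ℂ[X]) = 0 := by ext z; simp [polyFun]
  rw [h0] at h
  exact (sub_eq_zero.mp h.symm)

end

end Fermat.Agent.S22
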