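import Mathlib

set_option autoImplicit false

/-!
# Decaying periodic primitives on the upper half plane

For a holomorphic `h`-periodic function `F` on `ℍ` that tends to zero at `i∞`, we construct a
holomorphic `h`-periodic primitive `E` of `F` which also tends to zero at `i∞`.
-/

open UpperHalfPlane hiding I
open Function Complex Filter Topology
open scoped Real Manifold

namespace Fermat.Agent.S22

local notation "𝕢" => Periodic.qParam

/-- Derivative of the `q`-parameter. -/
lemma hasDerivAt_qParam (h : ℝ) (z : ℂ) :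
    HasDerivAt (𝕢 h) (2 * π * I / h * 𝕢 h z) z := by
  unfold Periodic.qParam
  have h1 : HasDerivAt (fun z : ℂ => 2 * π * I * z / h) (2 * π * I / h) z := by
    have := ((hasDerivAt_id z).const_mul (2 * π * I)).div_const (h : ℂ)
    simpa using this
  have h2 := h1.cexp
  refine h2.congr_deriv ?_
  ring

/-- The `q`-parameter is `h`-periodic. -/
lemma qParam_add_period {h : ℝ} (hh : h ≠ 0) (z : ℂ) : 𝕢 h (z + h) = 𝕢 h z := by
  unfold Periodic.qParam
  have hh' : (h : ℂ) ≠ 0 := by exact_mod_cast hh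
  have : 2 * π * I * (z + h) / h = 2 * π * I * z / h + 2 * π * I := by
    field_simp
  rw [this, Complex.exp_add, Complex.exp_two_pi_mul_I, mul_one]

/-- The primitive on the disc of `c(q)/q`, pulled back to `ℂ` via the `q`-parameter. -/
lemma exists_disc_primitive {c : ℂ → ℂ} (hc : DifferentiableOn ℂ c (Metric.ball 0 1)) :
    ∃ C : ℂ → ℂ, C 0 = 0 ∧ ∀ q ∈ Metric.ball (0 : ℂ) 1, HasDerivAt C (dslope c 0 q) q := by
  have hd : DifferentiableOn ℂ (dslope c 0) (Metric.ball 0 1) :=
    (Complex.differentiableOn_dslope (Metric.ball_mem_nhds 0 one_pos)).mpr hc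
  exact hd.isExactOn_ball.with_val_at 0 0

/-- Main construction: a decaying periodic primitive, as a function on `ℂ`. -/
theorem exists_periodic_primitive_aux {h : ℝ} (hh : 0 < h) (F : ℍ → ℂ)
    (hol : MDiff F) (per : Periodic (F ∘ ofComplex) h) (zero : IsZeroAtImInfty F) :
    ∃ C : ℂ → ℂ, C 0 = 0 ∧ ContinuousAt C 0 ∧
      ∀ z : ℂ, 0 < z.im →
        HasDerivAt (fun w : ℂ => (h / (2 * π * I)) * C (𝕢 h w)) (F (ofComplex z)) z := by
  set c := cuspFunction h F with hcdef
  have hc : DifferentiableOn ℂ c (Metric.ball 0 1) :=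
    differentiableOn_cuspFunction_ball hh per hol zero.isBoundedAtImInfty
  have hc0 : c 0 = 0 := zero.cuspFunction_apply_zero hh
  obtain ⟨C, hC0, hC⟩ := exists_disc_primitive hc
  refine ⟨C, hC0, (hC 0 (Metric.mem_ball_self one_pos)).continuousAt, fun z hz => ?_⟩
  have hq : 𝕢 h z ∈ Metric.ball (0 : ℂ) 1 := by
    rw [mem_ball_zero_iff]
    exact Periodic.norm_qParam_lt_one hh hz
  have h1 := (hC _ hq).comp z (hasDerivAt_qParam h z)
  have h2 := h1.const_mul ((h : ℂ) / (2 * π * I))
  have hval : cuspFunction h F (𝕢 h z) = F (ofComplex z) := by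
    have := eq_cuspFunction (⟨z, hz⟩ : ℍ) hh.ne' per
    rw [ofComplex_apply_of_im_pos hz]
    exact this
  have hds : dslope c 0 (𝕢 h z) * 𝕢 h z = c (𝕢 h z) := by
    have := sub_smul_dslope c 0 (𝕢 h z)
    simp only [sub_zero, smul_eq_mul, hc0] at this
    rw [mul_comm]; exact this
  refine h2.congr_deriv ?_
  have hh' : (h : ℂ) ≠ 0 := by exact_mod_cast hh.ne'
  have hpi : (2 * π * I : ℂ) ≠ 0 := Complex.two_pi_I_ne_zero
  rw [← hval]
  change _ = c (𝕢 h z)
  rw [← hds]
  field_simp

/-- A holomorphic `h`-periodic function on `ℍ` vanishing at `i∞` has a holomorphic `h`-periodic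
primitive vanishing at `i∞`. -/
theorem exists_periodic_primitive {h : ℝ} (hh : 0 < h) (F : ℍ → ℂ)
    (hol : MDiff F) (per : Periodic (F ∘ ofComplex) h) (zero : IsZeroAtImInfty F) :
    ∃ E : ℍ → ℂ, MDiff E ∧ Periodic (E ∘ ofComplex) h ∧ IsZeroAtImInfty E ∧
      ∀ z : ℍ, HasDerivAt (E ∘ ofComplex) (F z) z := by
  obtain ⟨C, hC0, hCcont, hC⟩ := exists_periodic_primitive_aux hh F hol per zero
  set E : ℍ → ℂ := fun τ => (h / (2 * π * I)) * C (𝕢 h τ) with hE
  have hderiv : ∀ z : ℍ, HasDerivAt (E ∘ ofComplex) (F z) z := by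
    intro z
    have h1 := hC z z.im_pos
    rw [ofComplex_apply] at h1
    refine h1.congr_of_eventuallyEq ?_
    have hopen : {w : ℂ | 0 < w.im} ∈ 𝓝 (z : ℂ) :=
      (isOpen_lt continuous_const Complex.continuous_im).mem_nhds z.im_pos
    filter_upwards [hopen] with w hw
    simp only [comp_apply, hE, ofComplex_apply_of_im_pos hw, coe_mk]
  refine ⟨E, ?_, ?_, ?_, hderiv⟩
  · rw [UpperHalfPlane.mdifferentiable_iff]
    intro z hz
    have := hderiv ⟨z, hz⟩
    exact this.differentiableAt.differentiableWithinAt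
  · intro w
    by_cases hw : 0 < w.im
    · have hw' : 0 < (w + h).im := by simpa using hw
      simp only [comp_apply, hE, ofComplex_apply_of_im_pos hw, ofComplex_apply_of_im_pos hw', coe_mk]
      rw [qParam_add_period hh.ne' w]
    · have hw0 : w.im ≤ 0 := not_lt.mp hw
      have hw' : (w + h).im ≤ 0 := by simpa using hw0
      simp only [comp_apply, ofComplex_apply_of_im_nonpos hw0, ofComplex_apply_of_im_nonpos hw']
  · have hq := qParam_tendsto_atImInfty hh
    have h1 : Tendsto (fun τ : ℍ => C (𝕢 h τ)) atImInfty (𝓝 (C 0)) :=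
      hCcont.tendsto.comp hq
    rw [hC0] at h1
    have h2 := h1.const_mul ((h : ℂ) / (2 * π * I))
    rw [mul_zero] at h2
    exact h2

end Fermat.Agent.S22
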