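import Mathlib
import Fermat.Prelude.Thm_ModularForm_sturm_bound_Gamma0
import Fermat.Prelude.Thm_CongruenceSubgroup_one_mem_strictPeriods_Gamma0
import Fermat.Prelude.Thm_Subgroup_IsArithmetic_exists_nat_mem_strictPeriods_conj

set_option autoImplicit false

open UpperHalfPlane ModularForm Filter Topology
open scoped MatrixGroups Manifold Pointwise

namespace Fermat.Agent.S22.Sep

/-- Interface statement: holomorphic, `h`-periodic functions on `ℍ` vanishing at `i∞` have a
primitive with the same properties. -/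
def PeriodicPrimitiveStatement : Prop :=
  ∀ (h : ℝ), 0 < h → ∀ F : ℍ → ℂ, MDiff F → Function.Periodic (F ∘ ofComplex) h →
    IsZeroAtImInfty F →
    ∃ E : ℍ → ℂ, MDiff E ∧ Function.Periodic (E ∘ ofComplex) h ∧ IsZeroAtImInfty E ∧
      ∀ z : ℍ, HasDerivAt (E ∘ ofComplex) (F z) z

/-- Interface statement: Bol's identity for the slash action of `SL(2, ℤ)`. -/
def BolStatement : Prop :=
  ∀ (w : ℕ) (E : ℍ → ℂ), MDiff E → ∀ (γ : SL(2, ℤ)) (z : ℍ),
    iteratedDeriv (w + 1) ((E ∣[(-(w : ℤ))] γ) ∘ ofComplex) z =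
      ((fun τ : ℍ => iteratedDeriv (w + 1) (E ∘ ofComplex) τ) ∣[((w : ℤ) + 2)] γ) z

/-- Interface statement: a holomorphic function on `ℍ` with vanishing `(w+1)`-st derivative is a
polynomial. -/
def PolynomialStatement : Prop :=
  ∀ (w : ℕ) (F : ℍ → ℂ), MDiff F → (∀ z : ℍ, iteratedDeriv (w + 1) (F ∘ ofComplex) z = 0) →
    ∃ P : Polynomial ℂ, ∀ z : ℍ, F z = P.eval (z : ℂ)

/-- On the upper half plane, `F ∘ ofComplex` agrees near `z` with any function that agrees
with it on `ℍ`. -/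
theorem eventuallyEq_comp_ofComplex {F G : ℂ → ℂ} (h : ∀ z : ℍ, F z = G z) (z : ℍ) :
    F =ᶠ[𝓝 (z : ℂ)] G := by
  filter_upwards [isOpen_upperHalfPlaneSet.mem_nhds z.2] with x hx
  exact h ⟨x, hx⟩

/-- Iterated periodic decaying primitives. -/
theorem exists_iterated_periodic_primitive (hPP : PeriodicPrimitiveStatement) (n : ℕ)
    (h : ℝ) (hh : 0 < h) (F : ℍ → ℂ) (hF : MDiff F)
    (hper : Function.Periodic (F ∘ ofComplex) h) (hzero : IsZeroAtImInfty F) :
    ∃ E : ℍ → ℂ, MDiff E ∧ Function.Periodic (E ∘ ofComplex) h ∧ IsZeroAtImInfty E ∧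
      ∀ z : ℍ, iteratedDeriv n (E ∘ ofComplex) z = F z := by
  induction n with
  | zero =>
    exact ⟨F, hF, hper, hzero, fun z => by simp [iteratedDeriv_zero]⟩
  | succ n ih =>
    obtain ⟨E₁, hE₁, hper₁, hzero₁, hder₁⟩ := ih
    obtain ⟨E, hE, hperE, hzeroE, hderE⟩ := hPP h hh E₁ hE₁ hper₁ hzero₁
    refine ⟨E, hE, hperE, hzeroE, fun z => ?_⟩
    rw [iteratedDeriv_succ']
    have hev : deriv (E ∘ ofComplex) =ᶠ[𝓝 (z : ℂ)] (E₁ ∘ ofComplex) := by
      apply eventuallyEq_comp_ofComplex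
      intro τ
      rw [(hderE τ).deriv]
      simp
    rw [hev.iteratedDeriv_eq n]
    exact hder₁ z

/-- A polynomial which is `h`-periodic on the upper half plane (`h ≠ 0` real) is constant there. -/
theorem polynomial_const_of_periodic (P : Polynomial ℂ) (h : ℝ) (hh : 0 < h)
    (hper : ∀ z : ℍ, P.eval ((z : ℂ) + h) = P.eval (z : ℂ)) :
    ∀ z : ℍ, P.eval (z : ℂ) = P.eval Complex.I := by
  have key : ∀ n : ℕ, P.eval (Complex.I + n * h) = P.eval Complex.I := by
    intro n
    induction n with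
    | zero => simp
    | succ n ih =>
      have him : 0 < (Complex.I + n * h).im := by simp
      have := hper ⟨Complex.I + n * h, him⟩
      simp only at this
      rw [← ih, ← this]
      congr 1
      push_cast
      ring
  have hQ : P - Polynomial.C (P.eval Complex.I) = 0 := by
    apply Polynomial.eq_zero_of_infinite_isRoot
    have hinj : Function.Injective (fun n : ℕ => Complex.I + n * (h : ℂ)) := by
      intro a b hab
      simp only [add_right_inj] at hab
      have h0 : (h : ℂ) ≠ 0 := by exact_mod_cast hh.ne'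
      have := mul_right_cancel₀ h0 hab
      exact_mod_cast this
    refine Set.infinite_of_injective_forall_mem hinj (fun n => ?_)
    simp [Polynomial.IsRoot, key n]
  intro z
  have := congrArg (Polynomial.eval (z : ℂ)) hQ
  simpa [sub_eq_zero] using this

theorem contDiffAt_comp_ofComplex {G : ℍ → ℂ} (hG : MDiff G) (n : ℕ) (z : ℍ) :
    ContDiffAt ℂ n (G ∘ ofComplex) (z : ℂ) := by
  rw [UpperHalfPlane.mdifferentiable_iff] at hG
  exact (hG.contDiffOn isOpen_upperHalfPlaneSet).contDiffAt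
    (isOpen_upperHalfPlaneSet.mem_nhds z.2)

theorem isBoundedAtImInfty_of_eq_add_poly {G Eg : ℍ → ℂ} {M : ℝ} (hM : 0 < M)
    (hGper : Function.Periodic (G ∘ ofComplex) M)
    (hEgper : Function.Periodic (Eg ∘ ofComplex) M) (hEgzero : IsZeroAtImInfty Eg)
    (P : Polynomial ℂ) (hP : ∀ z : ℍ, (G - Eg) z = P.eval (z : ℂ)) :
    IsBoundedAtImInfty G := by
  have hper : ∀ z : ℍ, P.eval ((z : ℂ) + M) = P.eval (z : ℂ) := by
    intro z
    have him : 0 < ((z : ℂ) + M).im := by simpa using z.2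
    have h1 := hP ⟨(z : ℂ) + M, him⟩
    have h2 := hP z
    have h3 := hGper (z : ℂ)
    have h4 := hEgper (z : ℂ)
    simp only [Function.comp_apply, ofComplex_apply_of_im_pos him, ofComplex_apply] at h3 h4
    simp only [Pi.sub_apply] at h1 h2
    rw [← h1, ← h2, h3, h4]
  have hconst := polynomial_const_of_periodic P M hM hper
  have hG : G = Eg + fun _ => P.eval Complex.I := by
    ext z
    have h2 := hP z
    simp only [Pi.sub_apply] at h2
    simp only [Pi.add_apply]
    rw [← hconst z, ← h2]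
    ring
  rw [hG]
  exact hEgzero.isBoundedAtImInfty.add (Filter.const_boundedAtFilter _ _)

section Gamma0

open CongruenceSubgroup

variable (N : ℕ)

/-- The slash-invariant form attached to a `Γ₀(N)`-invariant function. -/
noncomputable def sifOfInvariant (k : ℤ) (E : ℍ → ℂ)
    (hinv : ∀ γ ∈ Gamma0 N, E ∣[k] γ = E) :
    SlashInvariantForm (Gamma0 N : Subgroup (GL (Fin 2) ℝ)) k where
  toFun := E
  slash_action_eq' := by
    rintro γ ⟨γ', hγ', rfl⟩
    exact hinv γ' hγ'

/-- Translates of an invariant function are periodic with a common period. -/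
theorem periodic_slash_of_invariant (k : ℤ) (E : ℍ → ℂ)
    (hinv : ∀ γ ∈ Gamma0 N, E ∣[k] γ = E) {M : ℕ}
    (hM : ∀ γ : SL(2, ℤ), (M : ℝ) ∈ (ConjAct.toConjAct (Matrix.SpecialLinearGroup.mapGL ℝ γ) •
      (Gamma0 N : Subgroup (GL (Fin 2) ℝ))).strictPeriods) (δ : SL(2, ℤ)) :
    Function.Periodic ((E ∣[k] δ) ∘ ofComplex) (M : ℝ) := by
  have h1 := hM δ⁻¹
  rw [map_inv] at h1
  exact SlashInvariantFormClass.periodic_comp_ofComplex
    (SlashInvariantForm.translate (sifOfInvariant N k E hinv)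
      (Matrix.SpecialLinearGroup.mapGL ℝ δ)) h1

variable [NeZero N]

/-- Key step: all `SL(2,ℤ)`-translates of a `Γ₀(N)`-invariant Eichler integral of a cusp form are
bounded at `i∞`. -/
theorem isBoundedAtImInfty_slash_of_invariant
    (hPP : PeriodicPrimitiveStatement) (hBol : BolStatement) (hPoly : PolynomialStatement)
    (w : ℕ) (f : CuspForm (Gamma0 N) ((w : ℤ) + 2)) (E : ℍ → ℂ) (hol : MDiff E)
    (hder : ∀ z : ℍ, iteratedDeriv (w + 1) (E ∘ ofComplex) z = f z)
    (hinv : ∀ γ ∈ Gamma0 N, E ∣[(-(w : ℤ))] γ = E) (δ : SL(2, ℤ)) :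
    IsBoundedAtImInfty (E ∣[(-(w : ℤ))] δ) := by
  obtain ⟨M, hMpos, hM⟩ := Subgroup.IsArithmetic.exists_nat_mem_strictPeriods_conj
    (Gamma0 N : Subgroup (GL (Fin 2) ℝ))
  have hMpos' : (0 : ℝ) < M := by exact_mod_cast hMpos
  -- the translate `g` of `f`
  set g : ℍ → ℂ := ⇑f ∣[((w : ℤ) + 2)] δ with hg
  have hgol : MDiff g := (CuspFormClass.holo f).slash _ _
  have hgper : Function.Periodic (g ∘ ofComplex) (M : ℝ) := by
    have h1 := hM δ⁻¹
    rw [map_inv] at h1
    exact SlashInvariantFormClass.periodic_comp_ofComplex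
      (CuspForm.translate f (Matrix.SpecialLinearGroup.mapGL ℝ δ)) h1
  have hgzero : IsZeroAtImInfty g := CuspFormClass.zero_at_infty_slash f δ
  -- its iterated primitive
  obtain ⟨Eg, hEgol, hEgper, hEgzero, hEgder⟩ :=
    exists_iterated_periodic_primitive hPP (w + 1) M hMpos' g hgol hgper hgzero
  -- the translate `G` of `E`
  set G : ℍ → ℂ := E ∣[(-(w : ℤ))] δ with hG
  have hGol : MDiff G := hol.slash _ _
  have hGper : Function.Periodic (G ∘ ofComplex) (M : ℝ) :=
    periodic_slash_of_invariant N _ E hinv hM δ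
  have hGder : ∀ z : ℍ, iteratedDeriv (w + 1) (G ∘ ofComplex) z = g z := by
    intro z
    rw [hG, hBol w E hol δ z, hg, SL_slash_apply, SL_slash_apply, hder]
  -- the difference is a polynomial
  have hDol : MDiff (G - Eg) := hGol.sub hEgol
  have hDder : ∀ z : ℍ, iteratedDeriv (w + 1) ((G - Eg) ∘ ofComplex) z = 0 := by
    intro z
    have h1 : ContDiffAt ℂ (w + 1 : ℕ) (G ∘ ofComplex) (z : ℂ) :=
      contDiffAt_comp_ofComplex hGol _ z
    have h2 : ContDiffAt ℂ (w + 1 : ℕ) (Eg ∘ ofComplex) (z : ℂ) :=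
      contDiffAt_comp_ofComplex hEgol _ z
    have : (G - Eg) ∘ ofComplex = (G ∘ ofComplex) - (Eg ∘ ofComplex) := rfl
    rw [this, iteratedDeriv_sub h1 h2, hGder, hEgder, sub_self]
  obtain ⟨P, hP⟩ := hPoly w (G - Eg) hDol hDder
  exact isBoundedAtImInfty_of_eq_add_poly hMpos' hGper hEgper hEgzero P hP

/-- The modular form of weight `-w` attached to an invariant Eichler integral. -/
noncomputable def modularFormOfInvariant
    (hPP : PeriodicPrimitiveStatement) (hBol : BolStatement) (hPoly : PolynomialStatement)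
    (w : ℕ) (f : CuspForm (Gamma0 N) ((w : ℤ) + 2)) (E : ℍ → ℂ) (hol : MDiff E)
    (hder : ∀ z : ℍ, iteratedDeriv (w + 1) (E ∘ ofComplex) z = f z)
    (hinv : ∀ γ ∈ Gamma0 N, E ∣[(-(w : ℤ))] γ = E) :
    ModularForm (Gamma0 N : Subgroup (GL (Fin 2) ℝ)) (-(w : ℤ)) where
  toSlashInvariantForm := sifOfInvariant N _ E hinv
  holo' := hol
  bdd_at_cusps' := by
    intro c hc
    rw [Subgroup.IsArithmetic.isCusp_iff_isCusp_SL2Z] at hc
    rw [OnePoint.isBoundedAt_iff_forall_SL2Z hc]
    intro δ _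
    exact isBoundedAtImInfty_slash_of_invariant N hPP hBol hPoly w f E hol hder hinv δ

/-- **Separation.** A cusp form of weight `w + 2` on `Γ₀(N)` whose Eichler integral is
`Γ₀(N)`-invariant of weight `-w` vanishes. -/
theorem cuspForm_eq_zero_of_invariant_eichler
    (hPP : PeriodicPrimitiveStatement) (hBol : BolStatement) (hPoly : PolynomialStatement)
    (w : ℕ) (f : CuspForm (Gamma0 N) ((w : ℤ) + 2)) (E : ℍ → ℂ) (hol : MDiff E)
    (hder : ∀ z : ℍ, iteratedDeriv (w + 1) (E ∘ ofComplex) z = f z)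
    (hinv : ∀ γ ∈ Gamma0 N, E ∣[(-(w : ℤ))] γ = E) (hzero : IsZeroAtImInfty E) : f = 0 := by
  set F := modularFormOfInvariant N hPP hBol hPoly w f E hol hder hinv with hF
  have hFE : (⇑F : ℍ → ℂ) = E := rfl
  have hF0 : F = 0 := by
    apply ModularForm.sturm_bound_Gamma0 N F
    intro n hn
    have h0 : n = 0 := by
      have h1 : (-(w : ℤ)) * ((Gamma0 N).index : ℤ) ≤ 0 :=
        mul_nonpos_of_nonpos_of_nonneg (by omega) (by positivity)
      have : ((-(w : ℤ)) * ((Gamma0 N).index : ℤ)).toNat = 0 := by omega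
      rw [this] at hn
      omega
    subst h0
    rw [UpperHalfPlane.qExpansion_coeff, hFE]
    simp [hzero.cuspFunction_apply_zero one_pos]
  have hE0 : E = 0 := by
    rw [← hFE, hF0]
    rfl
  ext z
  rw [← hder z, hE0]
  have : ((0 : ℍ → ℂ) ∘ ofComplex) = fun _ : ℂ => (0 : ℂ) := rfl
  rw [this]
  simp

end Gamma0

end Fermat.Agent.S22.Sep
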