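import Mathlib
import Fermat.Agent.S22.Separation
import Fermat.Agent.S22.PeriodicPrimitive
import Fermat.Agent.S22.Bol
import Fermat.Agent.S22.PolyOfDeriv

set_option autoImplicit false

open UpperHalfPlane ModularForm Filter Topology CongruenceSubgroup
open scoped MatrixGroups Manifold Pointwise
open Derivative

namespace Fermat.Agent.S22.Sep

theorem periodicPrimitiveStatement : PeriodicPrimitiveStatement :=
  fun _ hh F hol per zero => Fermat.Agent.S22.exists_periodic_primitive hh F hol per zero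

theorem two_pi_I_inv_pow_ne_zero (n : ℕ) : ((2 * (Real.pi : ℂ) * Complex.I)⁻¹) ^ n ≠ 0 := by
  apply pow_ne_zero
  apply inv_ne_zero
  simp [Real.pi_ne_zero]

theorem bolStatement : BolStatement := by
  intro w E hE γ z
  have h := congrFun (Fermat.Agent.S22.bol_SL' γ hE w) z
  rw [Fermat.Agent.S22.iterate_D_eq_iteratedDeriv, SL_slash_apply,
    Fermat.Agent.S22.iterate_D_eq_iteratedDeriv,
    mul_assoc (((2 * (Real.pi : ℂ) * Complex.I)⁻¹) ^ (w + 1))] at h
  rw [SL_slash_apply]
  exact mul_left_cancel₀ (two_pi_I_inv_pow_ne_zero (w + 1)) h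

theorem polynomialStatement : PolynomialStatement := by
  intro w F hF h
  have h0 : D^[w + 1] F = 0 := by
    ext z
    rw [Fermat.Agent.S22.iterate_D_eq_iteratedDeriv, h z]
    simp
  obtain ⟨P, _, hP⟩ := Fermat.Agent.S22.polynomial_of_iterate_D_eq_zero (w + 1) hF h0
  exact ⟨P, fun z => by rw [hP]; rfl⟩

variable (N : ℕ) [NeZero N]

/-- **Separation**, hypothesis-free form with `iteratedDeriv`. -/
theorem cuspForm_eq_zero_of_invariant (w : ℕ) (f : CuspForm (Gamma0 N) ((w : ℤ) + 2))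
    (E : ℍ → ℂ) (hol : MDiff E)
    (hder : ∀ z : ℍ, iteratedDeriv (w + 1) (E ∘ ofComplex) z = f z)
    (hinv : ∀ γ ∈ Gamma0 N, E ∣[(-(w : ℤ))] γ = E) (hzero : IsZeroAtImInfty E) : f = 0 :=
  cuspForm_eq_zero_of_invariant_eichler N periodicPrimitiveStatement bolStatement
    polynomialStatement w f E hol hder hinv hzero

/-- **Separation**, hypothesis-free form with iterates of the normalised derivative `D`:
`D^[w+1] E = c • f` with `c ≠ 0`. -/
theorem cuspForm_eq_zero_of_invariant_D (w : ℕ) (f : CuspForm (Gamma0 N) ((w : ℤ) + 2))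
    (E : ℍ → ℂ) (hol : MDiff E) (c : ℂ) (hc : c ≠ 0)
    (hder : D^[w + 1] E = c • ⇑f)
    (hinv : ∀ γ ∈ Gamma0 N, E ∣[(-(w : ℤ))] γ = E) (hzero : IsZeroAtImInfty E) : f = 0 := by
  set A : ℂ := ((2 * (Real.pi : ℂ) * Complex.I)⁻¹) ^ (w + 1) with hA
  set a : ℂ := A * c⁻¹ with ha
  have hder' : ∀ z : ℍ, iteratedDeriv (w + 1) ((a • E) ∘ ofComplex) z = f z := by
    intro z
    have h1 := congrFun hder z
    rw [Fermat.Agent.S22.iterate_D_eq_iteratedDeriv] at h1
    have h2 : ((a • E) ∘ ofComplex) = a • (E ∘ ofComplex) := rfl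
    rw [h2, iteratedDeriv_const_smul_field]
    simp only [Pi.smul_apply, smul_eq_mul] at h1 ⊢
    rw [← hA] at h1
    rw [ha, mul_right_comm, h1, mul_assoc, mul_comm (f z), ← mul_assoc, mul_inv_cancel₀ hc,
      one_mul]
  refine cuspForm_eq_zero_of_invariant N w f (a • E) (hol.const_smul _) hder' ?_ ?_
  · intro γ hγ
    rw [SL_smul_slash, hinv γ hγ]
  · exact hzero.smul a

end Fermat.Agent.S22.Sep
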