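import Fermat.Agent.S22.Eichler
import Fermat.Agent.S22.SeparationFinal

/-!
# S22: the period lattice of `Γ₀(N)` separates cusp forms

Glue between `Eichler.lean` (helper11) and `SeparationFinal.lean` (helper13): a cusp form all
of whose periods vanish is zero.
-/

namespace Fermat.Agent.S22.Sep

open UpperHalfPlane CongruenceSubgroup
open scoped MatrixGroups ModularForm Manifold

/-- If every functional in the period lattice kills `f`, then `f = 0`. -/
theorem eq_zero_of_periodLattice_zero (N : ℕ) [NeZero N] (w : ℕ)
    (f : CuspForm (Gamma0 N) ((w : ℤ) + 2))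
    (hf : ∀ l ∈ periodLatticeGamma0 N w, l f = 0) : f = 0 :=
  cuspForm_eq_zero_of_invariant_D N w f (eichlerFun N w f) (mdiff_eichlerFun N w f)
    (((2 * (Real.pi : ℂ) * Complex.I)⁻¹) ^ (w + 1)) (two_pi_I_inv_pow_ne_zero (w + 1))
    (iterate_D_eichlerFun N w f)
    (fun _ hγ => eichlerFun_slash_eq_of_periods_zero N w f hf hγ)
    (isZeroAtImInfty_eichlerFun N w f)

/-- The period lattice separates points of the space of cusp forms. -/
theorem periodLattice_separates (N : ℕ) [NeZero N] (w : ℕ)
    (f g : CuspForm (Gamma0 N) ((w : ℤ) + 2))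
    (hfg : ∀ l ∈ periodLatticeGamma0 N w, l f = l g) : f = g := by
  have h : f - g = 0 := eq_zero_of_periodLattice_zero N w (f - g) (fun l hl => by
    rw [map_sub, hfg l hl, sub_self])
  exact sub_eq_zero.mp h

end Fermat.Agent.S22.Sep
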