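import Mathlib
import Fermat.Prelude.Def_ModularForm_HeckeOperator
import Fermat.Prelude.Thm_ModularForm_mdifferentiable_heckeT
import Fermat.Prelude.Thm_ModularForm_mdifferentiable_heckeU

set_option autoImplicit false

open UpperHalfPlane hiding I
open Matrix.SpecialLinearGroup ModularForm Filter Topology
open scoped MatrixGroups ModularForm Manifold

namespace Fermat.Agent.S22.Hecke

/-- Holomorphic functions on the upper half plane have differentiable iterated derivatives. -/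
theorem differentiableAt_iteratedDeriv_of_differentiableOn {G : ℂ → ℂ}
    (hG : DifferentiableOn ℂ G {z : ℂ | 0 < z.im}) (n : ℕ) {z : ℂ} (hz : 0 < z.im) :
    DifferentiableAt ℂ (iteratedDeriv n G) z := by
  have hU : IsOpen {z : ℂ | 0 < z.im} := isOpen_lt continuous_const Complex.continuous_im
  have h1 : ContDiffOn ℂ (n + 1 : ℕ) G {z : ℂ | 0 < z.im} := hG.contDiffOn hU
  have h2 : DifferentiableOn ℂ (iteratedDerivWithin n G {z : ℂ | 0 < z.im}) {z : ℂ | 0 < z.im} :=
    h1.differentiableOn_iteratedDerivWithin (by exact_mod_cast Nat.lt_succ_self n) hU.uniqueDiffOn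
  have h3 : DifferentiableAt ℂ (iteratedDerivWithin n G {z : ℂ | 0 < z.im}) z :=
    (h2 z hz).differentiableAt (hU.mem_nhds hz)
  refine h3.congr_of_eventuallyEq ?_
  filter_upwards [hU.mem_nhds hz] with w hw
  exact (iteratedDerivWithin_of_isOpen hU hw).symm

/-- Chain rule for iterated derivatives along an affine self-map of the upper half plane. -/
theorem iteratedDeriv_comp_affine {G : ℂ → ℂ}
    (hG : DifferentiableOn ℂ G {z : ℂ | 0 < z.im}) (a b : ℂ)
    (hφ : ∀ z : ℂ, 0 < z.im → 0 < (a * z + b).im) (n : ℕ) {z : ℂ} (hz : 0 < z.im) :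
    iteratedDeriv n (fun z => G (a * z + b)) z = a ^ n * iteratedDeriv n G (a * z + b) := by
  have hU : IsOpen {z : ℂ | 0 < z.im} := isOpen_lt continuous_const Complex.continuous_im
  induction n generalizing z with
  | zero => simp
  | succ n ih =>
    rw [iteratedDeriv_succ]
    have hev : iteratedDeriv n (fun z => G (a * z + b)) =ᶠ[𝓝 z]
        fun z => a ^ n * iteratedDeriv n G (a * z + b) := by
      filter_upwards [hU.mem_nhds hz] with w hw
      exact ih hw
    rw [hev.deriv_eq]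
    have hd : HasDerivAt (iteratedDeriv n G) (iteratedDeriv (n + 1) G (a * z + b)) (a * z + b) := by
      rw [iteratedDeriv_succ]
      exact (differentiableAt_iteratedDeriv_of_differentiableOn hG n (hφ z hz)).hasDerivAt
    have hlin : HasDerivAt (fun z : ℂ => a * z + b) a z := by
      simpa using ((hasDerivAt_id z).const_mul a).add_const b
    have := (hd.comp z hlin).const_mul (a ^ n)
    have h' : HasDerivAt (fun z => a ^ n * iteratedDeriv n G (a * z + b))
        (a ^ n * (iteratedDeriv (n + 1) G (a * z + b) * a)) z := this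
    rw [h'.deriv]
    ring

end Fermat.Agent.S22.Hecke

namespace Fermat.Agent.S22.Hecke

/-- The iterated derivatives of a holomorphic function on `ℍ` form a tower of derivatives. -/
theorem hasDerivAt_iteratedDeriv_comp_ofComplex {E : ℍ → ℂ} (hE : MDiff E) (m : ℕ) (z : ℍ) :
    HasDerivAt ((fun τ : ℍ => iteratedDeriv m (E ∘ ofComplex) τ) ∘ ofComplex)
      (iteratedDeriv (m + 1) (E ∘ ofComplex) z) z := by
  have hU : IsOpen {z : ℂ | 0 < z.im} := isOpen_lt continuous_const Complex.continuous_im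
  have hG : DifferentiableOn ℂ (E ∘ ofComplex) {z : ℂ | 0 < z.im} :=
    UpperHalfPlane.mdifferentiable_iff.mp hE
  have h1 : HasDerivAt (iteratedDeriv m (E ∘ ofComplex))
      (iteratedDeriv (m + 1) (E ∘ ofComplex) z) z := by
    rw [iteratedDeriv_succ]
    exact (differentiableAt_iteratedDeriv_of_differentiableOn hG m z.im_pos).hasDerivAt
  refine h1.congr_of_eventuallyEq ?_
  filter_upwards [hU.mem_nhds z.im_pos] with w hw
  simp only [Function.comp_apply, ofComplex_apply_of_im_pos hw, coe_mk]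

/-- A finite tower of derivatives computes the iterated derivative. -/
theorem iteratedDeriv_eq_of_tower (n : ℕ) {T : ℕ → ℍ → ℂ}
    (hT : ∀ m < n, ∀ z : ℍ, HasDerivAt (T m ∘ ofComplex) (T (m + 1) z) z) (z : ℍ) :
    iteratedDeriv n (T 0 ∘ ofComplex) z = T n z := by
  have hU : IsOpen {z : ℂ | 0 < z.im} := isOpen_lt continuous_const Complex.continuous_im
  induction n generalizing T z with
  | zero => simp
  | succ n ih =>
    rw [iteratedDeriv_succ']
    have hev : deriv (T 0 ∘ ofComplex) =ᶠ[𝓝 (z : ℂ)] (T 1 ∘ ofComplex) := by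
      filter_upwards [hU.mem_nhds z.im_pos] with w hw
      have := (hT 0 (Nat.succ_pos n) ⟨w, hw⟩).deriv
      rw [this]
      simp only [Function.comp_apply, ofComplex_apply_of_im_pos hw]
    rw [hev.iteratedDeriv_eq n]
    exact ih (T := fun m => T (m + 1)) (fun m hm z => hT (m + 1) (Nat.succ_lt_succ hm) z) z

section Step

variable {F F' : ℍ → ℂ} (hF : ∀ z : ℍ, HasDerivAt (F ∘ ofComplex) (F' z) z)
include hF

theorem hasDerivAt_slash_heckeMatrix (k : ℤ) {p : ℕ} (hp : p ≠ 0) (j : ℕ) (z : ℍ) :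
    HasDerivAt ((F ∣[k] heckeMatrix p j) ∘ ofComplex)
      ((p : ℂ)⁻¹ * (F' ∣[k + 2] heckeMatrix p j) z) z := by
  have hU : IsOpen {z : ℂ | 0 < z.im} := isOpen_lt continuous_const Complex.continuous_im
  have hp' : (p : ℂ) ≠ 0 := by exact_mod_cast hp
  have hppos : (0 : ℝ) < p := by exact_mod_cast Nat.pos_of_ne_zero hp
  have him : ∀ w : ℂ, 0 < w.im → 0 < ((w + j) / p).im := by
    intro w hw
    have : ((w + j) / (p : ℂ)).im = w.im / p := by
      rw [Complex.div_natCast_im]; simp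
    rw [this]; positivity
  have hlin : HasDerivAt (fun w : ℂ => (w + j) / p) ((p : ℂ)⁻¹) z := by
    have := ((hasDerivAt_id (z : ℂ)).add_const (j : ℂ)).div_const (p : ℂ)
    simpa [one_div] using this
  have hz' : ((z : ℂ) + j) / p = ((heckeMatrix p j • z : ℍ) : ℂ) := (coe_heckeMatrix_smul hp j z).symm
  have h1 : HasDerivAt (F ∘ ofComplex) (F' (heckeMatrix p j • z)) (((z : ℂ) + j) / p) := by
    rw [hz']; exact hF _
  have h2 := (h1.comp (z : ℂ) hlin).const_mul ((p : ℂ)⁻¹)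
  rw [slash_heckeMatrix_apply (k + 2) hp]
  refine (h2.congr_deriv (by ring)).congr_of_eventuallyEq ?_
  filter_upwards [hU.mem_nhds z.im_pos] with w hw
  simp only [Function.comp_apply, ofComplex_apply_of_im_pos hw]
  rw [slash_heckeMatrix_apply k hp]
  congr 2
  apply UpperHalfPlane.ext
  rw [coe_heckeMatrix_smul hp, ofComplex_apply_of_im_pos (him w hw)]

theorem hasDerivAt_slash_heckeDiagMatrix (k : ℤ) {p : ℕ} (hp : p ≠ 0) (z : ℍ) :
    HasDerivAt ((F ∣[k] heckeDiagMatrix p) ∘ ofComplex)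
      ((p : ℂ)⁻¹ * (F' ∣[k + 2] heckeDiagMatrix p) z) z := by
  have hU : IsOpen {z : ℂ | 0 < z.im} := isOpen_lt continuous_const Complex.continuous_im
  have hp' : (p : ℂ) ≠ 0 := by exact_mod_cast hp
  have hppos : (0 : ℝ) < p := by exact_mod_cast Nat.pos_of_ne_zero hp
  have him : ∀ w : ℂ, 0 < w.im → 0 < ((p : ℂ) * w).im := by
    intro w hw
    have : ((p : ℂ) * w).im = p * w.im := by simp
    rw [this]; positivity
  have hlin : HasDerivAt (fun w : ℂ => (p : ℂ) * w) (p : ℂ) z := by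
    simpa using (hasDerivAt_id (z : ℂ)).const_mul (p : ℂ)
  have hz' : (p : ℂ) * (z : ℂ) = ((heckeDiagMatrix p • z : ℍ) : ℂ) :=
    (coe_heckeDiagMatrix_smul hp z).symm
  have h1 : HasDerivAt (F ∘ ofComplex) (F' (heckeDiagMatrix p • z)) ((p : ℂ) * (z : ℂ)) := by
    rw [hz']; exact hF _
  have h2 := (h1.comp (z : ℂ) hlin).const_mul ((p : ℂ) ^ (k - 1))
  rw [slash_heckeDiagMatrix_apply (k + 2) hp]
  refine (h2.congr_deriv ?_).congr_of_eventuallyEq ?_
  · rw [show k + 2 - 1 = (k - 1) + 1 + 1 by ring, zpow_add_one₀ hp', zpow_add_one₀ hp']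
    field_simp
  filter_upwards [hU.mem_nhds z.im_pos] with w hw
  simp only [Function.comp_apply, ofComplex_apply_of_im_pos hw]
  rw [slash_heckeDiagMatrix_apply k hp]
  congr 2
  apply UpperHalfPlane.ext
  rw [coe_heckeDiagMatrix_smul hp, ofComplex_apply_of_im_pos (him w hw)]

theorem hasDerivAt_heckeU (k : ℤ) {p : ℕ} (hp : p ≠ 0) (z : ℍ) :
    HasDerivAt ((heckeU k p F) ∘ ofComplex) ((p : ℂ)⁻¹ * heckeU (k + 2) p F' z) z := by
  have h : ∀ j ∈ Finset.range p, HasDerivAt ((F ∣[k] heckeMatrix p j) ∘ ofComplex)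
      ((p : ℂ)⁻¹ * (F' ∣[k + 2] heckeMatrix p j) z) z :=
    fun j _ => hasDerivAt_slash_heckeMatrix hF k hp j z
  have := HasDerivAt.fun_sum h
  rw [heckeU_def, heckeU_def, Finset.sum_apply, Finset.mul_sum]
  refine this.congr_of_eventuallyEq (Filter.Eventually.of_forall fun w => ?_)
  simp only [Function.comp_apply, Finset.sum_apply]

theorem hasDerivAt_heckeT (k : ℤ) {p : ℕ} (hp : p ≠ 0) (z : ℍ) :
    HasDerivAt ((heckeT k p F) ∘ ofComplex) ((p : ℂ)⁻¹ * heckeT (k + 2) p F' z) z := by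
  rw [heckeT_eq_heckeU_add, heckeT_eq_heckeU_add, Pi.add_apply, mul_add]
  exact (hasDerivAt_heckeU hF k hp z).add (hasDerivAt_slash_heckeDiagMatrix hF k hp z)

end Step

end Fermat.Agent.S22.Hecke

namespace Fermat.Agent.S22.Hecke

section Iterated

variable {E : ℍ → ℂ} (hE : MDiff E)
include hE

/-- `(w+1)`-fold derivative of a Hecke transform (weight bookkeeping: each derivative raises the
weight by two and costs a factor `p⁻¹`). -/
theorem iteratedDeriv_smul_heckeT_comp_ofComplex (c : ℂ) (k : ℤ) {p : ℕ} (hp : p ≠ 0) (n : ℕ) (z : ℍ) :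
    iteratedDeriv n ((c • heckeT k p E) ∘ ofComplex) z =
      c * ((p : ℂ)⁻¹) ^ n *
        heckeT (k + 2 * n) p (fun τ : ℍ => iteratedDeriv n (E ∘ ofComplex) τ) z := by
  set T : ℕ → ℍ → ℂ := fun m =>
    (c * ((p : ℂ)⁻¹) ^ m) • heckeT (k + 2 * m) p (fun τ : ℍ => iteratedDeriv m (E ∘ ofComplex) τ)
    with hT
  have hT0 : T 0 = c • heckeT k p E := by
    simp only [hT, pow_zero, mul_one, Nat.cast_zero, mul_zero, add_zero, iteratedDeriv_zero]
    congr 2
    funext τ
    simp only [Function.comp_apply, ofComplex_apply]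
  have htower : ∀ m < n, ∀ z : ℍ, HasDerivAt (T m ∘ ofComplex) (T (m + 1) z) z := by
    intro m _ z
    have h1 := hasDerivAt_heckeT (hasDerivAt_iteratedDeriv_comp_ofComplex hE m) (k + 2 * m) hp z
    have h2 := h1.const_mul (c * ((p : ℂ)⁻¹) ^ m)
    have hk : k + 2 * (m : ℤ) + 2 = k + 2 * ((m + 1 : ℕ) : ℤ) := by push_cast; ring
    rw [hk] at h2
    refine (h2.congr_deriv ?_).congr_of_eventuallyEq (Filter.Eventually.of_forall fun w => ?_)
    · simp only [hT, Pi.smul_apply, smul_eq_mul]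
      rw [pow_succ]; ring
    · simp only [hT, Function.comp_apply, Pi.smul_apply, smul_eq_mul]
  have := iteratedDeriv_eq_of_tower n htower z
  rw [hT0] at this
  rw [this]
  simp only [hT, Pi.smul_apply, smul_eq_mul]

theorem iteratedDeriv_smul_heckeU_comp_ofComplex (c : ℂ) (k : ℤ) {p : ℕ} (hp : p ≠ 0) (n : ℕ) (z : ℍ) :
    iteratedDeriv n ((c • heckeU k p E) ∘ ofComplex) z =
      c * ((p : ℂ)⁻¹) ^ n *
        heckeU (k + 2 * n) p (fun τ : ℍ => iteratedDeriv n (E ∘ ofComplex) τ) z := by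
  set T : ℕ → ℍ → ℂ := fun m =>
    (c * ((p : ℂ)⁻¹) ^ m) • heckeU (k + 2 * m) p (fun τ : ℍ => iteratedDeriv m (E ∘ ofComplex) τ)
    with hT
  have hT0 : T 0 = c • heckeU k p E := by
    simp only [hT, pow_zero, mul_one, Nat.cast_zero, mul_zero, add_zero, iteratedDeriv_zero]
    congr 2
    funext τ
    simp only [Function.comp_apply, ofComplex_apply]
  have htower : ∀ m < n, ∀ z : ℍ, HasDerivAt (T m ∘ ofComplex) (T (m + 1) z) z := by
    intro m _ z
    have h1 := hasDerivAt_heckeU (hasDerivAt_iteratedDeriv_comp_ofComplex hE m) (k + 2 * m) hp z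
    have h2 := h1.const_mul (c * ((p : ℂ)⁻¹) ^ m)
    have hk : k + 2 * (m : ℤ) + 2 = k + 2 * ((m + 1 : ℕ) : ℤ) := by push_cast; ring
    rw [hk] at h2
    refine (h2.congr_deriv ?_).congr_of_eventuallyEq (Filter.Eventually.of_forall fun w => ?_)
    · simp only [hT, Pi.smul_apply, smul_eq_mul]
      rw [pow_succ]; ring
    · simp only [hT, Function.comp_apply, Pi.smul_apply, smul_eq_mul]
  have := iteratedDeriv_eq_of_tower n htower z
  rw [hT0] at this
  rw [this]
  simp only [hT, Pi.smul_apply, smul_eq_mul]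

end Iterated

/-- If `E` is a `(w+1)`-fold primitive of `f` then `p^(w+1) • T_p E` (weight `-w`) is a
`(w+1)`-fold primitive of `T_p f` (weight `w+2`). -/
theorem iteratedDeriv_heckeT_of_iteratedDeriv_eq {E f : ℍ → ℂ} (hE : MDiff E) (w : ℕ) {p : ℕ}
    (hp : p ≠ 0) (hEf : ∀ z : ℍ, iteratedDeriv (w + 1) (E ∘ ofComplex) z = f z) (z : ℍ) :
    iteratedDeriv (w + 1) ((((p : ℂ) ^ (w + 1)) • heckeT (-(w : ℤ)) p E) ∘ ofComplex) z =
      heckeT ((w : ℤ) + 2) p f z := by
  have hp' : (p : ℂ) ≠ 0 := by exact_mod_cast hp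
  rw [iteratedDeriv_smul_heckeT_comp_ofComplex hE _ _ hp]
  have h1 : (fun τ : ℍ => iteratedDeriv (w + 1) (E ∘ ofComplex) τ) = f := funext hEf
  have h2 : -(w : ℤ) + 2 * ((w + 1 : ℕ) : ℤ) = (w : ℤ) + 2 := by push_cast; ring
  rw [h1, h2, inv_pow, mul_inv_cancel₀ (pow_ne_zero _ hp'), one_mul]

theorem iteratedDeriv_heckeU_of_iteratedDeriv_eq {E f : ℍ → ℂ} (hE : MDiff E) (w : ℕ) {p : ℕ}
    (hp : p ≠ 0) (hEf : ∀ z : ℍ, iteratedDeriv (w + 1) (E ∘ ofComplex) z = f z) (z : ℍ) :
    iteratedDeriv (w + 1) ((((p : ℂ) ^ (w + 1)) • heckeU (-(w : ℤ)) p E) ∘ ofComplex) z =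
      heckeU ((w : ℤ) + 2) p f z := by
  have hp' : (p : ℂ) ≠ 0 := by exact_mod_cast hp
  rw [iteratedDeriv_smul_heckeU_comp_ofComplex hE _ _ hp]
  have h1 : (fun τ : ℍ => iteratedDeriv (w + 1) (E ∘ ofComplex) τ) = f := funext hEf
  have h2 : -(w : ℤ) + 2 * ((w + 1 : ℕ) : ℤ) = (w : ℤ) + 2 := by push_cast; ring
  rw [h1, h2, inv_pow, mul_inv_cancel₀ (pow_ne_zero _ hp'), one_mul]

end Fermat.Agent.S22.Hecke

namespace Fermat.Agent.S22.Hecke

section Decay

theorem tendsto_heckeMatrix_smul_atImInfty {p : ℕ} (hp : p ≠ 0) (j : ℕ) :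
    Tendsto (fun τ : ℍ => heckeMatrix p j • τ) atImInfty atImInfty := by
  rw [atImInfty, tendsto_comap_iff]
  have hppos : (0 : ℝ) < p := by exact_mod_cast Nat.pos_of_ne_zero hp
  have h : (UpperHalfPlane.im ∘ fun τ : ℍ => heckeMatrix p j • τ) = fun τ : ℍ => τ.im / p := by
    funext τ
    have h1 : (heckeMatrix p j • τ).im = (((heckeMatrix p j • τ : ℍ) : ℂ)).im := rfl
    simp only [Function.comp_apply]
    rw [h1, coe_heckeMatrix_smul hp, Complex.div_natCast_im]
    simp
  rw [h]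
  exact Filter.Tendsto.atTop_div_const hppos tendsto_comap

theorem tendsto_heckeDiagMatrix_smul_atImInfty {p : ℕ} (hp : p ≠ 0) :
    Tendsto (fun τ : ℍ => heckeDiagMatrix p • τ) atImInfty atImInfty := by
  rw [atImInfty, tendsto_comap_iff]
  have hppos : (0 : ℝ) < p := by exact_mod_cast Nat.pos_of_ne_zero hp
  have h : (UpperHalfPlane.im ∘ fun τ : ℍ => heckeDiagMatrix p • τ) = fun τ : ℍ => p * τ.im := by
    funext τ
    have h1 : (heckeDiagMatrix p • τ).im = (((heckeDiagMatrix p • τ : ℍ) : ℂ)).im := rfl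
    simp only [Function.comp_apply]
    rw [h1, coe_heckeDiagMatrix_smul hp]
    simp
  rw [h]
  exact Filter.Tendsto.const_mul_atTop hppos tendsto_comap

variable {E : ℍ → ℂ} (hE : IsZeroAtImInfty E)
include hE

theorem isZeroAtImInfty_heckeU (k : ℤ) {p : ℕ} (hp : p ≠ 0) : IsZeroAtImInfty (heckeU k p E) := by
  have h : heckeU k p E = fun τ => (p : ℂ)⁻¹ * ∑ j ∈ Finset.range p, E (heckeMatrix p j • τ) :=
    funext fun τ => heckeU_apply k hp E τ
  rw [h]
  unfold IsZeroAtImInfty ZeroAtFilter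
  have h1 : Tendsto (fun τ : ℍ => ∑ j ∈ Finset.range p, E (heckeMatrix p j • τ)) atImInfty
      (𝓝 (∑ _j ∈ Finset.range p, (0 : ℂ))) :=
    tendsto_finsetSum _ fun j _ => hE.comp (tendsto_heckeMatrix_smul_atImInfty hp j)
  have h2 := h1.const_mul ((p : ℂ)⁻¹)
  simpa using h2

theorem isZeroAtImInfty_heckeT (k : ℤ) {p : ℕ} (hp : p ≠ 0) : IsZeroAtImInfty (heckeT k p E) := by
  have h : heckeT k p E = fun τ => heckeU k p E τ + (p : ℂ) ^ (k - 1) * E (heckeDiagMatrix p • τ) := by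
    funext τ
    rw [heckeT_eq_heckeU_add, Pi.add_apply, slash_heckeDiagMatrix_apply k hp]
  rw [h]
  unfold IsZeroAtImInfty ZeroAtFilter
  have h1 : Tendsto (fun τ : ℍ => E (heckeDiagMatrix p • τ)) atImInfty (𝓝 0) :=
    hE.comp (tendsto_heckeDiagMatrix_smul_atImInfty hp)
  have h0 : Tendsto (heckeU k p E) atImInfty (𝓝 0) := isZeroAtImInfty_heckeU hE k hp
  have h2 := h0.add (h1.const_mul ((p : ℂ) ^ (k - 1)))
  simpa using h2

end Decay

theorem isZeroAtImInfty_const_smul {E : ℍ → ℂ} (hE : IsZeroAtImInfty E) (c : ℂ) :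
    IsZeroAtImInfty (c • E) := by
  unfold IsZeroAtImInfty ZeroAtFilter at *
  have := hE.const_mul c
  rw [mul_zero] at this
  exact this

theorem mdiff_const_smul {E : ℍ → ℂ} (hE : MDiff E) (c : ℂ) : MDiff (c • E) := by
  rw [UpperHalfPlane.mdifferentiable_iff] at *
  exact hE.const_smul c

end Fermat.Agent.S22.Hecke
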