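import Fermat.Agent.S22.PolyAct
import Fermat.Agent.S22.PolyOfDeriv
import Fermat.Prelude.Def_ModularForm_HeckeOperator

/-!
# S22: slash action on polynomial functions in terms of `polyAct`
-/

set_option autoImplicit false

open UpperHalfPlane hiding I
open Complex Polynomial
open scoped MatrixGroups ModularForm

namespace Fermat.Agent.S22

/-- The weight `-w` slash action of `γ ∈ SL(2, ℤ)` on a polynomial function of degree `≤ w`
is the polynomial function of `polyAct w γ P`. -/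
theorem polyFun_slash_SL (w : ℕ) (γ : SL(2, ℤ)) {P : ℂ[X]} (hP : P.natDegree ≤ w) :
    polyFun P ∣[-(w : ℤ)] γ = polyFun (polyAct w (γ : Matrix (Fin 2) (Fin 2) ℤ) P) := by
  ext z
  have hden : denom γ z = ((γ 1 0 : ℤ) : ℂ) * z + ((γ 1 1 : ℤ) : ℂ) := by
    simp [denom]
  have hz : ((γ 1 0 : ℤ) : ℂ) * z + ((γ 1 1 : ℤ) : ℂ) ≠ 0 := by
    rw [← hden]; exact denom_ne_zero γ z
  rw [ModularForm.SL_slash_apply, neg_neg, zpow_natCast]
  simp only [polyFun]
  rw [eval_polyAct w _ hP hz, hden, mul_comm]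
  congr 2
  rw [UpperHalfPlane.specialLinearGroup_apply]
  simp

/-- The (rescaled) weight `-w` slash action of `heckeMatrix p j` on polynomial functions. -/
theorem polyFun_slash_heckeMatrix (w : ℕ) {p : ℕ} (hp : p ≠ 0) (j : ℕ) {P : ℂ[X]}
    (hP : P.natDegree ≤ w) :
    ((p : ℂ) ^ (w + 1)) • (polyFun P ∣[-(w : ℤ)] ModularForm.heckeMatrix p j)
      = polyFun (polyAct w !![1, (j : ℤ); 0, (p : ℤ)] P) := by
  ext z
  have hp' : (p : ℂ) ≠ 0 := by exact_mod_cast hp
  have hz : (((!![1, (j : ℤ); 0, (p : ℤ)] : Matrix (Fin 2) (Fin 2) ℤ) 1 0 : ℤ) : ℂ) * z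
      + (((!![1, (j : ℤ); 0, (p : ℤ)] : Matrix (Fin 2) (Fin 2) ℤ) 1 1 : ℤ) : ℂ) ≠ 0 := by
    simpa using hp'
  rw [Pi.smul_apply, ModularForm.slash_heckeMatrix_apply _ hp, smul_eq_mul]
  simp only [polyFun]
  rw [eval_polyAct w _ hP hz, ModularForm.coe_heckeMatrix_smul hp]
  simp only [Matrix.of_apply, Matrix.cons_val', Matrix.cons_val_zero, Matrix.cons_val_one,
    Matrix.cons_val_fin_one, Int.cast_zero, zero_mul, zero_add, Int.cast_natCast, Int.cast_one,
    one_mul]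
  rw [pow_succ]
  field_simp

/-- The (rescaled) weight `-w` slash action of `heckeDiagMatrix p` on polynomial functions. -/
theorem polyFun_slash_heckeDiagMatrix (w : ℕ) {p : ℕ} (hp : p ≠ 0) {P : ℂ[X]}
    (hP : P.natDegree ≤ w) :
    ((p : ℂ) ^ (w + 1)) • (polyFun P ∣[-(w : ℤ)] ModularForm.heckeDiagMatrix p)
      = polyFun (polyAct w !![(p : ℤ), 0; 0, 1] P) := by
  ext z
  have hp' : (p : ℂ) ≠ 0 := by exact_mod_cast hp
  have hz : (((!![(p : ℤ), 0; 0, 1] : Matrix (Fin 2) (Fin 2) ℤ) 1 0 : ℤ) : ℂ) * z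
      + (((!![(p : ℤ), 0; 0, 1] : Matrix (Fin 2) (Fin 2) ℤ) 1 1 : ℤ) : ℂ) ≠ 0 := by
    simp
  rw [Pi.smul_apply, ModularForm.slash_heckeDiagMatrix_apply _ hp, smul_eq_mul]
  simp only [polyFun]
  rw [eval_polyAct w _ hP hz, ModularForm.coe_heckeDiagMatrix_smul hp]
  simp only [Matrix.of_apply, Matrix.cons_val', Matrix.cons_val_zero, Matrix.cons_val_one,
    Matrix.cons_val_fin_one, Int.cast_zero, zero_mul, zero_add, Int.cast_natCast, Int.cast_one,
    one_pow, one_mul, add_zero, div_one]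
  rw [show (-(w : ℤ) - 1) = -((w + 1 : ℕ) : ℤ) by push_cast; ring, zpow_neg, zpow_natCast]
  field_simp

/-- Integrality of `polyAct` on monomials. -/
theorem coeff_polyAct_X_pow (w : ℕ) (M : Matrix (Fin 2) (Fin 2) ℤ) {m : ℕ} (hm : m ≤ w) (i : ℕ) :
    (polyAct w M (X ^ m)).coeff i = (((basisPoly w M m).coeff i : ℤ) : ℂ) := by
  rw [coeff_polyAct]
  rw [Finset.sum_eq_single m]
  · simp
  · intro j _ hjm
    simp [coeff_X_pow, hjm]
  · intro h
    exact absurd (Finset.mem_range.mpr (Nat.lt_succ_of_le hm)) h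

end Fermat.Agent.S22
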