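import Fermat.Agent.S22.HeckeStable
import Fermat.Agent.S22.HeckeDeriv
import Fermat.Agent.S22.Bol
import Fermat.Agent.S22.PolyActSlash

set_option autoImplicit false

/-!
# S22 (T10): Hecke stability of the period polynomials

* `Hecke.eichler_heckeT` / `Hecke.eichler_heckeU`: if `E` is an Eichler integral of `f`
  (`MDiff E`, `IsZeroAtImInfty E`, `D^[w+1] E = c • f`) then `p^(w+1) • T_p E` (weight `-w`) is an
  Eichler integral of `T_p f` (weight `w+2`), with the same constant `c`.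
* `Hecke.periodPoly_heckeT` / `Hecke.periodPoly_heckeU`: the period polynomial of
  `p^(w+1) • T_p E` along `g ∈ Γ₀(N)` is `∑ₓ polyAct w (Aₓ) (P (g' x))` for integer matrices `Aₓ`
  and `g' x ∈ Γ₀(N)`, where `P γ` are period polynomials of `E`.
-/

open UpperHalfPlane hiding I
open Matrix.SpecialLinearGroup ModularForm Filter Topology Polynomial
open scoped MatrixGroups ModularForm Manifold OnePoint
open Derivative

namespace Fermat.Agent.S22.Hecke

open P2MW.S_ModularForm_heckeT_slash_eq_self_of_mem_Gamma0.ModularForm.HeckeSlashInvariance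

/-! ### Eichler integrals of Hecke transforms -/

theorem iterate_D_smul_heckeT {E : ℍ → ℂ} (hE : MDiff E) (w : ℕ) {p : ℕ} (hp : p ≠ 0) :
    D^[w + 1] (((p : ℂ) ^ (w + 1)) • heckeT (-(w : ℤ)) p E) =
      heckeT ((w : ℤ) + 2) p (D^[w + 1] E) := by
  funext z
  rw [iterate_D_eq_iteratedDeriv,
    iteratedDeriv_heckeT_of_iteratedDeriv_eq hE w hp (f := fun τ : ℍ =>
      iteratedDeriv (w + 1) (E ∘ ofComplex) τ) (fun _ => rfl)]
  have h : D^[w + 1] E = ((2 * (Real.pi : ℂ) * Complex.I)⁻¹ ^ (w + 1)) •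
      (fun τ : ℍ => iteratedDeriv (w + 1) (E ∘ ofComplex) τ) := by
    funext τ
    rw [iterate_D_eq_iteratedDeriv]; rfl
  rw [h, heckeT_smul]
  rfl

theorem iterate_D_smul_heckeU {E : ℍ → ℂ} (hE : MDiff E) (w : ℕ) {p : ℕ} (hp : p ≠ 0) :
    D^[w + 1] (((p : ℂ) ^ (w + 1)) • heckeU (-(w : ℤ)) p E) =
      heckeU ((w : ℤ) + 2) p (D^[w + 1] E) := by
  funext z
  rw [iterate_D_eq_iteratedDeriv,
    iteratedDeriv_heckeU_of_iteratedDeriv_eq hE w hp (f := fun τ : ℍ =>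
      iteratedDeriv (w + 1) (E ∘ ofComplex) τ) (fun _ => rfl)]
  have h : D^[w + 1] E = ((2 * (Real.pi : ℂ) * Complex.I)⁻¹ ^ (w + 1)) •
      (fun τ : ℍ => iteratedDeriv (w + 1) (E ∘ ofComplex) τ) := by
    funext τ
    rw [iterate_D_eq_iteratedDeriv]; rfl
  rw [h, heckeU_smul]
  rfl

/-- `p^(w+1) • T_p E` is an Eichler integral of `T_p f` when `E` is one of `f`. -/
theorem eichler_heckeT {E f : ℍ → ℂ} (c : ℂ) (hE : MDiff E) (hE0 : IsZeroAtImInfty E) (w : ℕ)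
    {p : ℕ} (hp : p ≠ 0) (hEf : D^[w + 1] E = c • f) :
    MDiff (((p : ℂ) ^ (w + 1)) • heckeT (-(w : ℤ)) p E) ∧
    IsZeroAtImInfty (((p : ℂ) ^ (w + 1)) • heckeT (-(w : ℤ)) p E) ∧
    D^[w + 1] (((p : ℂ) ^ (w + 1)) • heckeT (-(w : ℤ)) p E) = c • heckeT ((w : ℤ) + 2) p f :=
  ⟨mdiff_const_smul (mdifferentiable_heckeT hE _ _) _,
    isZeroAtImInfty_const_smul (isZeroAtImInfty_heckeT hE0 _ hp) _, by
    rw [iterate_D_smul_heckeT hE w hp, hEf, heckeT_smul]⟩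

/-- `p^(w+1) • U_p E` is an Eichler integral of `U_p f` when `E` is one of `f`. -/
theorem eichler_heckeU {E f : ℍ → ℂ} (c : ℂ) (hE : MDiff E) (hE0 : IsZeroAtImInfty E) (w : ℕ)
    {p : ℕ} (hp : p ≠ 0) (hEf : D^[w + 1] E = c • f) :
    MDiff (((p : ℂ) ^ (w + 1)) • heckeU (-(w : ℤ)) p E) ∧
    IsZeroAtImInfty (((p : ℂ) ^ (w + 1)) • heckeU (-(w : ℤ)) p E) ∧
    D^[w + 1] (((p : ℂ) ^ (w + 1)) • heckeU (-(w : ℤ)) p E) = c • heckeU ((w : ℤ) + 2) p f :=
  ⟨mdiff_const_smul (mdifferentiable_heckeU hE _ _) _,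
    isZeroAtImInfty_const_smul (isZeroAtImInfty_heckeU hE0 _ hp) _, by
    rw [iterate_D_smul_heckeU hE w hp, hEf, heckeU_smul]⟩

/-! ### Integer matrices of the coset representatives -/

/-- The integer matrix of the coset representative `heckeRep p x`. -/
def heckeIntMat (p : ℕ) (x : OnePoint (ZMod p)) : Matrix (Fin 2) (Fin 2) ℤ :=
  x.elim !![(p : ℤ), 0; 0, 1] (fun j => !![1, (j.val : ℤ); 0, (p : ℤ)])

@[simp] theorem heckeIntMat_infty (p : ℕ) : heckeIntMat p ∞ = !![(p : ℤ), 0; 0, 1] := rfl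

@[simp] theorem heckeIntMat_coe (p : ℕ) (j : ZMod p) :
    heckeIntMat p (j : OnePoint (ZMod p)) = !![1, (j.val : ℤ); 0, (p : ℤ)] := rfl

theorem polyFun_slash_heckeRep (w : ℕ) {p : ℕ} (hp : p ≠ 0) (x : OnePoint (ZMod p)) {P : ℂ[X]}
    (hP : P.natDegree ≤ w) :
    ((p : ℂ) ^ (w + 1)) • (polyFun P ∣[-(w : ℤ)] heckeRep p x) =
      polyFun (polyAct w (heckeIntMat p x) P) := by
  induction x using OnePoint.rec with
  | infty => exact polyFun_slash_heckeDiagMatrix w hp hP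
  | coe j => exact polyFun_slash_heckeMatrix w hp j.val hP

theorem polyFun_injective : Function.Injective polyFun := by
  intro P Q h
  refine poly_eq_of_eval_eq_on_upperHalfPlane fun z hz => ?_
  exact congrFun h ⟨z, hz⟩

theorem polyFun_sum {ι : Type*} (s : Finset ι) (P : ι → ℂ[X]) :
    polyFun (∑ i ∈ s, P i) = ∑ i ∈ s, polyFun (P i) := by
  funext z
  simp [polyFun, Polynomial.eval_finsetSum]

theorem smul_slash_of_det_pos (κ : ℤ) {A : GL (Fin 2) ℝ} (hA : 0 < A.val.det) (c : ℂ)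
    (f : ℍ → ℂ) : (c • f) ∣[κ] A = c • (f ∣[κ] A) := by
  rw [ModularForm.smul_slash]
  congr 1
  simp [UpperHalfPlane.σ, hA]

theorem det_heckeRep_pos (p : ℕ) (x : OnePoint (ZMod p)) : 0 < (heckeRep p x).val.det := by
  induction x using OnePoint.rec with
  | infty =>
    have := det_heckeDiagMatrix_pos p
    rwa [Matrix.GeneralLinearGroup.val_det_apply] at this
  | coe j =>
    have := det_heckeMatrix_pos p j.val
    rwa [Matrix.GeneralLinearGroup.val_det_apply] at this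

/-! ### Period polynomials of Hecke transforms -/

section T

variable {N p : ℕ} [Fact p.Prime]

/-- Period polynomial of `p^(w+1) • T_p E` in terms of the period polynomials `P γ` of `E`. -/
theorem periodPoly_heckeT (hpN : ¬ p ∣ N) (w : ℕ) (E : ℍ → ℂ) (P : SL(2, ℤ) → ℂ[X])
    (hP : ∀ γ ∈ CongruenceSubgroup.Gamma0 N,
      (P γ).natDegree ≤ w ∧ polyFun (P γ) = E ∣[-(w : ℤ)] (mapGL ℝ γ) - E)
    (g : SL(2, ℤ)) (hg : g ∈ CongruenceSubgroup.Gamma0 N) (P' : ℂ[X])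
    (hP' : polyFun P' = (((p : ℂ) ^ (w + 1)) • heckeT (-(w : ℤ)) p E) ∣[-(w : ℤ)] (mapGL ℝ g)
      - ((p : ℂ) ^ (w + 1)) • heckeT (-(w : ℤ)) p E) :
    ∃ g' : OnePoint (ZMod p) → SL(2, ℤ), (∀ x, g' x ∈ CongruenceSubgroup.Gamma0 N) ∧
      P' = ∑ x : OnePoint (ZMod p), polyAct w (heckeIntMat p (redMatrix p g • x)) (P (g' x)) := by
  have hp : p ≠ 0 := (Fact.out : p.Prime).ne_zero
  obtain ⟨g', hg', hsum⟩ := heckeT_slash_sub_eq_sum (-(w : ℤ)) hpN E g hg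
  refine ⟨g', hg', polyFun_injective ?_⟩
  have hdetg : 0 < (mapGL ℝ g : GL (Fin 2) ℝ).val.det := by
    have : (mapGL ℝ g : GL (Fin 2) ℝ).val.det = 1 := by
      rw [← Matrix.GeneralLinearGroup.val_det_apply]; simp
    rw [this]; exact one_pos
  rw [hP', smul_slash_of_det_pos _ hdetg, ← smul_sub, hsum, Finset.smul_sum, polyFun_sum]
  refine Finset.sum_congr rfl fun x _ => ?_
  rw [← (hP (g' x) (hg' x)).2, polyFun_slash_heckeRep w hp _ (hP (g' x) (hg' x)).1]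

end T

section U

variable {N p : ℕ} [NeZero p]

/-- Period polynomial of `p^(w+1) • U_p E` in terms of the period polynomials `P γ` of `E`. -/
theorem periodPoly_heckeU (hpN : p ∣ N) (w : ℕ) (E : ℍ → ℂ) (P : SL(2, ℤ) → ℂ[X])
    (hP : ∀ γ ∈ CongruenceSubgroup.Gamma0 N,
      (P γ).natDegree ≤ w ∧ polyFun (P γ) = E ∣[-(w : ℤ)] (mapGL ℝ γ) - E)
    (g : SL(2, ℤ)) (hg : g ∈ CongruenceSubgroup.Gamma0 N) (P' : ℂ[X])
    (hP' : polyFun P' = (((p : ℂ) ^ (w + 1)) • heckeU (-(w : ℤ)) p E) ∣[-(w : ℤ)] (mapGL ℝ g)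
      - ((p : ℂ) ^ (w + 1)) • heckeU (-(w : ℤ)) p E) :
    ∃ (g' : ZMod p → SL(2, ℤ)) (σ : Equiv.Perm (ZMod p)),
      (∀ x, g' x ∈ CongruenceSubgroup.Gamma0 N) ∧
      P' = ∑ x : ZMod p, polyAct w !![1, ((σ x).val : ℤ); 0, (p : ℤ)] (P (g' x)) := by
  have hp : p ≠ 0 := NeZero.ne p
  obtain ⟨g', σ, hg', hsum⟩ := heckeU_slash_sub_eq_sum (-(w : ℤ)) hpN E g hg
  refine ⟨g', σ, hg', polyFun_injective ?_⟩
  have hdetg : 0 < (mapGL ℝ g : GL (Fin 2) ℝ).val.det := by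
    have : (mapGL ℝ g : GL (Fin 2) ℝ).val.det = 1 := by
      rw [← Matrix.GeneralLinearGroup.val_det_apply]; simp
    rw [this]; exact one_pos
  rw [hP', smul_slash_of_det_pos _ hdetg, ← smul_sub, hsum, Finset.smul_sum, polyFun_sum]
  refine Finset.sum_congr rfl fun x _ => ?_
  rw [← (hP (g' x) (hg' x)).2, polyFun_slash_heckeMatrix w hp _ (hP (g' x) (hg' x)).1]

end U

end Fermat.Agent.S22.Hecke
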