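import Fermat.Agent.S22.HeckeCore
import Fermat.Agent.S22.HeckePeriod

/-!
# S22: the Hecke generators preserve the period lattice
-/

set_option autoImplicit false

open UpperHalfPlane hiding I
open Function Complex Filter Topology Polynomial
open scoped Real Manifold MatrixGroups ModularForm OnePoint
open Derivative Matrix.SpecialLinearGroup ModularForm

namespace Fermat.Agent.S22

namespace HeckeFinal

open P2MW.S_ModularForm_heckeT_slash_eq_self_of_mem_Gamma0.ModularForm.HeckeSlashInvariance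
open Fermat.Agent.S22.Hecke

theorem val_det_heckeMatrix {p : ℕ} (hp : p ≠ 0) (j : ℕ) :
    (heckeMatrix p j).val.det = (p : ℝ) := by
  rw [← Matrix.GeneralLinearGroup.val_det_apply]
  exact det_heckeMatrix hp j

theorem val_det_heckeDiagMatrix {p : ℕ} (hp : p ≠ 0) :
    (heckeDiagMatrix p).val.det = (p : ℝ) := by
  rw [← Matrix.GeneralLinearGroup.val_det_apply]
  exact det_heckeDiagMatrix hp

theorem val_det_heckeRep {p : ℕ} (hp : p ≠ 0) (x : OnePoint (ZMod p)) :
    (heckeRep p x).val.det = (p : ℝ) := by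
  induction x using OnePoint.rec with
  | infty => exact val_det_heckeDiagMatrix hp
  | coe j => exact val_det_heckeMatrix hp j.val

theorem heckeMatrix_one_zero {p : ℕ} (hp : p ≠ 0) (j : ℕ) : (heckeMatrix p j) 1 0 = 0 := by
  show (heckeMatrix p j).val 1 0 = 0
  rw [val_heckeMatrix hp]
  simp

theorem heckeDiagMatrix_one_zero {p : ℕ} (hp : p ≠ 0) : (heckeDiagMatrix p) 1 0 = 0 := by
  show (heckeDiagMatrix p).val 1 0 = 0
  rw [val_heckeDiagMatrix hp]
  simp

theorem heckeRep_one_zero {p : ℕ} (hp : p ≠ 0) (x : OnePoint (ZMod p)) :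
    (heckeRep p x) 1 0 = 0 := by
  induction x using OnePoint.rec with
  | infty => exact heckeDiagMatrix_one_zero hp
  | coe j => exact heckeMatrix_one_zero hp j.val

end HeckeFinal

open HeckeFinal
open P2MW.S_ModularForm_heckeT_slash_eq_self_of_mem_Gamma0.ModularForm.HeckeSlashInvariance
open Fermat.Agent.S22.Hecke

variable (N : ℕ) [NeZero N] (w : ℕ)

/-- `T_p` acts integrally on period polynomials. -/
theorem heckeIntegral_heckeTLin {p : ℕ} (hp : p.Prime) (hpN : ¬ p ∣ N) :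
    HeckeIntegral N w (CuspForm.heckeTLin ((w : ℤ) + 2) hp hpN) := by
  have : Fact p.Prime := ⟨hp⟩
  have hp0 : p ≠ 0 := hp.ne_zero
  refine heckeIntegral_of_cosets N w _ (heckeRep p) (heckeIntMat p) p hp0
    (val_det_heckeRep hp0) (heckeRep_one_zero hp0) (fun f => ?_)
    (fun x P hP => polyFun_slash_heckeRep w hp0 x hP) (fun γ => ?_)
  · rw [CuspForm.coe_heckeTLin_apply]
    exact heckeT_eq_sum_onePoint _ _
  · have hcN : (N : ℤ) ∣ (γ : SL(2, ℤ)) 1 0 :=
      (ZMod.intCast_zmod_eq_zero_iff_dvd _ _).mp (CongruenceSubgroup.Gamma0_mem.mp γ.2)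
    choose g' hg'N hmul using fun x => heckeRep_mul hpN (γ : SL(2, ℤ)) hcN x
    exact ⟨MulAction.toPerm (redMatrix p (γ : SL(2, ℤ))),
      fun x => ⟨g' x, CongruenceSubgroup.Gamma0_mem.mpr
        ((ZMod.intCast_zmod_eq_zero_iff_dvd _ _).mpr (hg'N x))⟩, fun x => hmul x⟩

/-- `U_p` acts integrally on period polynomials. -/
theorem heckeIntegral_heckeULin {p : ℕ} (hp : p.Prime) (hpN : p ∣ N) :
    HeckeIntegral N w (CuspForm.heckeULin ((w : ℤ) + 2) hpN) := by
  have : NeZero p := ⟨hp.ne_zero⟩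
  have hp0 : p ≠ 0 := hp.ne_zero
  refine heckeIntegral_of_cosets N w _ (fun x : ZMod p => heckeMatrix p x.val)
    (fun x : ZMod p => !![1, (x.val : ℤ); 0, (p : ℤ)]) p hp0
    (fun x => val_det_heckeMatrix hp0 x.val) (fun x => heckeMatrix_one_zero hp0 x.val)
    (fun f => ?_) (fun x P hP => polyFun_slash_heckeMatrix w hp0 x.val hP) (fun γ => ?_)
  · rw [CuspForm.coe_heckeULin_apply]
    exact heckeU_eq_sum_zmod _ _
  · have hcN : (N : ℤ) ∣ (γ : SL(2, ℤ)) 1 0 :=
      (ZMod.intCast_zmod_eq_zero_iff_dvd _ _).mp (CongruenceSubgroup.Gamma0_mem.mp γ.2)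
    have hc : (p : ℤ) ∣ (γ : SL(2, ℤ)) 1 0 := (Int.natCast_dvd_natCast.mpr hpN).trans hcN
    choose g' hg' hmul using fun x => heckeMatrix_mul_of_dvd (γ : SL(2, ℤ)) hc x
    refine ⟨affinePerm (γ : SL(2, ℤ)) ((ZMod.intCast_zmod_eq_zero_iff_dvd _ _).mpr hc),
      fun x => ⟨g' x, ?_⟩, fun x => hmul x⟩
    rw [CongruenceSubgroup.Gamma0_mem, hg' x]
    push_cast
    rw [CongruenceSubgroup.Gamma0_mem.mp γ.2, mul_zero]

/-- the Hecke generators preserve the period lattice -/
theorem periodLatticeGamma0_stable (S : Set ℕ) :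
    ∀ T ∈ CuspForm.heckeGenerators N ((w : ℤ) + 2) S, ∀ l ∈ periodLatticeGamma0 N w,
      l.comp T ∈ periodLatticeGamma0 N w := by
  rintro T (⟨ℓ, hℓ, hℓN, -, rfl⟩ | ⟨q, hqN, hq, -, rfl⟩)
  · exact stable_of_heckeIntegral N w (heckeIntegral_heckeTLin N w hℓ hℓN)
  · exact stable_of_heckeIntegral N w (heckeIntegral_heckeULin N w hq hqN)

end Fermat.Agent.S22
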