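import Mathlib
import Fermat.Prelude.Def_CuspForm_HeckeAlgebra
import Fermat.Prelude.Thm_ModularForm_sturm_bound_Gamma0
import Fermat.Prelude.Thm_CongruenceSubgroup_one_mem_strictPeriods_Gamma0

set_option autoImplicit false

open CuspForm ModularFormClass UpperHalfPlane ModularForm
open scoped MatrixGroups

namespace Fermat.Agent.S22

/-- Cusp forms of non-positive weight on `Γ₀(N)` vanish (prelude Sturm bound). -/
theorem cuspForm_eq_zero_of_nonpos (N : ℕ) [NeZero N] {k : ℤ} (hk : k ≤ 0)
    (f : CuspForm (CongruenceSubgroup.Gamma0 N) k) : f = 0 := by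
  have h := ModularForm.sturm_bound_Gamma0 N (ModularFormClass.modularForm f) (by
    intro n hn
    have h0 : n = 0 := by
      have h1 : k * ((CongruenceSubgroup.Gamma0 N).index : ℤ) ≤ 0 :=
        mul_nonpos_of_nonpos_of_nonneg hk (by positivity)
      have : (k * ((CongruenceSubgroup.Gamma0 N).index : ℤ)).toNat = 0 := by
        omega
      rw [this] at hn
      omega
    subst h0
    exact CuspFormClass.qExpansion_coeff_zero f one_pos
      (CongruenceSubgroup.one_mem_strictPeriods_Gamma0 N))
  ext z
  have hz := DFunLike.congr_fun h z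
  simpa using hz

/-- Cusp forms of odd weight on `Γ₀(N)` vanish. -/
theorem cuspForm_eq_zero_of_odd (N : ℕ) {k : ℤ} (hk : Odd k)
    (f : CuspForm (CongruenceSubgroup.Gamma0 N) k) : f = 0 := by
  have hmem : (-1 : GL (Fin 2) ℝ) ∈
      (CongruenceSubgroup.Gamma0 N : Subgroup (GL (Fin 2) ℝ)) := by
    refine ⟨-1, ?_, ?_⟩
    · show (-1 : SL(2, ℤ)) ∈ CongruenceSubgroup.Gamma0 N
      rw [CongruenceSubgroup.Gamma0_mem]
      simp
    · ext i j
      fin_cases i <;> fin_cases j <;> simp
  have h := ModularForm.eq_zero_of_neg_one_mem hmem hk (ModularFormClass.modularForm f)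
  ext z
  have hz := DFunLike.congr_fun h z
  simpa using hz

/-- If the space of cusp forms is trivial then so is the Hecke algebra. -/
theorem finite_heckeAlgebra_of_forall_eq_zero (N : ℕ) [NeZero N] (k : ℤ) (S : Set ℕ)
    (h : ∀ f : CuspForm (CongruenceSubgroup.Gamma0 N) k, f = 0) :
    Module.Finite ℤ (CuspForm.heckeAlgebra N k S) := by
  have : Subsingleton (CuspForm (CongruenceSubgroup.Gamma0 N) k) :=
    ⟨fun a b => by rw [h a, h b]⟩
  have : Subsingleton (Module.End ℂ (CuspForm (CongruenceSubgroup.Gamma0 N) k)) :=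
    ⟨fun a b => LinearMap.ext fun x => Subsingleton.elim _ _⟩
  have : Subsingleton (CuspForm.heckeAlgebra N k S) :=
    ⟨fun a b => Subtype.ext (Subsingleton.elim _ _)⟩
  infer_instance

end Fermat.Agent.S22
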