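import Fermat.Agent.S22.HeckePeriod
import Fermat.Agent.S22.Eichler

set_option autoImplicit false

/-!
# S22 (T10, final part): the period lattice of `Γ₀(N)` is stable under the Hecke operators

* `Hecke.eichlerFun_heckeTLin` / `Hecke.eichlerFun_heckeULin`: the Eichler integral of `T_p f` is
  `p^(w+1) • T_p (E_f)` (weight `-w` Hecke operator on functions).
* `Hecke.periodPoly_comp_heckeTLin` / `Hecke.periodPoly_comp_heckeULin`: the period polynomial map
  of `T_p f` along `γ` is an integral combination of period polynomial maps of `f`.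
* `Hecke.periodLatticeGamma0_stable_T/U`, `Hecke.periodLatticeGamma0_stable`.
-/

open UpperHalfPlane hiding I
open Matrix.SpecialLinearGroup ModularForm Filter Topology Polynomial Complex
open scoped MatrixGroups ModularForm Manifold OnePoint Real
open Derivative

namespace Fermat.Agent.S22.Hecke

open P2MW.S_ModularForm_heckeT_slash_eq_self_of_mem_Gamma0.ModularForm.HeckeSlashInvariance

/-! ### Uniform (in `E`) versions of the coset identities -/

section T

variable {N p : ℕ} [Fact p.Prime]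

/-- The period of `T_p E` along `g ∈ Γ₀(N)` is a sum of slashed periods of `E`, with coset data
independent of `E`. -/
theorem heckeT_slash_sub_eq_sum_unif (κ : ℤ) (hpN : ¬ p ∣ N) (g : SL(2, ℤ))
    (hg : g ∈ CongruenceSubgroup.Gamma0 N) :
    ∃ g' : OnePoint (ZMod p) → SL(2, ℤ), (∀ x, g' x ∈ CongruenceSubgroup.Gamma0 N) ∧
      ∀ E : ℍ → ℂ, (heckeT κ p E) ∣[κ] (mapGL ℝ g) - heckeT κ p E =
        ∑ x : OnePoint (ZMod p),
          (E ∣[κ] (mapGL ℝ (g' x)) - E) ∣[κ] heckeRep p (redMatrix p g • x) := by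
  have hcN : (N : ℤ) ∣ g 1 0 :=
    (ZMod.intCast_zmod_eq_zero_iff_dvd _ _).mp (CongruenceSubgroup.Gamma0_mem.mp hg)
  choose g' hg'N hmul using fun x => heckeRep_mul hpN g hcN x
  refine ⟨g', fun x => CongruenceSubgroup.Gamma0_mem.mpr
    ((ZMod.intCast_zmod_eq_zero_iff_dvd _ _).mpr (hg'N x)), fun E => ?_⟩
  have h1 : (heckeT κ p E) ∣[κ] (mapGL ℝ g) =
      ∑ x : OnePoint (ZMod p), (E ∣[κ] (mapGL ℝ (g' x))) ∣[κ] heckeRep p (redMatrix p g • x) := by
    rw [heckeT_eq_sum_onePoint κ E, SlashAction.sum_slash]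
    refine Finset.sum_congr rfl fun x _ => ?_
    rw [← SlashAction.slash_mul, hmul x, SlashAction.slash_mul]
  have h2 : heckeT κ p E = ∑ x : OnePoint (ZMod p), E ∣[κ] heckeRep p (redMatrix p g • x) := by
    rw [heckeT_eq_sum_onePoint κ E]
    exact (Equiv.sum_comp (MulAction.toPerm (redMatrix p g)) (fun x => E ∣[κ] heckeRep p x)).symm
  rw [h1]
  nth_rewrite 1 [h2]
  rw [← Finset.sum_sub_distrib]
  refine Finset.sum_congr rfl fun x _ => ?_
  rw [sub_slash]

end T

section U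

variable {N p : ℕ} [NeZero p]

/-- The period of `U_p E` along `g ∈ Γ₀(N)`, `p ∣ N`, is a sum of slashed periods of `E`, with
coset data independent of `E`. -/
theorem heckeU_slash_sub_eq_sum_unif (κ : ℤ) (hpN : p ∣ N) (g : SL(2, ℤ))
    (hg : g ∈ CongruenceSubgroup.Gamma0 N) :
    ∃ (g' : ZMod p → SL(2, ℤ)) (σ : Equiv.Perm (ZMod p)),
      (∀ x, g' x ∈ CongruenceSubgroup.Gamma0 N) ∧
      ∀ E : ℍ → ℂ, (heckeU κ p E) ∣[κ] (mapGL ℝ g) - heckeU κ p E =
        ∑ x : ZMod p, (E ∣[κ] (mapGL ℝ (g' x)) - E) ∣[κ] heckeMatrix p (σ x).val := by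
  have hcN : (N : ℤ) ∣ g 1 0 :=
    (ZMod.intCast_zmod_eq_zero_iff_dvd _ _).mp (CongruenceSubgroup.Gamma0_mem.mp hg)
  have hc : (p : ℤ) ∣ g 1 0 := (Int.natCast_dvd_natCast.mpr hpN).trans hcN
  choose g' hg' hmul using fun x => heckeMatrix_mul_of_dvd g hc x
  refine ⟨g', affinePerm g ((ZMod.intCast_zmod_eq_zero_iff_dvd _ _).mpr hc), fun x => ?_,
    fun E => ?_⟩
  · rw [CongruenceSubgroup.Gamma0_mem, hg' x]
    push_cast
    rw [CongruenceSubgroup.Gamma0_mem.mp hg, mul_zero]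
  have h1 : (heckeU κ p E) ∣[κ] (mapGL ℝ g) =
      ∑ x : ZMod p, (E ∣[κ] (mapGL ℝ (g' x))) ∣[κ] heckeMatrix p
        (affinePerm g ((ZMod.intCast_zmod_eq_zero_iff_dvd _ _).mpr hc) x).val := by
    rw [heckeU_eq_sum_zmod κ E, SlashAction.sum_slash]
    refine Finset.sum_congr rfl fun x _ => ?_
    rw [← SlashAction.slash_mul, hmul x, SlashAction.slash_mul]
  have h2 : heckeU κ p E = ∑ x : ZMod p, E ∣[κ] heckeMatrix p
      (affinePerm g ((ZMod.intCast_zmod_eq_zero_iff_dvd _ _).mpr hc) x).val := by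
    rw [heckeU_eq_sum_zmod κ E]
    exact (Equiv.sum_comp (affinePerm g _) (fun x => E ∣[κ] heckeMatrix p x.val)).symm
  rw [h1]
  nth_rewrite 1 [h2]
  rw [← Finset.sum_sub_distrib]
  refine Finset.sum_congr rfl fun x _ => ?_
  rw [sub_slash]

end U

/-! ### Eichler integrals and period polynomials of Hecke transforms of cusp forms -/

section

variable (N : ℕ) [NeZero N] (w : ℕ)

local notation "Vw" => CuspForm (CongruenceSubgroup.Gamma0 N) ((w : ℤ) + 2)

/-- the Eichler integral of `T_p f` -/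
theorem eichlerFun_heckeTLin {p : ℕ} (hp : p.Prime) (hpN : ¬ p ∣ N) (f : Vw) :
    eichlerFun N w (CuspForm.heckeTLin ((w : ℤ) + 2) hp hpN f) =
      ((p : ℂ) ^ (w + 1)) • heckeT (-(w : ℤ)) p (eichlerFun N w f) := by
  obtain ⟨h1, h2, h3⟩ := eichler_heckeT (((2 * π * I : ℂ)⁻¹) ^ (w + 1)) (mdiff_eichlerFun N w f)
    (isZeroAtImInfty_eichlerFun N w f) w hp.ne_zero (iterate_D_eichlerFun N w f)
  exact (eq_eichlerFun N w _ h1 h2 h3).symm

/-- the Eichler integral of `U_p f` -/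
theorem eichlerFun_heckeULin {p : ℕ} (hp : p.Prime) (hpN : p ∣ N) (f : Vw) :
    eichlerFun N w (CuspForm.heckeULin ((w : ℤ) + 2) hpN f) =
      ((p : ℂ) ^ (w + 1)) • heckeU (-(w : ℤ)) p (eichlerFun N w f) := by
  obtain ⟨h1, h2, h3⟩ := eichler_heckeU (((2 * π * I : ℂ)⁻¹) ^ (w + 1)) (mdiff_eichlerFun N w f)
    (isZeroAtImInfty_eichlerFun N w f) w hp.ne_zero (iterate_D_eichlerFun N w f)
  exact (eq_eichlerFun N w _ h1 h2 h3).symm

theorem slash_SL_eq_mapGL (κ : ℤ) (F : ℍ → ℂ) (g : SL(2, ℤ)) :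
    F ∣[κ] g = F ∣[κ] (mapGL ℝ g) := rfl

theorem det_mapGL_pos (g : SL(2, ℤ)) : 0 < (mapGL ℝ g : GL (Fin 2) ℝ).val.det := by
  have : (mapGL ℝ g : GL (Fin 2) ℝ).val.det = 1 := by
    rw [← Matrix.GeneralLinearGroup.val_det_apply]; simp
  rw [this]; exact one_pos

/-- The period polynomial map of `T_p f` along `γ ∈ Γ₀(N)` is a sum of integral transforms of
period polynomial maps of `f`. -/
theorem periodPoly_comp_heckeTLin {p : ℕ} (hp : p.Prime) (hpN : ¬ p ∣ N)
    (γ : CongruenceSubgroup.Gamma0 N) :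
    ∃ (ι : Type) (_ : Fintype ι) (A : ι → Matrix (Fin 2) (Fin 2) ℤ)
      (g' : ι → CongruenceSubgroup.Gamma0 N),
      (periodPoly N w γ) ∘ₗ (CuspForm.heckeTLin ((w : ℤ) + 2) hp hpN) =
        ∑ x : ι, (polyAct w (A x)) ∘ₗ (periodPoly N w (g' x)) := by
  have : Fact p.Prime := ⟨hp⟩
  obtain ⟨g', hg', hsum⟩ := heckeT_slash_sub_eq_sum_unif (-(w : ℤ)) hpN (γ : SL(2, ℤ)) γ.2
  refine ⟨OnePoint (ZMod p), inferInstance,
    fun x => heckeIntMat p (redMatrix p (γ : SL(2, ℤ)) • x), fun x => ⟨g' x, hg' x⟩, ?_⟩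
  ext1 f
  apply polyFun_injective
  rw [LinearMap.comp_apply, polyFun_periodPoly, eichlerFun_heckeTLin, LinearMap.sum_apply,
    polyFun_sum, slash_SL_eq_mapGL, smul_slash_of_det_pos _ (det_mapGL_pos _), ← smul_sub,
    hsum, Finset.smul_sum]
  refine Finset.sum_congr rfl fun x _ => ?_
  rw [LinearMap.comp_apply, ← polyFun_slash_heckeRep w hp.ne_zero _
    (natDegree_periodPoly_le N w ⟨g' x, hg' x⟩ f), polyFun_periodPoly]
  rfl

/-- The period polynomial map of `U_p f` along `γ ∈ Γ₀(N)` is a sum of integral transforms of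
period polynomial maps of `f`. -/
theorem periodPoly_comp_heckeULin {p : ℕ} (hp : p.Prime) (hpN : p ∣ N)
    (γ : CongruenceSubgroup.Gamma0 N) :
    ∃ (ι : Type) (_ : Fintype ι) (A : ι → Matrix (Fin 2) (Fin 2) ℤ)
      (g' : ι → CongruenceSubgroup.Gamma0 N),
      (periodPoly N w γ) ∘ₗ (CuspForm.heckeULin ((w : ℤ) + 2) hpN) =
        ∑ x : ι, (polyAct w (A x)) ∘ₗ (periodPoly N w (g' x)) := by
  have : NeZero p := ⟨hp.ne_zero⟩
  obtain ⟨g', σ, hg', hsum⟩ := heckeU_slash_sub_eq_sum_unif (-(w : ℤ)) hpN (γ : SL(2, ℤ)) γ.2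
  refine ⟨ZMod p, inferInstance,
    fun x => !![1, ((σ x).val : ℤ); 0, (p : ℤ)], fun x => ⟨g' x, hg' x⟩, ?_⟩
  ext1 f
  apply polyFun_injective
  rw [LinearMap.comp_apply, polyFun_periodPoly, eichlerFun_heckeULin N w hp, LinearMap.sum_apply,
    polyFun_sum, slash_SL_eq_mapGL, smul_slash_of_det_pos _ (det_mapGL_pos _), ← smul_sub,
    hsum, Finset.smul_sum]
  refine Finset.sum_congr rfl fun x _ => ?_
  rw [LinearMap.comp_apply, ← polyFun_slash_heckeMatrix w hp.ne_zero _
    (natDegree_periodPoly_le N w ⟨g' x, hg' x⟩ f), polyFun_periodPoly]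
  rfl

/-- If `q ∘ T` is a sum of integral transforms of period polynomial maps, then the coefficient
functionals of `q`, composed with `T`, lie in the period lattice. -/
theorem coeffFunctional_comp_mem {ι : Type*} [Fintype ι] (T : Module.End ℂ Vw)
    (q : Vw →ₗ[ℂ] ℂ[X]) (A : ι → Matrix (Fin 2) (Fin 2) ℤ)
    (g' : ι → CongruenceSubgroup.Gamma0 N)
    (h : q ∘ₗ T = ∑ x : ι, (polyAct w (A x)) ∘ₗ (periodPoly N w (g' x))) (j : ℕ) :
    (coeffFunctional q j).comp T ∈ periodLatticeGamma0 N w := by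
  have h1 : (coeffFunctional q j).comp T = coeffFunctional (q ∘ₗ T) j := rfl
  have h2 : coeffFunctional (∑ x : ι, (polyAct w (A x)) ∘ₗ (periodPoly N w (g' x))) j =
      ∑ x : ι, coeffFunctional ((polyAct w (A x)) ∘ₗ (periodPoly N w (g' x))) j := by
    ext f
    simp only [coeffFunctional_apply, LinearMap.sum_apply, Polynomial.finsetSum_coeff]
  rw [h1, h, h2]
  refine Submodule.sum_mem _ fun x _ => ?_
  rw [coeffFunctional_polyAct_comp]
  refine Submodule.sum_mem _ fun m hm => ?_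
  refine Submodule.smul_mem _ _ ?_
  exact coeffFunctional_mem_periodLattice w (periodPoly N w) (g' x)
    (Nat.lt_succ_iff.mp (Finset.mem_range.mp hm))

/-- A linear endomorphism `T` of the space of cusp forms such that each `periodPoly γ ∘ T` is a
sum of integral transforms of period polynomial maps stabilises the period lattice. -/
theorem periodLatticeGamma0_stable_of (T : Module.End ℂ Vw)
    (hT : ∀ γ : CongruenceSubgroup.Gamma0 N, ∃ (ι : Type) (_ : Fintype ι)
      (A : ι → Matrix (Fin 2) (Fin 2) ℤ) (g' : ι → CongruenceSubgroup.Gamma0 N),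
      (periodPoly N w γ) ∘ₗ T = ∑ x : ι, (polyAct w (A x)) ∘ₗ (periodPoly N w (g' x))) :
    ∀ l ∈ periodLatticeGamma0 N w, l.comp T ∈ periodLatticeGamma0 N w := by
  intro l hl
  unfold periodLatticeGamma0 periodLattice at hl
  induction hl using Submodule.span_induction with
  | mem l hl =>
    obtain ⟨γ, j, -, rfl⟩ := hl
    obtain ⟨ι, _, A, g', h⟩ := hT γ
    exact coeffFunctional_comp_mem N w T _ A g' h j
  | zero => rw [LinearMap.zero_comp]; exact Submodule.zero_mem _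
  | add x y _ _ hx hy => rw [LinearMap.add_comp]; exact Submodule.add_mem _ hx hy
  | smul r x _ hx =>
    have : (r • x).comp T = r • x.comp T := by
      ext f; simp
    rw [this]; exact Submodule.smul_mem _ _ hx

/-- The period lattice is stable under `T_p`, `p ∤ N`. -/
theorem periodLatticeGamma0_stable_T {p : ℕ} (hp : p.Prime) (hpN : ¬ p ∣ N) :
    ∀ l ∈ periodLatticeGamma0 N w,
      l.comp (CuspForm.heckeTLin ((w : ℤ) + 2) hp hpN) ∈ periodLatticeGamma0 N w :=
  periodLatticeGamma0_stable_of N w _ fun γ => periodPoly_comp_heckeTLin N w hp hpN γ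

/-- The period lattice is stable under `U_p`, `p ∣ N`. -/
theorem periodLatticeGamma0_stable_U {p : ℕ} (hp : p.Prime) (hpN : p ∣ N) :
    ∀ l ∈ periodLatticeGamma0 N w,
      l.comp (CuspForm.heckeULin ((w : ℤ) + 2) hpN) ∈ periodLatticeGamma0 N w :=
  periodLatticeGamma0_stable_of N w _ fun γ => periodPoly_comp_heckeULin N w hp hpN γ

/-- The period lattice is stable under all Hecke generators. -/
theorem periodLatticeGamma0_stable (S : Set ℕ) :
    ∀ T ∈ CuspForm.heckeGenerators N ((w : ℤ) + 2) S,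
      ∀ l ∈ periodLatticeGamma0 N w, l.comp T ∈ periodLatticeGamma0 N w := by
  rintro T (⟨ℓ, hℓ, hℓN, -, rfl⟩ | ⟨q, hqN, hq, -, rfl⟩)
  · exact periodLatticeGamma0_stable_T N w hℓ hℓN
  · exact periodLatticeGamma0_stable_U N w hq hqN

end

end Fermat.Agent.S22.Hecke
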