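import Fermat.Agent.S22.EichlerUnique
import Fermat.Agent.S22.Bol

set_option autoImplicit false

/-!
# Existence and uniqueness of the Eichler integral, stated with Mathlib's normalized derivative `D`
-/

open UpperHalfPlane hiding I
open Function Complex Filter Topology
open scoped Real Manifold
open Derivative

namespace Fermat.Agent.S22

/-- Existence of the Eichler integral, `D`-form. -/
theorem eichler_exists_D {h : ℝ} (hh : 0 < h) (w : ℕ) (F : ℍ → ℂ)
    (hol : MDiff F) (per : Periodic (F ∘ ofComplex) h) (zero : IsZeroAtImInfty F) :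
    ∃ E : ℍ → ℂ, MDiff E ∧ Periodic (E ∘ ofComplex) h ∧ IsZeroAtImInfty E ∧
      D^[w + 1] E = ((2 * π * I)⁻¹) ^ (w + 1) • F := by
  obtain ⟨E, h1, h2, h3, h4⟩ := eichler_exists (w + 1) hh F hol per zero
  refine ⟨E, h1, h2, h3, ?_⟩
  funext z
  rw [iterate_D_eq_iteratedDeriv, h4 z]
  simp

/-- Uniqueness of the Eichler integral, `D`-form (decay along one vertical ray suffices). -/
theorem eichler_unique_D_vert (n : ℕ) {A B : ℍ → ℂ} (hA : MDiff A) (hB : MDiff B)
    {x : ℝ} (hA0 : VertDecayAt x A) (hB0 : VertDecayAt x B) (hder : D^[n] A = D^[n] B) :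
    A = B := by
  refine eichler_unique n hA hB (fun z => ?_) hA0 hB0
  have h1 := iterate_D_eq_iteratedDeriv A n z
  have h2 := iterate_D_eq_iteratedDeriv B n z
  rw [hder, h2] at h1
  have hne : ((2 * π * I : ℂ)⁻¹) ^ n ≠ 0 := pow_ne_zero _ (inv_ne_zero Complex.two_pi_I_ne_zero)
  exact (mul_left_cancel₀ hne h1).symm

/-- Uniqueness of the Eichler integral, `D`-form. -/
theorem eichler_unique_D (n : ℕ) {A B : ℍ → ℂ} (hA : MDiff A) (hB : MDiff B)
    (hA0 : IsZeroAtImInfty A) (hB0 : IsZeroAtImInfty B) (hder : D^[n] A = D^[n] B) : A = B :=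
  eichler_unique_D_vert n hA hB (vertDecayAt_of_isZeroAtImInfty hA0 0)
    (vertDecayAt_of_isZeroAtImInfty hB0 0) hder

end Fermat.Agent.S22
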