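import Fermat.Agent.S22.IteratedPrimitive

set_option autoImplicit false

/-!
# Existence and uniqueness of the Eichler integral (decaying `(w+1)`-fold primitive)
-/

open UpperHalfPlane hiding I
open Function Complex Filter Topology Polynomial
open scoped Real Manifold

namespace Fermat.Agent.S22

/-- The open upper half plane as a subset of `ℂ`. -/
abbrev uhpSet : Set ℂ := {w : ℂ | 0 < w.im}

lemma isOpen_uhpSet : IsOpen uhpSet := isOpen_lt continuous_const Complex.continuous_im

lemma isPreconnected_uhpSet : IsPreconnected uhpSet := (convex_halfSpace_im_gt 0).isPreconnected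

/-- A polynomial antiderivative. -/
noncomputable def polyAntideriv (P : ℂ[X]) : ℂ[X] :=
  ∑ i ∈ Finset.range (P.natDegree + 1), C (P.coeff i / ((i : ℂ) + 1)) * X ^ (i + 1)

lemma derivative_polyAntideriv (P : ℂ[X]) : derivative (polyAntideriv P) = P := by
  unfold polyAntideriv
  rw [derivative_sum]
  conv_rhs => rw [P.as_sum_range_C_mul_X_pow]
  refine Finset.sum_congr rfl fun i _ => ?_
  rw [derivative_C_mul, derivative_X_pow, ← mul_assoc]
  congr 1
  rw [← C_mul]
  congr 1
  have : ((i : ℂ) + 1) ≠ 0 := by exact_mod_cast Nat.succ_ne_zero i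
  push_cast
  field_simp

lemma natDegree_polyAntideriv_le (P : ℂ[X]) : (polyAntideriv P).natDegree ≤ P.natDegree + 1 := by
  unfold polyAntideriv
  refine natDegree_sum_le_of_forall_le _ _ fun i hi => ?_
  have hi' : i ≤ P.natDegree := Nat.lt_succ_iff.mp (Finset.mem_range.mp hi)
  refine (natDegree_C_mul_le _ _).trans ?_
  rw [natDegree_X_pow]
  omega

/-- A holomorphic function on the upper half plane whose `n`-th derivative vanishes there is a
polynomial of degree `< n` there. -/
theorem exists_poly_of_iteratedDeriv_eq_zero_uhp (n : ℕ) :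
    ∀ g : ℂ → ℂ, DifferentiableOn ℂ g uhpSet → (∀ z ∈ uhpSet, iteratedDeriv n g z = 0) →
      ∃ P : ℂ[X], (P = 0 ∨ P.natDegree < n) ∧ ∀ z ∈ uhpSet, g z = P.eval z := by
  induction n with
  | zero =>
    intro g _ h0
    exact ⟨0, Or.inl rfl, fun z hz => by simpa using h0 z hz⟩
  | succ n ih =>
    intro g hg h0
    have hg' : DifferentiableOn ℂ (deriv g) uhpSet := hg.deriv isOpen_uhpSet
    obtain ⟨P, hPdeg, hP⟩ := ih (deriv g) hg' (fun z hz => by
      have := h0 z hz
      rwa [iteratedDeriv_succ'] at this)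
    set R := polyAntideriv P with hR
    -- `g - R.eval` has zero derivative on the upper half plane
    have hd : DifferentiableOn ℂ (fun z => g z - R.eval z) uhpSet :=
      hg.sub R.differentiable.differentiableOn
    have hd0 : Set.EqOn (deriv (fun z => g z - R.eval z)) 0 uhpSet := by
      intro z hz
      have h1 : HasDerivAt g (deriv g z) z :=
        (hg.differentiableAt (isOpen_uhpSet.mem_nhds hz)).hasDerivAt
      have h2 : HasDerivAt (fun z => R.eval z) ((derivative R).eval z) z := R.hasDerivAt z
      have := (h1.sub h2).deriv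
      change deriv (g - fun z => R.eval z) z = 0
      rw [this, hP z hz, hR, derivative_polyAntideriv]
      simp
    obtain ⟨c, hc⟩ := isOpen_uhpSet.exists_is_const_of_deriv_eq_zero isPreconnected_uhpSet hd hd0
    refine ⟨R + C c, ?_, fun z hz => ?_⟩
    · right
      have h1 : (R + C c).natDegree ≤ max R.natDegree (C c).natDegree := natDegree_add_le _ _
      rw [natDegree_C] at h1
      have h2 : R.natDegree ≤ P.natDegree + 1 := natDegree_polyAntideriv_le P
      rcases hPdeg with hP0 | hPn
      · have hR0 : R = 0 := by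
          rw [hR, hP0]
          unfold polyAntideriv
          simp
        rw [hR0, zero_add, natDegree_C]
        omega
      · have h3 : R.natDegree ≤ n := by omega
        have h4 : max R.natDegree 0 ≤ n := max_le h3 (Nat.zero_le n)
        omega
    · have := hc z hz
      rw [eval_add, eval_C]
      linear_combination this

/-- A polynomial tending to `0` along a vertical ray is zero. -/
theorem polynomial_eq_zero_of_vertDecay (P : ℂ[X]) (x : ℝ)
    (h : Tendsto (fun y : ℝ => P.eval ((x : ℂ) + y * I)) atTop (𝓝 0)) : P = 0 := by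
  by_cases hdeg : 0 < P.degree
  · exfalso
    have hz : Tendsto (fun y : ℝ => ‖(x : ℂ) + y * I‖) atTop atTop := by
      refine tendsto_atTop_mono (fun y => ?_) tendsto_id
      have := Complex.abs_im_le_norm ((x : ℂ) + y * I)
      have him : ((x : ℂ) + y * I).im = y := by simp
      rw [him] at this
      exact (le_abs_self y).trans this
    have h1 := P.tendsto_norm_atTop hdeg hz
    have h2 : Tendsto (fun y : ℝ => ‖P.eval ((x : ℂ) + y * I)‖) atTop (𝓝 0) := by
      simpa using h.norm
    exact not_tendsto_nhds_of_tendsto_atTop h1 _ h2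
  · have hC : P = C (P.coeff 0) := eq_C_of_degree_le_zero (not_lt.mp hdeg)
    rw [hC] at h
    simp only [eval_C] at h
    have : P.coeff 0 = 0 := tendsto_nhds_unique tendsto_const_nhds h
    rw [hC, this, C_0]

/-- Existence of the Eichler integral: a holomorphic, periodic, decaying `(w+1)`-fold
primitive. -/
theorem eichler_exists (n : ℕ) {h : ℝ} (hh : 0 < h) (F : ℍ → ℂ)
    (hol : MDiff F) (per : Periodic (F ∘ ofComplex) h) (zero : IsZeroAtImInfty F) :
    ∃ E : ℍ → ℂ, MDiff E ∧ Periodic (E ∘ ofComplex) h ∧ IsZeroAtImInfty E ∧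
      ∀ z : ℍ, iteratedDeriv n (E ∘ ofComplex) z = F z := by
  obtain ⟨E, hE0, hE⟩ := exists_iterated_periodic_primitive hh F hol per zero
  refine ⟨E n, (hE n).1, (hE n).2.1, (hE n).2.2.1, fun z => ?_⟩
  rw [iteratedDeriv_tower (fun m z => (hE m).2.2.2 z) n z, hE0]

/-- Uniqueness: a holomorphic function on `ℍ`, decaying along one vertical ray, whose `n`-th
derivative vanishes, is zero. -/
theorem eq_zero_of_iteratedDeriv_eq_zero (n : ℕ) {D : ℍ → ℂ} (hD : MDiff D)
    (hder : ∀ z : ℍ, iteratedDeriv n (D ∘ ofComplex) z = 0) {x : ℝ} (hdec : VertDecayAt x D) :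
    D = 0 := by
  have hdiff : DifferentiableOn ℂ (D ∘ ofComplex) uhpSet :=
    UpperHalfPlane.mdifferentiable_iff.mp hD
  obtain ⟨P, -, hP⟩ := exists_poly_of_iteratedDeriv_eq_zero_uhp n (D ∘ ofComplex) hdiff
    (fun z hz => hder ⟨z, hz⟩)
  have hP0 : P = 0 := by
    refine polynomial_eq_zero_of_vertDecay P x ?_
    unfold VertDecayAt at hdec
    refine (tendsto_congr' ?_).mp hdec
    filter_upwards [eventually_gt_atTop 0] with y hy
    have hy' : ((x : ℂ) + y * I) ∈ uhpSet := by
      show 0 < ((x : ℂ) + y * I).im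
      simpa using hy
    have := hP _ hy'
    simpa using this
  funext z
  have := hP z z.im_pos
  simpa [hP0] using this

/-- Uniqueness of the Eichler integral. -/
theorem eichler_unique (n : ℕ) {A B : ℍ → ℂ} (hA : MDiff A) (hB : MDiff B)
    (hder : ∀ z : ℍ, iteratedDeriv n (A ∘ ofComplex) z = iteratedDeriv n (B ∘ ofComplex) z)
    {x : ℝ} (hA0 : VertDecayAt x A) (hB0 : VertDecayAt x B) : A = B := by
  have hAd : DifferentiableOn ℂ (A ∘ ofComplex) uhpSet := UpperHalfPlane.mdifferentiable_iff.mp hA
  have hBd : DifferentiableOn ℂ (B ∘ ofComplex) uhpSet := UpperHalfPlane.mdifferentiable_iff.mp hB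
  have hsub : (A - B) ∘ ofComplex = (A ∘ ofComplex) - (B ∘ ofComplex) := rfl
  have hD : MDiff (A - B) := hA.sub hB
  have key : A - B = 0 := by
    refine eq_zero_of_iteratedDeriv_eq_zero n hD (fun z => ?_) (x := x) ?_
    · rw [hsub]
      have hcA : ContDiffAt ℂ n (A ∘ ofComplex) z :=
        (hAd.contDiffOn isOpen_uhpSet).contDiffAt (isOpen_uhpSet.mem_nhds z.im_pos) |>.of_le le_top
      have hcB : ContDiffAt ℂ n (B ∘ ofComplex) z :=
        (hBd.contDiffOn isOpen_uhpSet).contDiffAt (isOpen_uhpSet.mem_nhds z.im_pos) |>.of_le le_top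
      rw [iteratedDeriv_sub hcA hcB, hder z, sub_self]
    · unfold VertDecayAt at *
      have := hA0.sub hB0
      simpa using this
  funext z
  have := congrFun key z
  simpa [sub_eq_zero] using this

/-- Uniqueness of the Eichler integral among functions vanishing at `i∞`. -/
theorem eichler_unique' (n : ℕ) {A B : ℍ → ℂ} (hA : MDiff A) (hB : MDiff B)
    (hder : ∀ z : ℍ, iteratedDeriv n (A ∘ ofComplex) z = iteratedDeriv n (B ∘ ofComplex) z)
    (hA0 : IsZeroAtImInfty A) (hB0 : IsZeroAtImInfty B) : A = B :=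
  eichler_unique n hA hB hder (vertDecayAt_of_isZeroAtImInfty hA0 0)
    (vertDecayAt_of_isZeroAtImInfty hB0 0)

end Fermat.Agent.S22
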