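import Fermat.Agent.S22.Eichler
import Fermat.Agent.S22.PolyActSlash

/-!
# S22: generic core of the Hecke stability of the period lattice
-/

set_option autoImplicit false

open UpperHalfPlane hiding I
open Function Complex Filter Topology Polynomial
open scoped Real Manifold MatrixGroups ModularForm
open Derivative Matrix.SpecialLinearGroup

namespace Fermat.Agent.S22

namespace HeckeCore

theorem mdiff_sum {ι : Type*} (s : Finset ι) (F : ι → ℍ → ℂ) (hF : ∀ i ∈ s, MDiff (F i)) :
    MDiff (∑ i ∈ s, F i) := by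
  classical
  induction s using Finset.induction_on with
  | empty =>
    simp only [Finset.sum_empty]
    exact mdifferentiable_const
  | insert a s ha ih =>
    rw [Finset.sum_insert ha]
    exact (hF a (Finset.mem_insert_self a s)).add (ih fun i hi => hF i (Finset.mem_insert_of_mem hi))

/-- `D^[n]` commutes with finite sums of holomorphic functions -/
theorem iterate_D_sum {ι : Type*} (s : Finset ι) (F : ι → ℍ → ℂ) (hF : ∀ i ∈ s, MDiff (F i))
    (n : ℕ) : D^[n] (∑ i ∈ s, F i) = ∑ i ∈ s, D^[n] (F i) := by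
  classical
  induction s using Finset.induction_on with
  | empty =>
    simp only [Finset.sum_empty]
    induction n with
    | zero => rfl
    | succ n ih =>
      rw [Function.iterate_succ_apply', ih]
      exact normalizedDerivOfComplex_const 0
  | insert a s ha ih =>
    rw [Finset.sum_insert ha, Finset.sum_insert ha]
    have h1 : MDiff (F a) := hF a (Finset.mem_insert_self a s)
    have h2 : MDiff (∑ i ∈ s, F i) := mdiff_sum s F fun i hi => hF i (Finset.mem_insert_of_mem hi)
    rw [Eichler.iterate_D_add h1 h2, ih fun i hi => hF i (Finset.mem_insert_of_mem hi)]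

theorem isZeroAtImInfty_sum {ι : Type*} (s : Finset ι) (F : ι → ℍ → ℂ)
    (hF : ∀ i ∈ s, IsZeroAtImInfty (F i)) : IsZeroAtImInfty (∑ i ∈ s, F i) := by
  classical
  induction s using Finset.induction_on with
  | empty =>
    simp only [Finset.sum_empty]
    exact Filter.zero_zeroAtFilter _
  | insert a s ha ih =>
    rw [Finset.sum_insert ha]
    exact (hF a (Finset.mem_insert_self a s)).add (ih fun i hi => hF i (Finset.mem_insert_of_mem hi))

/-- scalars pass through the slash action of a matrix of positive determinant -/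
theorem smul_slash_of_det_pos {g : GL (Fin 2) ℝ} (hg : 0 < g.val.det) (k : ℤ) (c : ℂ)
    (F : ℍ → ℂ) : (c • F) ∣[k] g = c • (F ∣[k] g) := by
  have hdet : g.det.val = g.val.det := Matrix.GeneralLinearGroup.val_det_apply g
  have hσ : σ g c = c := by
    rw [σ, if_pos (by rw [hdet]; exact hg)]
    rfl
  rw [ModularForm.smul_slash, hσ]

theorem polyFun_sum {ι : Type*} (s : Finset ι) (P : ι → ℂ[X]) :
    polyFun (∑ i ∈ s, P i) = ∑ i ∈ s, polyFun (P i) := by
  ext z
  simp [polyFun, Polynomial.eval_finsetSum]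

end HeckeCore

open HeckeCore

section

variable (N : ℕ) [NeZero N] (w : ℕ)

local notation "Vw" => CuspForm (CongruenceSubgroup.Gamma0 N) ((w : ℤ) + 2)

/-- The Eichler integral of `T f`, for an operator `T` given by upper triangular coset
representatives of determinant `p`. -/
theorem eichlerFun_of_cosets {ι : Type} [Fintype ι] (T : Module.End ℂ Vw)
    (α : ι → GL (Fin 2) ℝ) (p : ℕ) (hp : p ≠ 0) (hdet : ∀ i, (α i).val.det = (p : ℝ))
    (hup : ∀ i, (α i) 1 0 = 0)
    (hT : ∀ f : Vw, ((T f : Vw) : ℍ → ℂ) = ∑ i, (f : ℍ → ℂ) ∣[(w : ℤ) + 2] α i) (f : Vw) :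
    eichlerFun N w (T f) = ((p : ℂ) ^ (w + 1)) • ∑ i, eichlerFun N w f ∣[-(w : ℤ)] α i := by
  have hp' : (p : ℂ) ≠ 0 := by exact_mod_cast hp
  have hpos : ∀ i, 0 < (α i).val.det := fun i => by
    rw [hdet i]; exact_mod_cast Nat.pos_of_ne_zero hp
  have hE := mdiff_eichlerFun N w f
  have hEα : ∀ i ∈ (Finset.univ : Finset ι), MDiff (eichlerFun N w f ∣[-(w : ℤ)] α i) :=
    fun i _ => hE.slash _ _
  symm
  refine eq_eichlerFun N w (T f) ((mdiff_sum _ _ hEα).const_smul _) ?_ ?_
  · exact (isZeroAtImInfty_sum _ _ fun i _ =>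
      (isZeroAtImInfty_eichlerFun N w f).slash _ (hup i)).smul _
  · rw [iterate_D_const_smul _ (mdiff_sum _ _ hEα), iterate_D_sum _ _ hEα, hT f,
      Finset.smul_sum, Finset.smul_sum]
    refine Finset.sum_congr rfl fun i _ => ?_
    rw [bol' (hpos i) hE w, iterate_D_eichlerFun, smul_slash_of_det_pos (hpos i), hdet i,
      smul_smul, smul_smul]
    congr 1
    push_cast
    field_simp

/-- An endomorphism of the space of cusp forms acts integrally on period polynomials. -/
def HeckeIntegral (T : Module.End ℂ Vw) : Prop :=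
  ∀ γ : CongruenceSubgroup.Gamma0 N, ∃ (ι : Type) (_ : Fintype ι)
    (A : ι → Matrix (Fin 2) (Fin 2) ℤ) (g : ι → CongruenceSubgroup.Gamma0 N),
    ∀ f : Vw, periodPoly N w γ (T f) = ∑ i, polyAct w (A i) (periodPoly N w (g i) f)

/-- Operators given by upper triangular integral coset representatives which are permuted by
`Γ₀(N)` act integrally on period polynomials. -/
theorem heckeIntegral_of_cosets {ι : Type} [Fintype ι] (T : Module.End ℂ Vw)
    (α : ι → GL (Fin 2) ℝ) (A : ι → Matrix (Fin 2) (Fin 2) ℤ) (p : ℕ) (hp : p ≠ 0)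
    (hdet : ∀ i, (α i).val.det = (p : ℝ)) (hup : ∀ i, (α i) 1 0 = 0)
    (hT : ∀ f : Vw, ((T f : Vw) : ℍ → ℂ) = ∑ i, (f : ℍ → ℂ) ∣[(w : ℤ) + 2] α i)
    (hA : ∀ i (P : ℂ[X]), P.natDegree ≤ w →
      ((p : ℂ) ^ (w + 1)) • (polyFun P ∣[-(w : ℤ)] α i) = polyFun (polyAct w (A i) P))
    (hperm : ∀ γ : CongruenceSubgroup.Gamma0 N, ∃ (σ : Equiv.Perm ι)
      (g : ι → CongruenceSubgroup.Gamma0 N),
      ∀ i, α i * mapGL ℝ (γ : SL(2, ℤ)) = mapGL ℝ (g i : SL(2, ℤ)) * α (σ i)) :
    HeckeIntegral N w T := by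
  intro γ
  obtain ⟨σ, g, h⟩ := hperm γ
  refine ⟨ι, inferInstance, fun i => A (σ i), g, fun f => ?_⟩
  apply Eichler.polyFun_injective
  set E := eichlerFun N w f with hE
  rw [polyFun_periodPoly, eichlerFun_of_cosets N w T α p hp hdet hup hT f, ← hE,
    ModularForm.SL_smul_slash, SlashAction.sum_slash, ← smul_sub, polyFun_sum]
  have h1 : ∀ i, (E ∣[-(w : ℤ)] α i) ∣[-(w : ℤ)] (γ : SL(2, ℤ)) =
      (E ∣[-(w : ℤ)] (g i : SL(2, ℤ))) ∣[-(w : ℤ)] α (σ i) := by
    intro i
    rw [ModularForm.SL_slash, ← SlashAction.slash_mul]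
    change E ∣[-(w : ℤ)] (α i * mapGL ℝ (γ : SL(2, ℤ))) = _
    rw [h i, SlashAction.slash_mul]
    rfl
  have h2 : ∑ i, E ∣[-(w : ℤ)] α i = ∑ i, E ∣[-(w : ℤ)] α (σ i) :=
    (Equiv.sum_comp σ fun i => E ∣[-(w : ℤ)] α i).symm
  rw [h2, ← Finset.sum_sub_distrib, Finset.smul_sum]
  refine Finset.sum_congr rfl fun i _ => ?_
  rw [h1 i, ← hA (σ i) _ (natDegree_periodPoly_le N w (g i) f), polyFun_periodPoly, ← hE,
    sub_eq_add_neg (E ∣[-(w : ℤ)] (g i : SL(2, ℤ))), SlashAction.add_slash,
    SlashAction.neg_slash, ← sub_eq_add_neg]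

/-- integral action on period polynomials implies stability of the period lattice -/
theorem stable_of_heckeIntegral {T : Module.End ℂ Vw} (hT : HeckeIntegral N w T) :
    ∀ l ∈ periodLatticeGamma0 N w, l.comp T ∈ periodLatticeGamma0 N w := by
  intro l hl
  unfold periodLatticeGamma0 periodLattice at hl
  induction hl using Submodule.span_induction with
  | mem x hx =>
    obtain ⟨γ, j, hj, rfl⟩ := hx
    obtain ⟨ι, _, A, g, h⟩ := hT γ
    have key : (coeffFunctional (periodPoly N w γ) j).comp T =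
        ∑ i, coeffFunctional ((polyAct w (A i)) ∘ₗ (periodPoly N w (g i))) j := by
      ext f
      simp only [LinearMap.comp_apply, coeffFunctional_apply, LinearMap.sum_apply, h f,
        finsetSum_coeff]
    rw [key]
    refine Submodule.sum_mem _ fun i _ => ?_
    rw [coeffFunctional_polyAct_comp]
    refine Submodule.sum_mem _ fun m hm => Submodule.smul_mem _ _ ?_
    exact coeffFunctional_mem_periodLattice w (periodPoly N w) (g i)
      (Nat.lt_succ_iff.mp (Finset.mem_range.mp hm))
  | zero =>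
    rw [LinearMap.zero_comp]
    exact Submodule.zero_mem _
  | add x y _ _ hx hy =>
    rw [LinearMap.add_comp]
    exact Submodule.add_mem _ hx hy
  | smul r x _ hx =>
    rw [LinearMap.smul_comp]
    exact Submodule.smul_mem _ r hx

end

end Fermat.Agent.S22
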