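import Mathlib
import Fermat.Prelude.Def_ModularForm_HeckeOperator
import Fermat.Prelude.Thm_ModularForm_heckeT_slash_eq_self_of_mem_Gamma0
import Fermat.Prelude.Thm_ModularForm_heckeU_slash_eq_self_of_mem_Gamma0

set_option autoImplicit false

/-!
# Hecke stability of the period lattice (function level)

`E` is an arbitrary function on the upper half plane (to be: the Eichler integral of a cusp form),
`κ` an arbitrary weight (to be: `-w`).  We express the "period" `(T_p E)∣g - T_p E` of the Hecke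
transform as a sum of slashed periods `(E∣g' - E)∣α`.
-/

open UpperHalfPlane hiding I
open Matrix.SpecialLinearGroup ModularForm
open scoped MatrixGroups ModularForm OnePoint

namespace Fermat.Agent.S22.Hecke

open P2MW.S_ModularForm_heckeT_slash_eq_self_of_mem_Gamma0.ModularForm.HeckeSlashInvariance

theorem sub_slash (κ : ℤ) (A : GL (Fin 2) ℝ) (f g : ℍ → ℂ) :
    (f - g) ∣[κ] A = f ∣[κ] A - g ∣[κ] A := by
  rw [sub_eq_add_neg, SlashAction.add_slash, SlashAction.neg_slash, ← sub_eq_add_neg]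

section T

variable {N p : ℕ} [Fact p.Prime]

/-- The period of `T_p E` along `g ∈ Γ₀(N)` is a sum of slashed periods of `E`. -/
theorem heckeT_slash_sub_eq_sum (κ : ℤ) (hpN : ¬ p ∣ N) (E : ℍ → ℂ) (g : SL(2, ℤ))
    (hg : g ∈ CongruenceSubgroup.Gamma0 N) :
    ∃ g' : OnePoint (ZMod p) → SL(2, ℤ), (∀ x, g' x ∈ CongruenceSubgroup.Gamma0 N) ∧
      (heckeT κ p E) ∣[κ] (mapGL ℝ g) - heckeT κ p E =
        ∑ x : OnePoint (ZMod p),
          (E ∣[κ] (mapGL ℝ (g' x)) - E) ∣[κ] heckeRep p (redMatrix p g • x) := by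
  have hcN : (N : ℤ) ∣ g 1 0 :=
    (ZMod.intCast_zmod_eq_zero_iff_dvd _ _).mp (CongruenceSubgroup.Gamma0_mem.mp hg)
  choose g' hg'N hmul using fun x => heckeRep_mul hpN g hcN x
  refine ⟨g', fun x => CongruenceSubgroup.Gamma0_mem.mpr
    ((ZMod.intCast_zmod_eq_zero_iff_dvd _ _).mpr (hg'N x)), ?_⟩
  have h1 : (heckeT κ p E) ∣[κ] (mapGL ℝ g) =
      ∑ x : OnePoint (ZMod p), (E ∣[κ] (mapGL ℝ (g' x))) ∣[κ] heckeRep p (redMatrix p g • x) := by
    rw [heckeT_eq_sum_onePoint κ E, SlashAction.sum_slash]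
    refine Finset.sum_congr rfl fun x _ => ?_
    rw [← SlashAction.slash_mul, hmul x, SlashAction.slash_mul]
  have h2 : heckeT κ p E = ∑ x : OnePoint (ZMod p), E ∣[κ] heckeRep p (redMatrix p g • x) := by
    rw [heckeT_eq_sum_onePoint κ E]
    exact (Equiv.sum_comp (MulAction.toPerm (redMatrix p g)) (fun x => E ∣[κ] heckeRep p x)).symm
  rw [h1]
  nth_rewrite 1 [h2]
  rw [← Finset.sum_sub_distrib]
  refine Finset.sum_congr rfl fun x _ => ?_
  rw [sub_slash]

end T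

section U

variable {N p : ℕ} [NeZero p]

/-- The period of `U_p E` along `g ∈ Γ₀(N)`, `p ∣ N`, is a sum of slashed periods of `E`. -/
theorem heckeU_slash_sub_eq_sum (κ : ℤ) (hpN : p ∣ N) (E : ℍ → ℂ) (g : SL(2, ℤ))
    (hg : g ∈ CongruenceSubgroup.Gamma0 N) :
    ∃ (g' : ZMod p → SL(2, ℤ)) (σ : Equiv.Perm (ZMod p)),
      (∀ x, g' x ∈ CongruenceSubgroup.Gamma0 N) ∧
      (heckeU κ p E) ∣[κ] (mapGL ℝ g) - heckeU κ p E =
        ∑ x : ZMod p, (E ∣[κ] (mapGL ℝ (g' x)) - E) ∣[κ] heckeMatrix p (σ x).val := by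
  have hcN : (N : ℤ) ∣ g 1 0 :=
    (ZMod.intCast_zmod_eq_zero_iff_dvd _ _).mp (CongruenceSubgroup.Gamma0_mem.mp hg)
  have hc : (p : ℤ) ∣ g 1 0 := (Int.natCast_dvd_natCast.mpr hpN).trans hcN
  choose g' hg' hmul using fun x => heckeMatrix_mul_of_dvd g hc x
  refine ⟨g', affinePerm g ((ZMod.intCast_zmod_eq_zero_iff_dvd _ _).mpr hc), fun x => ?_, ?_⟩
  · rw [CongruenceSubgroup.Gamma0_mem, hg' x]
    push_cast
    rw [CongruenceSubgroup.Gamma0_mem.mp hg, mul_zero]
  have h1 : (heckeU κ p E) ∣[κ] (mapGL ℝ g) =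
      ∑ x : ZMod p, (E ∣[κ] (mapGL ℝ (g' x))) ∣[κ] heckeMatrix p
        (affinePerm g ((ZMod.intCast_zmod_eq_zero_iff_dvd _ _).mpr hc) x).val := by
    rw [heckeU_eq_sum_zmod κ E, SlashAction.sum_slash]
    refine Finset.sum_congr rfl fun x _ => ?_
    rw [← SlashAction.slash_mul, hmul x, SlashAction.slash_mul]
  have h2 : heckeU κ p E = ∑ x : ZMod p, E ∣[κ] heckeMatrix p
      (affinePerm g ((ZMod.intCast_zmod_eq_zero_iff_dvd _ _).mpr hc) x).val := by
    rw [heckeU_eq_sum_zmod κ E]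
    exact (Equiv.sum_comp (affinePerm g _) (fun x => E ∣[κ] heckeMatrix p x.val)).symm
  rw [h1]
  nth_rewrite 1 [h2]
  rw [← Finset.sum_sub_distrib]
  refine Finset.sum_congr rfl fun x _ => ?_
  rw [sub_slash]

end U

end Fermat.Agent.S22.Hecke
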