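import Mathlib
import Fermat.Agent.S22.PolyOfDeriv

set_option autoImplicit false

open UpperHalfPlane hiding I
open Real Complex
open scoped Manifold MatrixGroups ModularForm Topology
open Fermat.Agent.S22

namespace Fermat.Agent.S22.H15

/-- A polynomial vanishing on the upper half plane is zero. -/
theorem poly_eq_zero_of_polyFun_eq_zero {P : Polynomial ℂ} (h : polyFun P = 0) : P = 0 := by
  apply Polynomial.eq_zero_of_infinite_isRoot
  have hinj : Function.Injective (fun n : ℕ => ((n : ℂ) + I)) := by
    intro a b hab
    simpa using hab
  refine Set.infinite_of_injective_forall_mem hinj ?_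
  intro n
  have him : 0 < ((n : ℂ) + I).im := by simp
  have := congrFun h ⟨(n : ℂ) + I, him⟩
  simpa [polyFun] using this

theorem polyFun_injective : Function.Injective polyFun := by
  intro P Q h
  have : polyFun (P - Q) = 0 := by
    ext z
    have := congrFun h z
    simp only [polyFun] at this
    simp [polyFun, this]
  exact sub_eq_zero.mp (poly_eq_zero_of_polyFun_eq_zero this)

/-- A polynomial function on `ℍ` which is periodic with nonzero real period is constant. -/
theorem poly_const_of_periodic {P : Polynomial ℂ} {h : ℝ} (hh : h ≠ 0)
    (hper : ∀ z : ℍ, polyFun P (h +ᵥ z) = polyFun P z) : P = Polynomial.C (P.coeff 0) := by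
  -- `P(X + h) = P(X)` as polynomials
  have h1 : P.comp (Polynomial.X + Polynomial.C (h : ℂ)) = P := by
    apply polyFun_injective
    ext z
    have := hper z
    simp only [polyFun, coe_vadd] at this
    simp only [polyFun, Polynomial.eval_comp, Polynomial.eval_add, Polynomial.eval_X,
      Polynomial.eval_C]
    rw [add_comm]
    exact this
  have h2 : ∀ n : ℕ, P.eval ((n : ℂ) * (h : ℂ)) = P.eval 0 := by
    intro n
    induction n with
    | zero => simp
    | succ n ih =>
      have := congrArg (Polynomial.eval ((n : ℂ) * (h : ℂ))) h1
      simp only [Polynomial.eval_comp, Polynomial.eval_add, Polynomial.eval_X,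
        Polynomial.eval_C] at this
      rw [← ih, ← this]
      congr 1
      push_cast
      ring
  have h3 : P - Polynomial.C (P.eval 0) = 0 := by
    apply Polynomial.eq_zero_of_infinite_isRoot
    have hinj : Function.Injective (fun n : ℕ => ((n : ℂ) * (h : ℂ))) := by
      intro a b hab
      have hh' : (h : ℂ) ≠ 0 := by exact_mod_cast hh
      have := mul_right_cancel₀ hh' hab
      exact_mod_cast this
    refine Set.infinite_of_injective_forall_mem hinj ?_
    intro n
    simp [Polynomial.IsRoot, h2 n]
  have h4 : P = Polynomial.C (P.eval 0) := sub_eq_zero.mp h3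
  rw [Polynomial.coeff_zero_eq_eval_zero]
  exact h4

end Fermat.Agent.S22.H15
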