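import Mathlib
import Fermat.Prelude.Thm_ModularForm_sturm_bound_Gamma0
import Fermat.Prelude.Thm_CongruenceSubgroup_one_mem_strictPeriods_Gamma0

set_option autoImplicit false

open UpperHalfPlane hiding I
open Real Complex Matrix SpecialLinearGroup
open scoped Manifold MatrixGroups ModularForm Topology

namespace Fermat.Agent.S22.H15

/-- A holomorphic function on `ℍ` which is invariant of non-positive weight `-w` under `Γ₀(N)`,
bounded at all cusps (checked on all `SL(2, ℤ)`-translates) and zero at `i∞` vanishes. -/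
theorem eq_zero_of_slash_invariant_of_bounded (N : ℕ) [NeZero N] (w : ℕ) (E : ℍ → ℂ)
    (hol : MDiff E)
    (hinv : ∀ γ : SL(2, ℤ), γ ∈ CongruenceSubgroup.Gamma0 N → E ∣[-(w : ℤ)] γ = E)
    (hbdd : ∀ δ : SL(2, ℤ), IsBoundedAtImInfty (E ∣[-(w : ℤ)] δ))
    (hzero : IsZeroAtImInfty E) : E = 0 := by
  -- package `E` as a modular form
  let F : ModularForm (CongruenceSubgroup.Gamma0 N : Subgroup (GL (Fin 2) ℝ)) (-(w : ℤ)) :=
    { toFun := E
      slash_action_eq' := by
        rintro _ ⟨γ, hγ, rfl⟩
        exact hinv γ hγ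
      holo' := hol
      bdd_at_cusps' := by
        intro c hc
        have hc' : IsCusp c 𝒮ℒ :=
          (Subgroup.IsArithmetic.isCusp_iff_isCusp_SL2Z _).mp hc
        rw [OnePoint.isBoundedAt_iff_forall_SL2Z hc']
        intro γ _
        exact hbdd γ }
  have hF : F = 0 := by
    apply ModularForm.sturm_bound_Gamma0 N F
    intro n hn
    have h0 : n = 0 := by
      have h1 : -(w : ℤ) * ((CongruenceSubgroup.Gamma0 N).index : ℤ) ≤ 0 :=
        mul_nonpos_of_nonpos_of_nonneg (by simp) (by positivity)
      have : (-(w : ℤ) * ((CongruenceSubgroup.Gamma0 N).index : ℤ)).toNat = 0 := by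
        omega
      rw [this] at hn
      omega
    subst h0
    have hzF : IsZeroAtImInfty (F : ℍ → ℂ) := hzero
    rw [UpperHalfPlane.qExpansion_coeff]
    simp [UpperHalfPlane.IsZeroAtImInfty.cuspFunction_apply_zero hzF one_pos]
  funext z
  have := DFunLike.congr_fun hF z
  exact this

end Fermat.Agent.S22.H15
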